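import Mathlib.RingTheory.Valuation.Basic
import Fermat.Agent.Igusa.ModEq

/-!
# The shape of the modular polynomial

`Φ(X, Y) = Y ^ (p+1) - X ^ p Y ^ p + X ^ (p+1) + …`, the other monomials `X ^ i Y ^ j` having
`i, j ≤ p`, not both `p`. With integral coefficients this controls the roots `(a, b)`
with `|a| > 1`.
-/

noncomputable section

open Polynomial

namespace Fermat.Agent.Mazur.Moduli

section Series

variable {R : Type*} [CommRing R]

/-- `f = u ^ (-a) · (c + …)`. -/
def IsLead (f : LaurentSeries R) (a : ℕ) (c : R) : Prop :=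
  ∃ F : PowerSeries R, f = HahnSeries.single (-(a : ℤ)) 1 * HahnSeries.ofPowerSeries ℤ R F ∧
    PowerSeries.constantCoeff F = c

theorem IsLead.coeff_eq {f : LaurentSeries R} {a : ℕ} {c : R} (h : IsLead f a c) :
    f.coeff (-(a : ℤ)) = c := by
  obtain ⟨F, rfl, rfl⟩ := h
  rw [HahnSeries.coeff_single_mul, one_mul, sub_self,
    show (0 : ℤ) = ((0 : ℕ) : ℤ) from rfl, HahnSeries.ofPowerSeries_apply_coeff,
    PowerSeries.coeff_zero_eq_constantCoeff]

theorem IsLead.coeff_lt {f : LaurentSeries R} {a : ℕ} {c : R} (h : IsLead f a c) {n : ℤ}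
    (hn : n < -(a : ℤ)) : f.coeff n = 0 := by
  obtain ⟨F, rfl, -⟩ := h
  rw [HahnSeries.coeff_single_mul, one_mul]
  exact ModularCurve.ofPowerSeries_coeff_of_neg _ (by omega)

theorem isLead_of_coeff {f : LaurentSeries R} {a : ℕ} (h : ∀ n < -(a : ℤ), f.coeff n = 0) :
    IsLead f a (f.coeff (-(a : ℤ))) := by
  refine ⟨PowerSeries.mk fun k => f.coeff ((k : ℤ) - a), ?_, ?_⟩
  · ext n
    rw [HahnSeries.coeff_single_mul, one_mul]
    rcases lt_or_ge (n - -(a : ℤ)) 0 with hn | hn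
    · rw [ModularCurve.ofPowerSeries_coeff_of_neg _ hn, h n (by omega)]
    · obtain ⟨k, hk⟩ := Int.eq_ofNat_of_zero_le hn
      rw [hk, HahnSeries.ofPowerSeries_apply_coeff, PowerSeries.coeff_mk]
      congr 1
      omega
  · rw [← PowerSeries.coeff_zero_eq_constantCoeff_apply, PowerSeries.coeff_mk]
    simp

theorem isLead_one : IsLead (1 : LaurentSeries R) 0 1 := ⟨1, by simp, by simp⟩

theorem isLead_zero (a : ℕ) : IsLead (0 : LaurentSeries R) a 0 := ⟨0, by simp, by simp⟩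

theorem IsLead.mul {f g : LaurentSeries R} {a b : ℕ} {c d : R} (hf : IsLead f a c)
    (hg : IsLead g b d) : IsLead (f * g) (a + b) (c * d) := by
  obtain ⟨F, rfl, rfl⟩ := hf
  obtain ⟨G, rfl, rfl⟩ := hg
  refine ⟨F * G, ?_, map_mul _ _ _⟩
  rw [mul_mul_mul_comm, ← map_mul, HahnSeries.single_mul_single, one_mul]
  congr 3
  push_cast
  ring

theorem IsLead.neg {f : LaurentSeries R} {a : ℕ} {c : R} (hf : IsLead f a c) :
    IsLead (-f) a (-c) := by
  obtain ⟨F, rfl, rfl⟩ := hf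
  exact ⟨-F, by rw [map_neg, mul_neg], map_neg _ _⟩

theorem IsLead.sub {f g : LaurentSeries R} {a : ℕ} {c d : R} (hf : IsLead f a c)
    (hg : IsLead g a d) : IsLead (f - g) a (c - d) := by
  obtain ⟨F, rfl, rfl⟩ := hf
  obtain ⟨G, rfl, rfl⟩ := hg
  exact ⟨F - G, by rw [map_sub, mul_sub], map_sub _ _ _⟩

theorem IsLead.mono {f : LaurentSeries R} {a b : ℕ} {c : R} (hf : IsLead f a c) (hab : a < b) :
    IsLead f b 0 := by
  have h := isLead_of_coeff (f := f) (a := b) fun n hn => hf.coeff_lt (by omega)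
  rwa [hf.coeff_lt (by omega)] at h

theorem IsLead.weaken {f : LaurentSeries R} {a b : ℕ} {c : R} (hf : IsLead f a c) (hab : a ≤ b) :
    ∃ d, IsLead f b d := by
  rcases hab.lt_or_eq with h | rfl
  · exact ⟨0, hf.mono h⟩
  · exact ⟨c, hf⟩

/-- Coefficients of `∏ (Y - f b)`. -/
theorem isLead_coeff_prod {ι : Type*} [DecidableEq ι] (f : ι → LaurentSeries R) (c : ι → R)
    (s : Finset ι) (h : ∀ b ∈ s, IsLead (f b) 1 (c b)) :
    (∀ i, ∃ d, IsLead ((∏ b ∈ s, (X - C (f b))).coeff i) (s.card - i) d) ∧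
      IsLead ((∏ b ∈ s, (X - C (f b))).coeff 0) s.card (∏ b ∈ s, -c b) ∧
      (∏ b ∈ s, (X - C (f b))).coeff s.card = 1 ∧
      (∀ i, s.card < i → (∏ b ∈ s, (X - C (f b))).coeff i = 0) := by
  induction s using Finset.induction_on with
  | empty =>
    refine ⟨fun i => ?_, by simpa using isLead_one, by simp,
      fun i hi => by simp at hi ⊢; simp [Polynomial.coeff_one, hi.ne']⟩
    rcases Nat.eq_zero_or_pos i with rfl | hi
    · exact ⟨1, by simpa using isLead_one⟩
    · exact ⟨0, by simpa [Polynomial.coeff_one, hi.ne'] using isLead_zero 0⟩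
  | insert a s ha ih =>
    obtain ⟨h1, h2, h3, h4⟩ := ih fun b hb => h b (Finset.mem_insert_of_mem hb)
    have hfa := h a (Finset.mem_insert_self a s)
    rw [Finset.prod_insert ha, Finset.prod_insert ha, Finset.card_insert_of_notMem ha]
    set G := ∏ b ∈ s, (X - C (f b)) with hG
    have hc : ∀ i, ((X - C (f a)) * G).coeff i =
        (if i = 0 then 0 else G.coeff (i - 1)) - f a * G.coeff i := fun i => by
      rw [sub_mul, Polynomial.coeff_sub, Polynomial.coeff_C_mul]
      congr 1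
      rcases Nat.eq_zero_or_pos i with rfl | hi
      · simp
      · obtain ⟨j, rfl⟩ := Nat.exists_eq_add_of_le' hi
        simp
    refine ⟨fun i => ?_, ?_, ?_, fun i hi => ?_⟩
    · rw [hc]
      rcases Nat.eq_zero_or_pos i with rfl | hi
      · have := (hfa.mul h2).neg
        rw [add_comm] at this
        exact ⟨_, by simpa using this⟩
      · rw [if_neg hi.ne']
        rcases le_or_gt i s.card with hle | hgt
        · obtain ⟨d, hd⟩ := h1 (i - 1)
          obtain ⟨d', hd'⟩ := h1 i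
          have e : s.card - (i - 1) = s.card + 1 - i := by omega
          have e' : 1 + (s.card - i) = s.card + 1 - i := by omega
          exact ⟨_, (e ▸ hd).sub (e' ▸ hfa.mul hd')⟩
        · rw [h4 i hgt, mul_zero, sub_zero]
          obtain ⟨d, hd⟩ := h1 (i - 1)
          exact hd.weaken (by omega)
    · rw [hc, if_pos rfl, zero_sub, neg_mul (c a)]
      have := (hfa.mul h2).neg
      rwa [add_comm] at this
    · rw [hc, if_neg (Nat.succ_ne_zero _), Nat.add_sub_cancel, h3, h4 _ (Nat.lt_succ_self _),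
        mul_zero, sub_zero]
    · rw [hc, if_neg (by omega), h4 _ (by omega), h4 _ (by omega), mul_zero, sub_zero]

/-- The coefficient of `X ^ e` read off from the series. -/
theorem coeff_evalAt_le {m : ℕ} (hm : m ≠ 0) {P : Polynomial R} {e : ℕ} (he : P.natDegree ≤ e) :
    (Igusa.evalAt (Igusa.jv (1 : Rˣ) m) P).coeff (-((m * e : ℕ) : ℤ)) = P.coeff e := by
  rw [Igusa.evalAt, Polynomial.coe_eval₂RingHom,
    Polynomial.eval₂_eq_sum_range' _ (Nat.lt_succ_of_le he), Finset.sum_range_succ,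
    HahnSeries.coeff_add, HahnSeries.coeff_sum, Finset.sum_eq_zero]
  · rw [zero_add, HahnSeries.C_mul_eq_smul, HahnSeries.coeff_smul,
      Igusa.jv_one_pow_coeff_neg hm, smul_eq_mul, mul_one]
  · intro i hi
    rw [Finset.mem_range] at hi
    rw [HahnSeries.C_mul_eq_smul, HahnSeries.coeff_smul, Igusa.jv_one_pow_coeff_of_lt hm,
      smul_zero]
    have : m * i < m * e := Nat.mul_lt_mul_of_pos_left hi (Nat.pos_of_ne_zero hm)
    omega

theorem natDegree_le_of_isLead {m : ℕ} (hm : m ≠ 0) {P : Polynomial R} {N : ℕ} {c : R}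
    (h : IsLead (Igusa.evalAt (Igusa.jv (1 : Rˣ) m) P) N c) : m * P.natDegree ≤ N := by
  by_contra hlt
  have h0 := h.coeff_lt (n := -((m * P.natDegree : ℕ) : ℤ)) (by omega)
  rw [Igusa.coeff_evalAt_jv hm, Polynomial.leadingCoeff_eq_zero] at h0
  simp [h0] at hlt

end Series

/-- The shape of the modular polynomial. -/
structure ModShape {R : Type*} [CommRing R] (p : ℕ) (Φ : Polynomial (Polynomial R)) : Prop where
  natDegree_eq : Φ.natDegree = p + 1
  coeff_top : Φ.coeff (p + 1) = 1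
  deg_le : ∀ i, i ≠ 0 → i ≤ p → (Φ.coeff i).natDegree ≤ p
  deg_zero : (Φ.coeff 0).natDegree ≤ p + 1
  coeff_zero : (Φ.coeff 0).coeff (p + 1) = 1
  coeff_p : (Φ.coeff p).coeff p = -1

theorem modShape_of_map_eq {R : Type*} [CommRing R] [IsDomain R] {p : ℕ} [hp : Fact p.Prime]
    {ζ : Rˣ} (hζ : IsPrimitiveRoot (ζ : R) p) {Φ : Polynomial (Polynomial R)}
    (hΦ : Φ.map (Igusa.evalAt (Igusa.jv (1 : Rˣ) p)) = Igusa.phiSer p ζ) : ModShape p Φ := by
  classical
  have hp2 := hp.out.two_le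
  have hp0 : p ≠ 0 := hp.out.ne_zero
  have hinj := Igusa.evalAt_jv_injective (K := R) hp0
  set x := fun b : ZMod p => Igusa.xSer ζ (b : OnePoint (ZMod p)) with hx
  set x₀ := Igusa.xSer ζ (OnePoint.infty : OnePoint (ZMod p)) with hx₀
  have hsplit : Igusa.phiSer p ζ = (X - C x₀) * ∏ b : ZMod p, (X - C (x b)) := by
    rw [Igusa.phiSer]
    exact Fintype.prod_option (f := fun o : Option (ZMod p) =>
      (X - C (Igusa.xSer ζ (o : OnePoint (ZMod p)))))
  have hb : ∀ b : ZMod p, IsLead (x b) 1 (((ζ ^ b.val)⁻¹ : Rˣ) : R) := fun b => by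
    have h := isLead_of_coeff (f := x b) (a := 1) fun n hn =>
      Igusa.jv_coeff_of_lt (ζ ^ b.val) one_ne_zero hn
    rwa [show (x b).coeff (-((1 : ℕ) : ℤ)) = _ from
      Igusa.jv_coeff_neg (ζ ^ b.val) one_ne_zero] at h
  have hinf : IsLead x₀ (p * p) 1 := by
    have h := isLead_of_coeff (f := x₀) (a := p * p) fun n hn =>
      Igusa.jv_coeff_of_lt 1 (mul_ne_zero hp0 hp0) hn
    rwa [show x₀.coeff (-((p * p : ℕ) : ℤ)) = _ from
      Igusa.jv_coeff_neg 1 (mul_ne_zero hp0 hp0), inv_one, Units.val_one] at h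
  obtain ⟨g1, g2, g3, g4⟩ := isLead_coeff_prod x (fun b => (((ζ ^ b.val)⁻¹ : Rˣ) : R))
    Finset.univ fun b _ => hb b
  rw [Finset.card_univ, ZMod.card] at g1 g2 g3 g4
  have hprod : ∏ b : ZMod p, -(((ζ ^ b.val)⁻¹ : Rˣ) : R) = -1 := by
    have h0 : ∏ b : ZMod p, -((ζ : R) ^ b.val) = -1 := by
      have h := congrArg (Polynomial.eval 0)
        (X_pow_sub_C_eq_prod hζ hp.out.pos (α := (1 : R)) (a := 1) (one_pow p))
      simp only [eval_sub, eval_pow, eval_X, eval_C, eval_prod, mul_one, zero_pow hp0,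
        zero_sub] at h
      rw [h]
      refine Finset.prod_nbij' (fun b => b.val) (fun k : ℕ => (k : ZMod p))
        (fun b _ => Finset.mem_range.mpr b.val_lt) (fun k _ => Finset.mem_univ _)
        (fun b _ => ZMod.natCast_zmod_val b)
        (fun k hk => ZMod.val_natCast_of_lt (Finset.mem_range.mp hk)) (fun b _ => rfl)
    have h1 : (∏ b : ZMod p, -(((ζ ^ b.val)⁻¹ : Rˣ) : R)) * ∏ b : ZMod p,
        -((ζ : R) ^ b.val) = 1 := by
      rw [← Finset.prod_mul_distrib]
      refine Finset.prod_eq_one fun b _ => ?_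
      rw [neg_mul_neg, ← Units.val_pow_eq_pow_val, ← Units.val_mul, inv_mul_cancel, Units.val_one]
    rw [h0, mul_neg, mul_one, neg_eq_iff_eq_neg] at h1
    exact h1
  rw [hprod] at g2
  set G := ∏ b : ZMod p, (X - C (x b)) with hG
  have hco : ∀ i, Igusa.evalAt (Igusa.jv (1 : Rˣ) p) (Φ.coeff i) =
      (if i = 0 then 0 else G.coeff (i - 1)) - x₀ * G.coeff i := fun i => by
    rw [← Polynomial.coeff_map, hΦ, hsplit, sub_mul, Polynomial.coeff_sub, Polynomial.coeff_C_mul]
    congr 1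
    rcases Nat.eq_zero_or_pos i with rfl | hi
    · simp
    · obtain ⟨j, rfl⟩ := Nat.exists_eq_add_of_le' hi
      simp
  have hdeg : Φ.natDegree = p + 1 := by
    rw [← natDegree_map_eq_of_injective hinj, hΦ, Igusa.phiSer,
      natDegree_finsetProd_X_sub_C_eq_card, Finset.card_univ, Igusa.card_onePoint]
  have h0 : IsLead (Igusa.evalAt (Igusa.jv (1 : Rˣ) p) (Φ.coeff 0)) (p * p + p) 1 := by
    rw [hco, if_pos rfl, zero_sub]
    have := (hinf.mul g2).neg
    rwa [one_mul, neg_neg] at this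
  have hi : ∀ i, i ≠ 0 → i ≤ p → ∃ c, IsLead (Igusa.evalAt (Igusa.jv (1 : Rˣ) p) (Φ.coeff i))
      (p * p + (p - i)) c := by
    intro i hi0 hip
    obtain ⟨d, hd⟩ := g1 (i - 1)
    obtain ⟨d', hd'⟩ := g1 i
    obtain ⟨e, he⟩ := hd.weaken (b := p * p + (p - i)) (by
      have : 1 ≤ p * p := Nat.one_le_iff_ne_zero.mpr (mul_ne_zero hp0 hp0)
      omega)
    rw [hco, if_neg hi0]
    exact ⟨_, he.sub (hinf.mul hd')⟩
  have hdle : ∀ i, i ≠ 0 → i ≤ p → (Φ.coeff i).natDegree ≤ p := by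
    intro i hi0 hip
    obtain ⟨c, hc⟩ := hi i hi0 hip
    have h := natDegree_le_of_isLead hp0 hc
    by_contra hlt
    have : p * (p + 1) ≤ p * (Φ.coeff i).natDegree := Nat.mul_le_mul_left p (by omega)
    rw [Nat.mul_succ] at this
    omega
  have hd0 : (Φ.coeff 0).natDegree ≤ p + 1 := by
    have h := natDegree_le_of_isLead hp0 h0
    rw [← Nat.mul_succ] at h
    exact Nat.le_of_mul_le_mul_left h hp.out.pos
  refine ⟨hdeg, ?_, hdle, hd0, ?_, ?_⟩
  · refine hinj ?_
    rw [hco, if_neg (Nat.succ_ne_zero p), Nat.add_sub_cancel, g3, g4 _ (Nat.lt_succ_self p),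
      mul_zero, sub_zero, map_one]
  · rw [← coeff_evalAt_le hp0 hd0, Nat.mul_succ, h0.coeff_eq]
  · rw [← coeff_evalAt_le hp0 (hdle p hp0 le_rfl), hco, if_neg hp0, g3, mul_one]
    obtain ⟨d, hd⟩ := g1 (p - 1)
    have hlt : p - (p - 1) < p * p := by
      have : p * 2 ≤ p * p := Nat.mul_le_mul_left p hp2
      omega
    rw [HahnSeries.coeff_sub, (hd.mono hlt).coeff_eq, hinf.coeff_eq, zero_sub]

section Valuation

variable {L Γ₀ : Type*} [Field L] [LinearOrderedCommGroupWithZero Γ₀] (v : Valuation L Γ₀)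
  {R : Type*} [CommRing R] (φ : R →+* L)

theorem val_eval₂_le (hφ : ∀ r, v (φ r) ≤ 1) {a : L} (ha : 1 ≤ v a) {P : Polynomial R} {d : ℕ}
    (hd : P.natDegree ≤ d) : v (P.eval₂ φ a) ≤ v a ^ d := by
  rw [Polynomial.eval₂_eq_sum_range' _ (Nat.lt_succ_of_le hd)]
  refine v.map_sum_le fun i hi => ?_
  rw [map_mul, map_pow]
  exact (mul_le_mul' (hφ _) le_rfl).trans (by
    rw [one_mul]; exact pow_le_pow_right₀ ha (by rw [Finset.mem_range] at hi; omega))

theorem val_eval₂_sub_top_le (hφ : ∀ r, v (φ r) ≤ 1) {a : L} (ha : 1 ≤ v a) {P : Polynomial R}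
    {d : ℕ} (hd : P.natDegree ≤ d + 1) :
    v (P.eval₂ φ a - φ (P.coeff (d + 1)) * a ^ (d + 1)) ≤ v a ^ d := by
  have h : (P - C (P.coeff (d + 1)) * X ^ (d + 1)).natDegree ≤ d := by
    refine Polynomial.natDegree_le_iff_coeff_eq_zero.mpr fun n hn => ?_
    rw [coeff_sub, coeff_C_mul, coeff_X_pow]
    rcases eq_or_ne n (d + 1) with rfl | hne
    · simp
    · rw [if_neg hne, mul_zero, sub_zero]
      exact coeff_eq_zero_of_natDegree_lt (by omega)
  simpa using val_eval₂_le v φ hφ ha h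

variable {v φ}

omit [CommRing R] in
/-- If `b ^ (n + 1) - a ^ n b ^ n + a ^ (n + 1)` is smaller than its middle term and `|a|, |b| > 1`,
then `|b| = |a| ^ n` or `|a| = |b| ^ n`. -/
theorem val_eq_pow_of_three_terms {n : ℕ} (hn : n ≠ 0) {a b : L} (ha : 1 < v a) (hb : 1 < v b)
    (hthree : v (b ^ (n + 1) - a ^ n * b ^ n + a ^ (n + 1)) < v a ^ n * v b ^ n) :
    v b = v a ^ n ∨ v a = v b ^ n := by
  have hα0 : 0 < v a := zero_lt_one.trans ha
  have hβ0 : 0 < v b := zero_lt_one.trans hb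
  set M := v a ^ n * v b ^ n with hM
  have hvM : v (a ^ n * b ^ n) = M := by rw [map_mul, map_pow, map_pow]
  rcases lt_trichotomy (v b) (v a ^ n) with hlt | heq | hgt
  · right
    by_contra hne
    have hX : v (b ^ (n + 1)) < M := by
      rw [map_pow, pow_succ, hM, mul_comm (v a ^ n)]
      exact mul_lt_mul_of_pos_left hlt (pow_pos hβ0 _)
    have hZ : v (a ^ (n + 1)) ≠ M := by
      rw [map_pow, pow_succ, hM]
      exact fun e => hne (mul_left_cancel₀ (pow_pos hα0 _).ne' e)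
    have h2 : v (-(a ^ n * b ^ n) + a ^ (n + 1)) ≥ M := by
      rw [v.map_add_of_distinct_val (by rw [Valuation.map_neg, hvM]; exact hZ.symm),
        Valuation.map_neg, hvM]
      exact le_max_left _ _
    rw [sub_eq_add_neg, add_assoc, v.map_add_eq_of_lt_right (hX.trans_le h2)] at hthree
    exact hthree.not_ge h2
  · exact Or.inl heq
  · exfalso
    have hX : M < v (b ^ (n + 1)) := by
      rw [map_pow, pow_succ, hM, mul_comm (v a ^ n)]
      exact mul_lt_mul_of_pos_left hgt (pow_pos hβ0 _)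
    have hZ : v (a ^ (n + 1)) < v (b ^ (n + 1)) := by
      rw [map_pow, map_pow]
      exact pow_lt_pow_left₀ ((le_self_pow₀ ha.le (by omega)).trans_lt hgt) zero_le (by omega)
    have h2 : v (-(a ^ n * b ^ n) + a ^ (n + 1)) < v (b ^ (n + 1)) :=
      v.map_add_lt (by rw [Valuation.map_neg, hvM]; exact hX) hZ
    rw [sub_eq_add_neg, add_assoc, v.map_add_eq_of_lt_left h2] at hthree
    exact hthree.not_gt hX

/-- A root `(a, b)` with `|a| > 1` has `|b| = |a| ^ p` or `|a| = |b| ^ p`, and in the first case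
it is a simple root. -/
theorem dichotomy_of_modShape {p : ℕ} (hp : 2 ≤ p) (hφ : ∀ r, v (φ r) ≤ 1)
    {Φ : Polynomial (Polynomial R)} (hΦ : ModShape p Φ) {a b : L} (ha : 1 < v a)
    (h : (Φ.map (eval₂RingHom φ a)).eval b = 0) :
    (v b = v a ^ p ∨ v a = v b ^ p) ∧
      (v b = v a ^ p → (derivative (Φ.map (eval₂RingHom φ a))).eval b ≠ 0) := by
  set Ψ := Φ.map (eval₂RingHom φ a) with hΨ
  obtain ⟨q, rfl⟩ : ∃ q, p = q + 2 := ⟨p - 2, by omega⟩
  set c : ℕ → L := fun i => Ψ.coeff i with hc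
  have hci : ∀ i, c i = (Φ.coeff i).eval₂ φ a := fun i => by simp [hc, hΨ]
  have hdeg : Ψ.natDegree ≤ q + 3 := natDegree_map_le.trans hΦ.natDegree_eq.le
  have hsum : ∀ y : L, Ψ.eval y =
      y ^ (q + 3) + c (q + 2) * y ^ (q + 2) + c 0 + ∑ i ∈ Finset.range (q + 1), c (i + 1) *
          y ^ (i + 1) := by
    intro y
    rw [eval_eq_sum_range' (Nat.lt_succ_of_le hdeg), Finset.sum_range_succ, Finset.sum_range_succ,
      Finset.sum_range_succ']
    show _ + c 0 * y ^ 0 + c (q + 2) * _ + c (q + 3) * _ = _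
    rw [show c (q + 3) = 1 by rw [hci, hΦ.coeff_top, eval₂_one]]
    ring
  have hmid : ∀ i ∈ Finset.range (q + 1), v (c (i + 1)) ≤ v a ^ (q + 2) := fun i hi => by
    rw [Finset.mem_range] at hi
    rw [hci]
    exact val_eval₂_le v φ hφ ha.le (hΦ.deg_le _ (by omega) (by omega))
  have hp' : v (c (q + 2) + a ^ (q + 2)) ≤ v a ^ (q + 1) := by
    have h' := val_eval₂_sub_top_le v φ hφ ha.le (d := q + 1)
      (hΦ.deg_le (q + 2) (by omega) le_rfl)
    rw [show (Φ.coeff (q + 2)).coeff (q + 1 + 1) = -1 from hΦ.coeff_p, map_neg, map_one,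
      neg_one_mul, sub_neg_eq_add, ← hci] at h'
    exact h'
  have h00 : v (c 0 - a ^ (q + 3)) ≤ v a ^ (q + 2) := by
    have h' := val_eval₂_sub_top_le v φ hφ ha.le (d := q + 2) hΦ.deg_zero
    rw [show (Φ.coeff 0).coeff (q + 2 + 1) = 1 from hΦ.coeff_zero, map_one, one_mul, ← hci] at h'
    exact h'
  have hα0 : 0 < v a := zero_lt_one.trans ha
  set R₀ := (c (q + 2) + a ^ (q + 2)) * b ^ (q + 2) + (c 0 - a ^ (q + 3)) +
    ∑ i ∈ Finset.range (q + 1), c (i + 1) * b ^ (i + 1) with hR₀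
  have hmain : b ^ (q + 3) - a ^ (q + 2) * b ^ (q + 2) + a ^ (q + 3) + R₀ = 0 := by
    rw [hsum] at h
    rw [hR₀]
    linear_combination h
  rcases le_or_gt (v b) 1 with hb | hb
  · exfalso
    have hbp : ∀ n, v b ^ n ≤ 1 := fun n => pow_le_one₀ zero_le hb
    have hR : v R₀ ≤ v a ^ (q + 2) := by
      refine v.map_add_le (v.map_add_le ?_ h00) (v.map_sum_le fun i hi => ?_)
      · rw [map_mul, map_pow]
        exact (mul_le_mul' (hp'.trans (pow_le_pow_right₀ ha.le (by omega))) (hbp _)).trans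
          (mul_one _).le
      · rw [map_mul, map_pow]
        exact (mul_le_mul' (hmid i hi) (hbp _)).trans (mul_one _).le
    have hlt : v (b ^ (q + 3) - a ^ (q + 2) * b ^ (q + 2) + R₀) ≤ v a ^ (q + 2) := by
      refine v.map_add_le (v.map_sub_le ?_ ?_) hR
      · rw [map_pow]
        exact (hbp _).trans (one_le_pow₀ ha.le)
      · rw [map_mul, map_pow, map_pow]
        exact (mul_le_mul' le_rfl (hbp _)).trans (mul_one _).le
    rw [show b ^ (q + 3) - a ^ (q + 2) * b ^ (q + 2) + R₀ = -a ^ (q + 3) by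
      linear_combination hmain,
      Valuation.map_neg, map_pow] at hlt
    exact (pow_lt_pow_right₀ ha (by omega : q + 2 < q + 3)).not_ge hlt
  have hβ0 : 0 < v b := zero_lt_one.trans hb
  set M := v a ^ (q + 2) * v b ^ (q + 2) with hM
  have hR : v R₀ < M := by
    refine v.map_add_lt (v.map_add_lt ?_ (h00.trans_lt ?_)) (v.map_sum_lt' (mul_pos (pow_pos hα0 _)
        (pow_pos hβ0 _)) fun i hi => ?_)
    · rw [map_mul, map_pow]
      exact mul_lt_mul_of_pos_right (hp'.trans_lt (pow_lt_pow_right₀ ha (by omega))) (pow_pos hβ0 _)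
    · exact lt_mul_of_one_lt_right (pow_pos hα0 _) (one_lt_pow₀ hb (by omega))
    · rw [map_mul, map_pow]
      refine (mul_le_mul' (hmid i hi) le_rfl).trans_lt ?_
      rw [Finset.mem_range] at hi
      exact mul_lt_mul_of_pos_left (pow_lt_pow_right₀ hb (by omega)) (pow_pos hα0 _)
  have hthree : v (b ^ (q + 3) - a ^ (q + 2) * b ^ (q + 2) + a ^ (q + 3)) < M := by
    rwa [show b ^ (q + 3) - a ^ (q + 2) * b ^ (q + 2) + a ^ (q + 3) = -R₀ by
      linear_combination hmain, Valuation.map_neg]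
  have hvM : v (a ^ (q + 2) * b ^ (q + 2)) = M := by rw [map_mul, map_pow, map_pow]
  refine ⟨?_, fun heq => ?_⟩
  · exact val_eq_pow_of_three_terms (Nat.succ_ne_zero _) ha hb hthree
  · have hXM : M = v b ^ (q + 3) := by rw [hM, ← heq, ← pow_succ' (v b)]
    have hZ : v (a ^ (q + 3)) < M := by
      rw [map_pow, hM, pow_succ]
      refine mul_lt_mul_of_pos_left ?_ (pow_pos hα0 _)
      rw [heq, ← pow_mul]
      calc v a = v a ^ 1 := (pow_one _).symm
        _ < _ := pow_lt_pow_right₀ ha (by nlinarith)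
    have hdiff : v (b - a ^ (q + 2)) < v b := by
      have h2 : v ((b - a ^ (q + 2)) * b ^ (q + 2)) < v b ^ (q + 3) := by
        rw [show (b - a ^ (q + 2)) * b ^ (q + 2) = (b ^ (q + 3) - a ^ (q + 2) * b ^ (q + 2) +
          a ^ (q + 3)) - a ^ (q + 3) by ring, ← hXM]
        exact v.map_sub_lt hthree hZ
      rw [map_mul, map_pow, pow_succ' (v b) (q + 2)] at h2
      exact lt_of_mul_lt_mul_right h2 zero_le
    have hd : (derivative Ψ).eval b = ((q + 3 : ℕ) : L) * b ^ (q + 2) +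
        c (q + 2) * ((q + 2 : ℕ) : L) * b ^ (q + 1) +
          ∑ i ∈ Finset.range (q + 1), c (i + 1) * ((i + 1 : ℕ) : L) * b ^ i := by
      rw [derivative_apply, sum_over_range' _ (fun n => by simp) _ (Nat.lt_succ_of_le hdeg),
        eval_finsetSum, Finset.sum_range_succ, Finset.sum_range_succ, Finset.sum_range_succ']
      simp only [eval_mul, eval_C, eval_pow, eval_X, Nat.cast_zero, mul_zero, zero_mul, add_zero]
      show _ + c (q + 2) * _ * _ + c (q + 3) * _ * _ = _
      rw [show c (q + 3) = 1 by rw [hci, hΦ.coeff_top, eval₂_one]]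
      simp only [Nat.add_sub_cancel]
      push_cast
      ring
    have hn1 : ∀ n : ℕ, v (n : L) ≤ 1 := fun n => by
      rw [← map_natCast φ]; exact hφ _
    intro h0
    have he : b ^ (q + 1) * (b + ((q + 2 : ℕ) : L) * (b - a ^ (q + 2))) =
        -(((q + 2 : ℕ) : L) * (c (q + 2) + a ^ (q + 2)) * b ^ (q + 1) +
          ∑ i ∈ Finset.range (q + 1), c (i + 1) * ((i + 1 : ℕ) : L) * b ^ i) := by
      rw [hd] at h0
      push_cast at h0 ⊢
      linear_combination h0
    have hl : v (b ^ (q + 1) * (b + ((q + 2 : ℕ) : L) * (b - a ^ (q + 2)))) = v b ^ (q + 2) := by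
      rw [map_mul, v.map_add_eq_of_lt_left (y := ((q + 2 : ℕ) : L) * (b - a ^ (q + 2))), map_pow,
        ← pow_succ]
      rw [map_mul]
      exact (mul_le_mul' (hn1 _) le_rfl).trans_lt (by rwa [one_mul])
    have hr : v (-(((q + 2 : ℕ) : L) * (c (q + 2) + a ^ (q + 2)) * b ^ (q + 1) +
        ∑ i ∈ Finset.range (q + 1), c (i + 1) * ((i + 1 : ℕ) : L) * b ^ i)) < v b ^ (q + 2) := by
      rw [Valuation.map_neg]
      refine v.map_add_lt ?_ (v.map_sum_lt' (pow_pos hβ0 _) fun i hi => ?_)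
      · rw [map_mul, map_mul, map_pow]
        refine (mul_le_mul' (mul_le_mul' (hn1 _) hp') le_rfl).trans_lt ?_
        rw [one_mul, pow_succ' (v b) (q + 1)]
        refine mul_lt_mul_of_pos_right ?_ (pow_pos hβ0 _)
        rw [heq]
        exact pow_lt_pow_right₀ ha (by omega)
      · rw [map_mul, map_mul, map_pow]
        refine (mul_le_mul' (mul_le_mul' (hmid i hi) (hn1 _)) le_rfl).trans_lt ?_
        rw [Finset.mem_range] at hi
        rw [mul_one, ← heq, ← pow_succ']
        exact pow_lt_pow_right₀ hb (by omega)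
    rw [← he, hl] at hr
    exact lt_irrefl _ hr

end Valuation

end Fermat.Agent.Mazur.Moduli
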