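import Fermat.Agent.FF.Modular
import Fermat.Agent.FF.Places
import Fermat.Agent.Mazur.Defs
import Fermat.Agent.Mazur.Moduli.Shape
import Fermat.Agent.Mono.BaseChange
import Fermat.Agent.Mono.PlaceData

/-!
# Places of `X₀(p)` with given values of `(j, j_p)`

The values satisfy the modular equation; a simple root determines the place; every `τ` gives a place
with values `(j(τ), j(pτ))` when these are algebraic.
-/

noncomputable section

open AlgebraicCurve ModularCurve Polynomial

namespace Fermat.Agent.Mazur.Moduli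

local notation "Qbar" => AlgebraicClosure ℚ

section Values

variable {K F : Type*} [Field K] [Field F] [Algebra K F]

/-- `f` has value `c` at the place `x`. -/
def HasVal (x : Place K F) (f : F) (c : K) : Prop :=
  x.toValuationSubring.valuation (f - algebraMap K F c) < 1

/-- The two ways of having a value agree. -/
theorem hasVal_iff (x : Place K F) (f : F) (c : K) :
    HasVal x f c ↔ (f = algebraMap K F c ∨ 0 < x.ord (f - algebraMap K F c)) := by
  rw [HasVal]
  rcases eq_or_ne (f - algebraMap K F c) 0 with h | h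
  · rw [h, map_zero]
    exact iff_of_true zero_lt_one (Or.inl (sub_eq_zero.mp h))
  · rw [or_iff_right (fun e => h (sub_eq_zero.mpr e))]
    set z := f - algebraMap K F c
    constructor
    · intro hz
      by_contra hle
      push Not at hle
      have hi : z⁻¹ ∈ x.toValuationSubring := by
        rw [FF.mem_iff_ord_nonneg, x.ord_inv]; omega
      have h1 := (x.toValuationSubring.valuation_le_one_iff _).mpr hi
      rw [map_inv₀, inv_le_one₀ (zero_lt_iff.mpr ((Valuation.ne_zero_iff _).mpr h))] at h1
      exact hz.not_ge h1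
    · intro hz
      by_contra hge
      push Not at hge
      have hi : z⁻¹ ∈ x.toValuationSubring := by
        rw [← x.toValuationSubring.valuation_le_one_iff, map_inv₀,
          inv_le_one₀ (zero_lt_one.trans_le hge)]
        exact hge
      rw [FF.mem_iff_ord_nonneg, x.ord_inv] at hi
      omega

variable {x : Place K F}

theorem hasVal_const (c : K) : HasVal x (algebraMap K F c) c := by simp [HasVal]

theorem HasVal.mem {f : F} {c : K} (h : HasVal x f c) : f ∈ x.toValuationSubring := by
  have := add_mem ((x.toValuationSubring.valuation_le_one_iff _).mp (le_of_lt h))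
    (x.algebraMap_mem' c)
  rwa [sub_add_cancel] at this

theorem HasVal.add {f g : F} {c d : K} (hf : HasVal x f c) (hg : HasVal x g d) :
    HasVal x (f + g) (c + d) := by
  rw [HasVal, map_add, show f + g - (algebraMap K F c + algebraMap K F d) =
    (f - algebraMap K F c) + (g - algebraMap K F d) by ring]
  exact Valuation.map_add_lt _ hf hg

theorem HasVal.mul {f g : F} {c d : K} (hf : HasVal x f c) (hg : HasVal x g d) :
    HasVal x (f * g) (c * d) := by
  rw [HasVal, map_mul, show f * g - algebraMap K F c * algebraMap K F d =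
    (f - algebraMap K F c) * g + algebraMap K F c * (g - algebraMap K F d) by ring]
  refine Valuation.map_add_lt _ ?_ ?_
  · rw [map_mul]
    exact (mul_le_mul' le_rfl ((x.toValuationSubring.valuation_le_one_iff _).mpr hg.mem)).trans_lt
      (by rwa [mul_one])
  · rw [map_mul]
    exact (mul_le_mul' ((x.toValuationSubring.valuation_le_one_iff _).mpr
      (x.algebraMap_mem' c)) le_rfl).trans_lt (by rwa [one_mul])

theorem HasVal.eq_of_zero {c : K} (h : HasVal x (0 : F) c) : c = 0 := by
  by_contra hc
  rw [hasVal_iff] at h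
  rcases h with h | h
  · exact hc ((map_eq_zero _).mp h.symm)
  · rw [zero_sub, FF.ord_neg, FF.ord_algebraMap] at h
    exact lt_irrefl _ h

theorem HasVal.ord_eq_zero {f : F} {c : K} (h : HasVal x f c) (hc : c ≠ 0) :
    f ≠ 0 ∧ x.ord f = 0 := by
  have hf : f ≠ 0 := fun e => hc (e ▸ h).eq_of_zero
  have hm := h.mem
  rw [FF.mem_iff_ord_nonneg] at hm
  refine ⟨hf, le_antisymm ?_ hm⟩
  by_contra hpos
  push Not at hpos
  have h0 : HasVal x f 0 := (hasVal_iff x f 0).mpr (Or.inr (by simpa using hpos))
  have h1 := h0.add ((hasVal_const (-1 : K)).mul h)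
  rw [show f + algebraMap K F (-1) * f = 0 by simp] at h1
  exact hc (by simpa using h1.eq_of_zero)

/-- Evaluation of polynomials in two elements. -/
def ev2 (u w : F) : Polynomial (Polynomial K) →+* F :=
  eval₂RingHom (aeval u).toRingHom w

theorem hasVal_ev2 {u w : F} {a b : K} (hu : HasVal x u a) (hw : HasVal x w b)
    (P : Polynomial (Polynomial K)) : HasVal x (ev2 u w P) (P.evalEval a b) := by
  induction P using Polynomial.induction_on' with
  | add P Q hP hQ => rw [map_add, evalEval_add]; exact hP.add hQ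
  | monomial n r =>
    have hr : HasVal x (aeval u r) (r.eval a) := by
      induction r using Polynomial.induction_on' with
      | add P Q hP hQ => rw [map_add, eval_add]; exact hP.add hQ
      | monomial k s =>
        rw [aeval_monomial, eval_monomial]
        refine (hasVal_const s).mul ?_
        induction k with
        | zero => simpa using hasVal_const (x := x) (1 : K)
        | succ k ih => rw [pow_succ, pow_succ]; exact ih.mul hu
    simp only [ev2, coe_eval₂RingHom, eval₂_monomial, evalEval, eval_monomial, eval_mul, eval_pow,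
      eval_C]
    refine hr.mul ?_
    induction n with
    | zero => simpa using hasVal_const (x := x) (1 : K)
    | succ n ih => rw [pow_succ, pow_succ]; exact ih.mul hw

end Values

variable (p : ℕ) [hp : Fact p.Prime]

omit hp in
theorem hasValue_iff_hasVal (x : XPlace p) (f : modularFunctionFieldBar p) (a : Qbar) :
    HasValue p x f a ↔ HasVal x f a := (hasVal_iff x f a).symm

theorem coe_jBar : ((jBar p : modularFunctionFieldBar p) : LaurentSeries Qbar) = jqModC Qbar :=
  Mono.coeffEmb_jq Qbar

theorem coe_jNBar :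
    ((jNBar p : modularFunctionFieldBar p) : LaurentSeries Qbar) = jqNModC Qbar p := by
  show coeffEmb Qbar (qExpand ℚ p jq) = _
  rw [coeffEmb, ModularCurve.coeffMap_qExpand, ← coeffEmb, Mono.coeffEmb_jq]
  rfl

/-- `j` and `j_p` generate. -/
theorem exists_div_ev2 (f : modularFunctionFieldBar p) :
    ∃ P Q : Polynomial (Polynomial Qbar),
      f = ev2 (jBar p) (jNBar p) P / ev2 (jBar p) (jNBar p) Q := by
  have hgen : IntermediateField.adjoin Qbar
      ({jBar p, jNBar p} : Set (modularFunctionFieldBar p)) = ⊤ := by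
    apply IntermediateField.map_injective (modularFunctionFieldBar p).val
    rw [IntermediateField.adjoin_map, ← AlgHom.fieldRange_eq_map,
      IntermediateField.fieldRange_val, Set.image_pair]
    show IntermediateField.adjoin Qbar {_, _} = laurentBaseChange Qbar (modularFunctionFieldFull p)
    rw [MF.laurentBaseChange_full_eq_pair, IntermediateField.coe_val, coe_jBar, coe_jNBar]
    rfl
  have hf : f ∈ IntermediateField.adjoin Qbar
      ({jBar p, jNBar p} : Set (modularFunctionFieldBar p)) := hgen ▸ IntermediateField.mem_top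
  obtain ⟨r, hr, s, hs, rfl⟩ := IntermediateField.mem_adjoin_iff_div.mp hf
  have hran : ∀ r ∈ Algebra.adjoin Qbar ({jBar p, jNBar p} : Set (modularFunctionFieldBar p)),
      ∃ P : Polynomial (Polynomial Qbar), ev2 (jBar p) (jNBar p) P = r := by
    intro r hr
    induction hr using Algebra.adjoin_induction with
    | mem y hy =>
      rcases hy with rfl | rfl
      · exact ⟨C X, by simp [ev2]⟩
      · exact ⟨X, by simp [ev2]⟩
    | algebraMap c => exact ⟨C (C c), by simp [ev2]⟩
    | add a b _ _ ha hb =>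
      obtain ⟨P, rfl⟩ := ha; obtain ⟨Q, rfl⟩ := hb; exact ⟨P + Q, map_add _ _ _⟩
    | mul a b _ _ ha hb =>
      obtain ⟨P, rfl⟩ := ha; obtain ⟨Q, rfl⟩ := hb; exact ⟨P * Q, map_mul _ _ _⟩
  obtain ⟨P, rfl⟩ := hran r hr
  obtain ⟨Q, rfl⟩ := hran s hs
  exact ⟨P, Q, rfl⟩

/-- The modular equation holds in the function field. -/
theorem ev2_modPoly {ζ : Qbarˣ} {Φ : Polynomial (Polynomial Qbar)}
    (hΦ : Φ.map (Igusa.evalAt (Igusa.jv (1 : Qbarˣ) p)) = Igusa.phiSer p ζ) :
    ev2 (jBar p) (jNBar p) Φ = 0 := by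
  have hp0 : p ≠ 0 := hp.out.ne_zero
  have e1 : Igusa.jv (1 : Qbarˣ) p = qExpand Qbar p (jqModC Qbar) := Igusa.jv_one_eq_qExpand p
  have e2 : Igusa.xSer ζ (OnePoint.infty : OnePoint (ZMod p)) =
      qExpand Qbar p (jqNModC Qbar p) := by
    rw [jqNModC, qExpand_qExpand]
    exact Igusa.jv_one_eq_qExpand (p * p)
  have h : (Φ.map (Igusa.evalAt (Igusa.jv (1 : Qbarˣ) p))).eval
      (Igusa.xSer ζ (OnePoint.infty : OnePoint (ZMod p))) = 0 := by
    rw [hΦ, Igusa.phiSer, eval_prod]
    exact Finset.prod_eq_zero (Finset.mem_univ (OnePoint.infty : OnePoint (ZMod p))) (by simp)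
  have key : ((qExpand Qbar p).comp
      (modularFunctionFieldBar p).val.toRingHom).comp (ev2 (jBar p) (jNBar p)) =
      eval₂RingHom (Igusa.evalAt (Igusa.jv (1 : Qbarˣ) p))
        (Igusa.xSer ζ (OnePoint.infty : OnePoint (ZMod p))) := by
    refine Polynomial.ringHom_ext (fun r => ?_) ?_
    · simp only [RingHom.comp_apply, ev2, coe_eval₂RingHom, eval₂_C]
      have hcomp : ((qExpand Qbar p).comp (modularFunctionFieldBar p).val.toRingHom).comp
          (aeval (jBar p)).toRingHom = Igusa.evalAt (Igusa.jv (1 : Qbarˣ) p) := by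
        refine Polynomial.ringHom_ext (fun c => ?_) ?_
        · simp only [RingHom.comp_apply, AlgHom.toRingHom_eq_coe, RingHom.coe_coe, aeval_C,
            AlgHom.commutes, Igusa.evalAt_C]
          rw [algebraMap_laurentSeries_eq_single, qExpand_single, mul_zero, HahnSeries.C_apply]
        · simp only [RingHom.comp_apply, AlgHom.toRingHom_eq_coe, RingHom.coe_coe, aeval_X,
            Igusa.evalAt_X, IntermediateField.coe_val, coe_jBar, e1]
      exact DFunLike.congr_fun hcomp r
    · simp only [RingHom.comp_apply, ev2, coe_eval₂RingHom, eval₂_X, AlgHom.toRingHom_eq_coe,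
        RingHom.coe_coe, IntermediateField.coe_val, coe_jNBar, e2]
  have h0 := DFunLike.congr_fun key Φ
  rw [coe_eval₂RingHom, ← eval_map, h] at h0
  refine (((qExpand Qbar p).comp (modularFunctionFieldBar p).val.toRingHom).injective ?_)
  rw [map_zero]
  exact h0

theorem jBar_ne_algebraMap (a : Qbar) : jBar p ≠ algebraMap Qbar _ a := fun e => by
  refine MF.transcendental_jqModC (K := Qbar) ?_
  rw [← coe_jBar p, e]
  exact isAlgebraic_algebraMap a

theorem exists_eq_X_sub_C_mul {R : Type*} [CommRing R] (P : Polynomial R) (r : R) :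
    ∃ P₁, P = C (P.eval r) + (X - C r) * P₁ := by
  obtain ⟨P₁, h⟩ := X_sub_C_dvd_sub_C_eval (p := P) (a := r)
  exact ⟨P₁, by rw [← h]; ring⟩

/-- A simple root of the modular equation determines the place. -/
theorem place_unique {ζ : Qbarˣ} {Φ : Polynomial (Polynomial Qbar)}
    (hΦ : Φ.map (Igusa.evalAt (Igusa.jv (1 : Qbarˣ) p)) = Igusa.phiSer p ζ) {a b : Qbar}
    (hsimple : (derivative (Φ.map (evalRingHom a))).eval b ≠ 0) {x x' : XPlace p}
    (hxa : HasVal x (jBar p) a) (hxb : HasVal x (jNBar p) b)
    (hxa' : HasVal x' (jBar p) a) (hxb' : HasVal x' (jNBar p) b) : x = x' := by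
  set e : Polynomial (Polynomial Qbar) →+* modularFunctionFieldBar p :=
    ev2 (jBar p) (jNBar p) with he
  have hrel : e Φ = 0 := ev2_modPoly p hΦ
  have hab : Φ.evalEval a b = 0 := (hrel ▸ hasVal_ev2 hxa hxb Φ).eq_of_zero
  obtain ⟨R, hR⟩ := exists_eq_X_sub_C_mul Φ (C b)
  obtain ⟨S, hS⟩ := exists_eq_X_sub_C_mul (Φ.eval (C b)) a
  have ha0 : (Φ.eval (C b)).eval a = 0 := hab
  rw [ha0, map_zero, zero_add] at hS
  rw [hS] at hR
  have hRne : R.evalEval a b ≠ 0 := by
    have : (derivative (Φ.map (evalRingHom a))).eval b = R.evalEval a b := by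
      rw [hR]
      simp only [Polynomial.map_add, Polynomial.map_mul, Polynomial.map_sub, Polynomial.map_C,
        Polynomial.map_X, coe_evalRingHom, eval_C, derivative_add, derivative_C, derivative_mul,
        derivative_sub, derivative_X, eval_add, eval_mul, eval_sub, eval_X,
        sub_self, zero_mul, sub_zero, zero_add, add_zero, one_mul]
      exact map_evalRingHom_eval a b R
    rwa [this] at hsimple
  obtain ⟨hr0, hrx⟩ := (hasVal_ev2 hxa hxb R).ord_eq_zero hRne
  obtain ⟨-, hrx'⟩ := (hasVal_ev2 hxa' hxb' R).ord_eq_zero hRne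
  set t := jBar p - algebraMap Qbar _ a with ht
  have ht0 : t ≠ 0 := sub_ne_zero.mpr (jBar_ne_algebraMap p a)
  have htx : 0 < x.ord t := ((hasVal_iff x _ _).mp hxa).resolve_left (jBar_ne_algebraMap p a)
  have htx' : 0 < x'.ord t := ((hasVal_iff x' _ _).mp hxa').resolve_left (jBar_ne_algebraMap p a)
  have htC : e (C (X - C a)) = t := by simp [he, ev2, ht]
  have hw : e (X - C (C b)) * e R = -(t * e (C S)) := by
    rw [eq_neg_iff_add_eq_zero, ← htC, ← map_mul, ← map_mul, ← map_add, ← hrel]
    congr 1
    conv_rhs => rw [hR]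
    rw [map_mul]
    ring
  have step : ∀ P : Polynomial (Polynomial Qbar), P.evalEval a b = 0 →
      ∃ P', e P * e R = t * e P' := by
    intro P hP
    obtain ⟨P₁, h1⟩ := exists_eq_X_sub_C_mul P (C b)
    obtain ⟨P₂, h2⟩ := exists_eq_X_sub_C_mul (P.eval (C b)) a
    have hP0 : (P.eval (C b)).eval a = 0 := hP
    rw [hP0, map_zero, zero_add] at h2
    refine ⟨C P₂ * R - C S * P₁, ?_⟩
    conv_lhs => rw [h1, h2]
    rw [map_mul (C : Qbar[X] →+* _), map_add, map_mul e, map_mul e, map_sub e (C P₂ * R),
      map_mul e, map_mul e, htC]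
    linear_combination (e P₁) * hw
  have key : ∀ (n : ℕ) (P : Polynomial (Polynomial Qbar)), e P ≠ 0 → x.ord (e P) = n →
      x.ord (e P) * x'.ord t = x'.ord (e P) * x.ord t := by
    intro n
    induction n using Nat.strong_induction_on with
    | _ n ih =>
      intro P hP hn
      by_cases h0 : P.evalEval a b = 0
      · obtain ⟨P', hP'⟩ := step P h0
        have hP'0 : e P' ≠ 0 := fun e0 => by
          rw [e0, mul_zero] at hP'
          exact mul_ne_zero hP hr0 hP'
        have e1 := congrArg x.ord hP'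
        have e2 := congrArg x'.ord hP'
        rw [x.ord_mul hP hr0, x.ord_mul ht0 hP'0, hrx, add_zero] at e1
        rw [x'.ord_mul hP hr0, x'.ord_mul ht0 hP'0, hrx', add_zero] at e2
        have hnn : 0 ≤ x.ord (e P') := FF.mem_iff_ord_nonneg x |>.mp (hasVal_ev2 hxa hxb P').mem
        obtain ⟨m, hm⟩ := Int.eq_ofNat_of_zero_le hnn
        have := ih m (by omega) P' hP'0 hm
        rw [e1, e2]
        linear_combination this
      · rw [((hasVal_ev2 hxa hxb P).ord_eq_zero h0).2, ((hasVal_ev2 hxa' hxb' P).ord_eq_zero h0).2]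
        ring
  have key' : ∀ P, e P ≠ 0 → x.ord (e P) * x'.ord t = x'.ord (e P) * x.ord t := fun P hP => by
    obtain ⟨m, hm⟩ := Int.eq_ofNat_of_zero_le
      (FF.mem_iff_ord_nonneg x |>.mp (hasVal_ev2 hxa hxb P).mem)
    exact key m P hP hm
  refine FF.place_ext fun f => ?_
  rcases eq_or_ne f 0 with rfl | hf
  · simp
  obtain ⟨P, Q, rfl⟩ := exists_div_ev2 p f
  have hP0 : e P ≠ 0 := fun h0 => hf (by rw [← he, h0, zero_div])
  have hQ0 : e Q ≠ 0 := fun h0 => hf (by rw [← he, h0, div_zero])
  rw [FF.ord_div x hP0 hQ0, FF.ord_div x' hP0 hQ0]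
  have h3 : (x.ord (e P) - x.ord (e Q)) * x'.ord t = (x'.ord (e P) - x'.ord (e Q)) * x.ord t := by
    linear_combination key' P hP0 - key' Q hQ0
  constructor
  · intro h
    have : 0 ≤ (x'.ord (e P) - x'.ord (e Q)) * x.ord t := h3 ▸ mul_nonneg h htx'.le
    exact nonneg_of_mul_nonneg_left this htx
  · intro h
    have : 0 ≤ (x.ord (e P) - x.ord (e Q)) * x'.ord t := h3.symm ▸ mul_nonneg h htx.le
    exact nonneg_of_mul_nonneg_left this htx'

/-- The place of a point of `ℍ` with algebraic values of `j` and `j_p`. -/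
theorem exists_place (τ : UpperHalfPlane) {a b : Qbar} (ha : X0.jFun τ = complexEmbedding a)
    (hb : X0.jFun (MF.scale p τ) = complexEmbedding b) :
    ∃ x : XPlace p, HasVal x (jBar p) a ∧ HasVal x (jNBar p) b := by
  obtain ⟨v, c, hc, hv⟩ := (Mono.placeData p).exists_pt τ
  have hconst : ∀ r : Qbar, Mono.toFC p (algebraMap Qbar _ r) =
      algebraMap ℂ (Mono.FC p) (complexEmbedding r) := fun r =>
    (Mono.isConstExt_baseChangeHom _ complexEmbedding).compat r
  have hjC : Mono.toFC p (jBar p) = X0.jC p := Subtype.ext (by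
    rw [Mono.coe_toFC, coe_jBar, coeffMap_jqModC]
    rfl)
  have hval : ∀ (f : modularFunctionFieldBar p) (r : Qbar) (A B : UpperHalfPlane → ℂ),
      Mono.IsRep p (Mono.toFC p f - algebraMap ℂ (Mono.FC p) (complexEmbedding r)) 12 A B →
      A τ = 0 → B τ ≠ 0 → v.toValuationSubring.valuation
        (Mono.toFC p (f - algebraMap Qbar _ r)) < 1 := by
    intro f r A B hr hA hB
    rw [map_sub, hconst]
    refine (hasVal_iff v _ _).mpr ?_
    rcases eq_or_ne (Mono.toFC p f - algebraMap ℂ (Mono.FC p) (complexEmbedding r)) 0 with h0 | h0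
    · exact Or.inl (sub_eq_zero.mp h0)
    refine Or.inr ?_
    obtain ⟨m, hm⟩ := Mono.exists_hasPtOrd hr.num.mdiff (hr.num_ne h0) τ
    have hB0 : Mono.HasPtOrd B τ 0 := by
      show analyticOrderAt _ _ = ((0 : ℕ) : ℕ∞)
      rw [Nat.cast_zero, (Mono.analyticAt_coe hr.den.mdiff τ).analyticOrderAt_eq_zero]
      simpa using hB
    have hm0 : m ≠ 0 := by
      rintro rfl
      have h1 : analyticOrderAt (A ∘ UpperHalfPlane.ofComplex) (τ : ℂ) = 0 := by
        simpa [Mono.HasPtOrd] using hm
      rw [(Mono.analyticAt_coe hr.num.mdiff τ).analyticOrderAt_eq_zero] at h1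
      exact h1 (by simpa using hA)
    have h2 := hv _ 12 A B m 0 hr h0 hm hB0
    simp only [Nat.cast_zero, sub_zero] at h2
    by_contra hle
    push Not at hle
    have : (c : ℤ) * v.ord _ ≤ 0 := mul_nonpos_of_nonneg_of_nonpos (Int.natCast_nonneg c) hle
    rw [h2] at this
    omega
  have h1 : v.toValuationSubring.valuation
      (Mono.toFC p (jBar p - algebraMap Qbar _ a)) < 1 := by
    refine hval _ a _ _ (hjC ▸ Mono.isRep_jC_sub (complexEmbedding a)) ?_ (MF.deltaFn_ne_zero τ)
    simp only [Pi.sub_apply, Pi.pow_apply, Pi.smul_apply, smul_eq_mul, ← ha]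
    rw [show X0.jFun τ = MF.jFun τ from rfl, MF.jFun_mul_delta, sub_self]
  have h2 : v.toValuationSubring.valuation
      (Mono.toFC p (jNBar p - algebraMap Qbar _ b)) < 1 := by
    refine hval _ b (MF.numN p - complexEmbedding b • MF.denN p) (MF.denN p) ?_ ?_
      (MF.denN_ne_zero p τ)
    · refine ⟨(MF.isFormFn_numN p).sub ((MF.isFormFn_denN p).smul _), MF.isFormFn_denN p,
        MF.denN_ne_zero' p, ?_⟩
      rw [MF.lq_sub (MF.isFormFn_numN p).isQFn0 ((MF.isFormFn_denN p).smul _).isQFn0,
        MF.lq_smul (MF.isFormFn_denN p).isQFn0, MF.lq_numN, ← sub_mul, ← MF.algebraMap_eq_C,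
        AddSubgroupClass.coe_sub, Mono.coe_toFC, coe_jNBar, coeffMap_jqNModC]
      rfl
    · simp only [Pi.sub_apply, Pi.smul_apply, smul_eq_mul, ← hb]
      rw [show X0.jFun (MF.scale p τ) = MF.jFun (MF.scale p τ) from rfl, ← MF.numN_div_denN,
        div_mul_cancel₀ _ (MF.denN_ne_zero p τ), sub_self]
  set V : ValuationSubring (modularFunctionFieldBar p) :=
    v.toValuationSubring.comap (Mono.toFC p) with hV
  have hlt : ∀ z : modularFunctionFieldBar p,
      v.toValuationSubring.valuation (Mono.toFC p z) < 1 → z = 0 ∨ z⁻¹ ∉ V := by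
    intro z hz
    rcases eq_or_ne z 0 with h0 | h0
    · exact Or.inl h0
    refine Or.inr fun hi => ?_
    have hi' : Mono.toFC p z⁻¹ ∈ v.toValuationSubring := hi
    rw [← v.toValuationSubring.valuation_le_one_iff, map_inv₀, map_inv₀,
      inv_le_one₀ (zero_lt_iff.mpr ((Valuation.ne_zero_iff _).mpr ((_root_.map_ne_zero _).mpr h0)))]
          at hi'
    exact hz.not_ge hi'
  have hne : V ≠ ⊤ := fun htop => by
    rcases hlt _ h1 with h | h
    · exact jBar_ne_algebraMap p a (sub_eq_zero.mp h)
    · exact h (htop ▸ ValuationSubring.mem_top _)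
  have hK : ∀ r : Qbar, algebraMap Qbar (modularFunctionFieldBar p) r ∈ V := fun r => by
    show Mono.toFC p _ ∈ v.toValuationSubring
    rw [hconst]
    exact v.algebraMap_mem' _
  let x : XPlace p := FF.placeOfValuationSubring V hK hne
  refine ⟨x, ?_, ?_⟩
  all_goals
    rw [HasVal, ← not_le]
    intro h
  · rcases hlt _ h1 with h0 | h0
    · rw [h0, map_zero] at h; exact absurd h zero_lt_one.not_ge
    · refine h0 ?_
      show _ ∈ x.toValuationSubring
      rw [← x.toValuationSubring.valuation_le_one_iff, map_inv₀]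
      exact inv_le_one_of_one_le₀ h
  · rcases hlt _ h2 with h0 | h0
    · rw [h0, map_zero] at h; exact absurd h zero_lt_one.not_ge
    · refine h0 ?_
      show _ ∈ x.toValuationSubring
      rw [← x.toValuationSubring.valuation_le_one_iff, map_inv₀]
      exact inv_le_one_of_one_le₀ h

omit hp in
/-- The values at a Galois conjugate place are the conjugate values. -/
theorem hasVal_smul {x : XPlace p} {f : modularFunctionFieldBar p} {a : Qbar}
    (σ : Qbar ≃ₐ[ℚ] Qbar) (h : HasVal x f a) :
    HasVal (arithmeticGalois (L := Qbar) (modularFunctionFieldFull p) σ • x)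
      (arithmeticGalois (L := Qbar) (modularFunctionFieldFull p) σ • f) (σ a) := by
  have hc : arithmeticGalois (L := Qbar) (modularFunctionFieldFull p) σ •
      algebraMap Qbar (modularFunctionFieldBar p) a = algebraMap Qbar _ (σ a) :=
    SemilinearAut.smul_algebraMap _ a
  rw [hasVal_iff] at h ⊢
  rcases h with h | h
  · exact Or.inl (by rw [h, hc])
  · refine Or.inr ?_
    rw [← hc, ← smul_sub, SemilinearAut.ord_smul]
    exact h

theorem smul_jBar (σ : Qbar ≃ₐ[ℚ] Qbar) :
    arithmeticGalois (L := Qbar) (modularFunctionFieldFull p) σ • jBar p = jBar p := Subtype.ext (by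
  rw [coe_arithmeticGalois_smul, coe_jBar, coeffMap_jqModC])

theorem smul_jNBar (σ : Qbar ≃ₐ[ℚ] Qbar) :
    arithmeticGalois (L := Qbar) (modularFunctionFieldFull p) σ • jNBar p = jNBar p :=
  Subtype.ext (by
  rw [coe_arithmeticGalois_smul, coe_jNBar, coeffMap_jqNModC])

end Fermat.Agent.Mazur.Moduli
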