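import Mathlib.Analysis.Normed.Group.Tannery
import Mathlib.Analysis.PSeries
import Mathlib.Analysis.SpecialFunctions.Trigonometric.Cotangent
import Mathlib.FieldTheory.KummerExtension
import Mathlib.RingTheory.RootsOfUnity.Complex

/-!
# `∑ 1 / (p n + d) ^ 3`

The sum equals `-4 π³ i / p³ · u (u + 1) / (u - 1) ^ 3` with `u = exp (2 π i d / p)`; the product
over `d` of the fourth powers follows from the cyclotomic polynomial.
-/

noncomputable section

open Complex Filter Topology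
open scoped Real

namespace Fermat.Agent.Mazur.Moduli

local notation "ℍₒ" => UpperHalfPlane.upperHalfPlaneSet

theorem exp_two_pi_I_ne_one {z : ℂ} (hz : z ∈ integerComplement) :
    Complex.exp (2 * π * I * z) ≠ 1 := by
  intro h
  obtain ⟨n, hn⟩ := Complex.exp_eq_one_iff.mp h
  refine (Complex.mem_integerComplement_iff.mp hz) ⟨n, ?_⟩
  exact mul_left_cancel₀ (show (2 * π * I : ℂ) ≠ 0 by simp [Real.pi_ne_zero]) (by rw [hn]; ring)

/-- The closed form on the upper half plane. -/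
theorem tsum_cube_of_im_pos {z : ℂ} (hz : 0 < z.im) :
    ∑' n : ℤ, 1 / (z + n) ^ 3 = -4 * π ^ 3 * I * Complex.exp (2 * π * I * z) *
      (Complex.exp (2 * π * I * z) + 1) / (Complex.exp (2 * π * I * z) - 1) ^ 3 := by
  have hopen : IsOpen ℍₒ := UpperHalfPlane.isOpen_upperHalfPlaneSet
  have hu : ∀ w : ℂ, HasDerivAt (fun w : ℂ => Complex.exp (2 * π * I * w))
      (Complex.exp (2 * π * I * w) * (2 * π * I)) w := fun w => by
    simpa using ((hasDerivAt_id w).const_mul (2 * π * I)).cexp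
  have hne : ∀ w ∈ ℍₒ, Complex.exp (2 * π * I * w) - 1 ≠ 0 := fun w hw =>
    sub_ne_zero.mpr (exp_two_pi_I_ne_one (UpperHalfPlane.coe_mem_integerComplement ⟨w, hw⟩))
  set u : ℂ → ℂ := fun w => Complex.exp (2 * π * I * w) with hudef
  set f₁ : ℂ → ℂ := fun w => 4 * π ^ 2 * u w / (u w - 1) ^ 2 with hf₁
  have h0 : ∀ w ∈ ℍₒ, π * cot (π * w) = π * I * (u w + 1) / (u w - 1) := fun w hw => by
    have := hne w hw
    rw [cot_pi_eq_exp_ratio]
    simp only [hudef]
    generalize Complex.exp (2 * π * I * w) = e at *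
    have h1 : (1 : ℂ) - e ≠ 0 := fun h => this (by linear_combination -h)
    field_simp
    linear_combination (-(e + 1) * (1 - e)) * I_sq
  have d0 : ∀ w ∈ ℍₒ, HasDerivAt (fun w => π * cot (π * w)) (f₁ w) w := fun w hw => by
    have h := (((hu w).add_const 1).const_mul (π * I)).div ((hu w).sub_const 1) (hne w hw)
    refine (h.congr_of_eventuallyEq (eventually_of_mem (hopen.mem_nhds hw) h0)).congr_deriv ?_
    have := hne w hw
    simp only [hf₁, hudef]
    generalize Complex.exp (2 * π * I * w) = e at *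
    field_simp
    linear_combination (-4 * e) * I_sq
  have d1 : ∀ w ∈ ℍₒ, HasDerivAt f₁
      (-8 * π ^ 3 * I * u w * (u w + 1) / (u w - 1) ^ 3) w := fun w hw => by
    have h := ((hu w).const_mul (4 * π ^ 2 : ℂ)).div (((hu w).sub_const 1).pow 2)
      (pow_ne_zero 2 (hne w hw))
    refine h.congr_deriv ?_
    have := hne w hw
    simp only [hudef, Pi.pow_apply]
    generalize Complex.exp (2 * π * I * w) = e at *
    field_simp
    ring
  have hit : iteratedDerivWithin 2 (fun w => π * cot (π * w)) ℍₒ z =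
      -8 * π ^ 3 * I * u z * (u z + 1) / (u z - 1) ^ 3 := by
    rw [iteratedDerivWithin_of_isOpen hopen hz, iteratedDeriv_succ, iteratedDeriv_one]
    rw [Filter.EventuallyEq.deriv_eq (f := f₁)
      (eventually_of_mem (hopen.mem_nhds hz) fun w hw => (d0 w hw).deriv)]
    exact (d1 z hz).deriv
  have h := iteratedDerivWithin_cot_pi_mul_eq_mul_tsum_div_pow (k := 2) (by norm_num) hz
  rw [hit] at h
  norm_num at h ⊢
  simp only [hudef] at h ⊢
  linear_combination -h / 2

/-- The closed form at a real point outside `ℤ`. -/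
theorem tsum_cube_real {x : ℝ} (hx : (x : ℂ) ∈ integerComplement) :
    ∑' n : ℤ, 1 / ((x : ℂ) + n) ^ 3 = -4 * π ^ 3 * I * Complex.exp (2 * π * I * x) *
      (Complex.exp (2 * π * I * x) + 1) / (Complex.exp (2 * π * I * x) - 1) ^ 3 := by
  have hn : ∀ n : ℤ, (x : ℂ) + n ≠ 0 := fun n h =>
    (Complex.mem_integerComplement_iff.mp hx) ⟨-n, by push_cast; linear_combination -h⟩
  set F : ℝ → ℂ := fun y => ∑' n : ℤ, 1 / ((x : ℂ) + y * I + n) ^ 3
  have h1 : Tendsto F (𝓝[>] 0) (𝓝 (∑' n : ℤ, 1 / ((x : ℂ) + n) ^ 3)) := by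
    refine tendsto_tsum_of_dominated_convergence
      (bound := fun n : ℤ => 1 / |(n : ℝ) + x| ^ (3 : ℝ))
      ((Real.summable_one_div_int_add_rpow x 3).mpr (by norm_num)) (fun n => ?_)
      (Eventually.of_forall fun y n => ?_)
    · have hc : ContinuousAt (fun y : ℝ => 1 / ((x : ℂ) + y * I + n) ^ 3) 0 :=
        ContinuousAt.div continuousAt_const (by fun_prop) (by simpa using hn n)
      simpa using hc.tendsto.mono_left nhdsWithin_le_nhds
    · rw [norm_div, norm_one, norm_pow, Real.rpow_ofNat]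
      have h2 : |(n : ℝ) + x| ≤ ‖(x : ℂ) + y * I + n‖ := by
        refine le_trans (le_of_eq ?_) (Complex.abs_re_le_norm _)
        simp [add_comm]
      have h3 : 0 < |(n : ℝ) + x| := abs_pos.mpr fun h => hn n (by
        rw [show x = -(n : ℝ) by linarith]; simp)
      gcongr
  have h2 : Tendsto F (𝓝[>] 0) (𝓝 (-4 * π ^ 3 * I * Complex.exp (2 * π * I * x) *
      (Complex.exp (2 * π * I * x) + 1) / (Complex.exp (2 * π * I * x) - 1) ^ 3)) := by
    set R : ℝ → ℂ := fun y => -4 * π ^ 3 * I * Complex.exp (2 * π * I * (x + y * I)) *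
      (Complex.exp (2 * π * I * (x + y * I)) + 1) /
        (Complex.exp (2 * π * I * (x + y * I)) - 1) ^ 3
    have hc : ContinuousAt R 0 := ContinuousAt.div (by fun_prop) (by fun_prop)
      (pow_ne_zero 3 (sub_ne_zero.mpr (by simpa using exp_two_pi_I_ne_one hx)))
    have := hc.tendsto.mono_left (nhdsWithin_le_nhds (s := Set.Ioi (0 : ℝ)))
    simp only [R, Complex.ofReal_zero, zero_mul, add_zero] at this
    refine this.congr' ?_
    filter_upwards [self_mem_nhdsWithin] with y hy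
    exact (tsum_cube_of_im_pos (by simpa using hy)).symm
  exact tendsto_nhds_unique h1 h2

theorem tsum_cube_progression (p : ℕ) [NeZero p] {d : ℤ} (hd : ¬ (p : ℤ) ∣ d) :
    ∑' n : ℤ, ((((p : ℤ) * n + d : ℤ) : ℂ) ^ 3)⁻¹ =
      -4 * π ^ 3 * I / (p : ℂ) ^ 3 * (Complex.exp (2 * π * I * (d / p)) *
        (Complex.exp (2 * π * I * (d / p)) + 1) / (Complex.exp (2 * π * I * (d / p)) - 1) ^ 3) := by
  have hp : (p : ℂ) ≠ 0 := Nat.cast_ne_zero.mpr (NeZero.ne p)
  have hcast : (((d : ℝ) / p : ℝ) : ℂ) = (d : ℂ) / p := by push_cast; ring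
  have hx : (((d : ℝ) / p : ℝ) : ℂ) ∈ integerComplement := by
    rw [hcast, Complex.mem_integerComplement_iff]
    rintro ⟨n, hn⟩
    refine hd ⟨n, ?_⟩
    rw [eq_div_iff hp] at hn
    have : (d : ℂ) = ((p * n : ℤ) : ℂ) := by push_cast; linear_combination -hn
    exact_mod_cast this
  have h := tsum_cube_real hx
  rw [hcast] at h
  calc ∑' n : ℤ, ((((p : ℤ) * n + d : ℤ) : ℂ) ^ 3)⁻¹
      = ∑' n : ℤ, ((p : ℂ) ^ 3)⁻¹ * (1 / ((d : ℂ) / p + n) ^ 3) := tsum_congr fun n => by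
        push_cast
        rw [show (p : ℂ) * n + d = p * (d / p + n) by field_simp; ring, mul_pow, mul_inv, one_div]
    _ = _ := by rw [tsum_mul_left, h]; ring

/-- The product of the fourth powers. -/
theorem prod_tsum_cube (p : ℕ) [hp : Fact p.Prime] (hodd : Odd p) :
    ∏ d ∈ Finset.Icc 1 (p - 1), (∑' n : ℤ, ((((p : ℤ) * n + (d : ℕ) : ℤ) : ℂ) ^ 3)⁻¹) ^ 4 =
      (4 * π ^ 3 / (p : ℂ) ^ 3) ^ (4 * (p - 1)) / (p : ℂ) ^ 12 := by
  have hp0 := hp.out.ne_zero
  set ζ : ℂ := Complex.exp (2 * π * I / p) with hζdef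
  have hζ : IsPrimitiveRoot ζ p := Complex.isPrimitiveRoot_exp p hp0
  have hsplit : Finset.range p = insert 0 (Finset.Icc 1 (p - 1)) := by ext i; simp; omega
  have hpoly0 : (Polynomial.X ^ p - Polynomial.C (1 : ℂ)) =
      (Polynomial.X - Polynomial.C 1) *
        ∏ d ∈ Finset.Icc 1 (p - 1), (Polynomial.X - Polynomial.C (ζ ^ d)) := by
    rw [X_pow_sub_C_eq_prod hζ hp.out.pos (α := (1 : ℂ)) (a := 1) (one_pow p), hsplit,
      Finset.prod_insert (by simp)]
    simp
  have hgeom : ∏ d ∈ Finset.Icc 1 (p - 1), (Polynomial.X - Polynomial.C (ζ ^ d)) =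
      ∑ i ∈ Finset.range p, (Polynomial.X : Polynomial ℂ) ^ i := by
    refine mul_left_cancel₀ (Polynomial.X_sub_C_ne_zero (1 : ℂ)) ?_
    rw [← hpoly0, map_one, mul_geom_sum]
  have hpoly : ∀ X : ℂ, ∏ d ∈ Finset.Icc 1 (p - 1), (X - ζ ^ d) = ∑ i ∈ Finset.range p, X ^ i := by
    intro X
    simpa [Polynomial.eval_prod, Polynomial.eval_finsetSum] using congrArg (Polynomial.eval X) hgeom
  have hat1 : ∏ d ∈ Finset.Icc 1 (p - 1), (1 - ζ ^ d) = (p : ℂ) := by simp [hpoly]
  have hm1 : ∏ d ∈ Finset.Icc 1 (p - 1), (-1 - ζ ^ d) = 1 := by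
    rw [hpoly, neg_one_geom_sum, if_neg (Nat.not_even_iff_odd.mpr hodd)]
  have h0 : ∏ d ∈ Finset.Icc 1 (p - 1), (0 - ζ ^ d) = 1 := by
    rw [hpoly, zero_geom_sum, if_neg hp0]
  have key : ∀ d ∈ Finset.Icc 1 (p - 1),
      (∑' n : ℤ, ((((p : ℤ) * n + (d : ℕ) : ℤ) : ℂ) ^ 3)⁻¹) ^ 4 =
        (4 * π ^ 3 / (p : ℂ) ^ 3) ^ 4 *
          ((0 - ζ ^ d) ^ 4 * (-1 - ζ ^ d) ^ 4 / (1 - ζ ^ d) ^ 12) := by
    intro d hd
    rw [Finset.mem_Icc] at hd
    have hnd : ¬ (p : ℤ) ∣ (d : ℕ) := by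
      rw [Int.natCast_dvd_natCast]
      exact fun h => by have := Nat.le_of_dvd (by omega) h; omega
    have he : Complex.exp (2 * π * I * (((d : ℤ) : ℂ) / p)) = ζ ^ d := by
      rw [hζdef, ← Complex.exp_nat_mul]; congr 1; push_cast; ring
    rw [tsum_cube_progression p hnd, he, show (1 : ℂ) - ζ ^ d = -(ζ ^ d - 1) by ring]
    simp only [div_pow, mul_pow, ← pow_mul, I_pow_four, neg_pow (4 : ℂ)]
    ring
  rw [Finset.prod_congr rfl key, Finset.prod_mul_distrib, Finset.prod_const, Nat.card_Icc,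
    Finset.prod_div_distrib, Finset.prod_mul_distrib, Finset.prod_pow, Finset.prod_pow,
    Finset.prod_pow, h0, hm1, hat1, show p - 1 + 1 - 1 = p - 1 by omega, ← pow_mul]
  ring

end Fermat.Agent.Mazur.Moduli
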