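import Fermat.Agent.Mazur.Moduli.Weierstrass

/-!
# The parametrisation of a cubic by the Weierstrass functions

`z ↦ (℘ z, ℘' z / 2)` is an additive map from `ℂ` to the points of `y² = x³ - g₂/4 x - g₃/4`, and
its kernel is the lattice.
-/

noncomputable section

open Filter Topology Set WeierstrassCurve
open scoped PeriodPair

namespace Fermat.Agent.Mazur.Moduli

variable (L : PeriodPair)

/-- The curve of a lattice. -/
def curveOf : WeierstrassCurve ℂ := ⟨0, 0, 0, -L.g₂ / 4, -L.g₃ / 4⟩

theorem equation_curveOf {z : ℂ} (hz : z ∉ L.lattice) :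
    (curveOf L).toAffine.Equation (℘[L] z) (℘'[L] z / 2) := by
  rw [Affine.equation_iff]
  have := L.derivWeierstrassP_sq z hz
  simp only [curveOf]
  linear_combination this / 4

/-- For fixed `z, w` with `z + w` outside the lattice there is a `t` separating all the cases. -/
theorem exists_shift {z w : ℂ} (hz : z ∉ L.lattice) (hw : w ∉ L.lattice)
    (hs : z + w ∉ L.lattice) :
    ∃ t, t ∉ L.lattice ∧ z + t ∉ L.lattice ∧ w - t ∉ L.lattice ∧ ℘[L] z ≠ ℘[L] t ∧
      ℘[L] w ≠ ℘[L] (-t) ∧ ℘[L] (z + t) ≠ ℘[L] (w - t) := by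
  have hopen := L.isClosed_lattice.isOpen_compl
  have hpole : ∀ c : ℂ, ∀ᶠ t in 𝓝[≠] (0 : ℂ), ℘[L] t ≠ c := by
    intro c
    have h1 := (tendsto_sq_mul_P L).sub
      ((show ContinuousAt (fun t : ℂ => t ^ 2 * c) 0 by fun_prop).tendsto.mono_left
        (nhdsWithin_le_nhds (s := {(0 : ℂ)}ᶜ)))
    simp only [zero_pow (two_ne_zero : (2 : ℕ) ≠ 0), zero_mul, sub_zero] at h1
    filter_upwards [h1.eventually_ne one_ne_zero] with t ht
    exact fun e => ht (by rw [e]; ring)
  set f : ℂ → ℂ := fun t => ℘[L] (z + t) - ℘[L] (w - t) with hf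
  set Ω : Set ℂ := ((fun l => l - z) '' L.lattice ∪ (fun l => w - l) '' L.lattice)ᶜ with hΩ
  have hmem : ∀ t, t ∈ Ω ↔ z + t ∉ L.lattice ∧ w - t ∉ L.lattice := fun t => by
    simp only [hΩ, Set.mem_compl_iff, Set.mem_union, Set.mem_image, SetLike.mem_coe, not_or,
      not_exists, not_and]
    refine and_congr ⟨fun h ht => h _ ht (by ring), fun h l hl e => h (e ▸ ?_)⟩
      ⟨fun h ht => h _ ht (by ring), fun h l hl e => h (e ▸ ?_)⟩
    · rwa [add_sub_cancel]
    · rwa [sub_sub_cancel]
  have hΩconn : IsPreconnected Ω :=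
    (((countable_lattice L).image _).union ((countable_lattice L).image _)
      |>.isPathConnected_compl_of_one_lt_rank one_lt_rank_complex).isConnected.isPreconnected
  have h0 : (0 : ℂ) ∈ Ω := (hmem 0).mpr ⟨by simpa using hz, by simpa using hw⟩
  have hfan : AnalyticOnNhd ℂ f Ω := fun t ht => by
    obtain ⟨h1, h2⟩ := (hmem t).mp ht
    have e1 : AnalyticAt ℂ (fun v => ℘[L] (z + v)) t :=
      (L.analyticOnNhd_weierstrassP _ h1).comp (by fun_prop)
    have e2 : AnalyticAt ℂ (fun v => ℘[L] (w - v)) t :=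
      (L.analyticOnNhd_weierstrassP _ h2).comp (by fun_prop)
    exact e1.sub e2
  have hne : ∀ᶠ t in 𝓝[≠] (0 : ℂ), f t ≠ 0 := by
    refine (hfan 0 h0).eventually_eq_zero_or_eventually_ne_zero.resolve_left fun he => ?_
    have hzero := hfan.eqOn_zero_of_preconnected_of_eventuallyEq_zero hΩconn h0 he
    -- compare the two terms at `t → -z`
    have h1 := tendsto_sq_mul_P L
    have hcont : ContinuousAt (fun u : ℂ => u ^ 2 * ℘[L] (z + w - u)) 0 := by
      have : AnalyticAt ℂ (fun u : ℂ => ℘[L] (z + w - u)) 0 :=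
        (L.analyticOnNhd_weierstrassP _ (by simpa using hs)).comp (by fun_prop)
      have := this.continuousAt
      fun_prop
    have hev : ∀ᶠ u in 𝓝[≠] (0 : ℂ), u ^ 2 * ℘[L] u = u ^ 2 * ℘[L] (z + w - u) := by
      filter_upwards [eventually_notMem_lattice L 0,
        mem_nhdsWithin_of_mem_nhds ((show ContinuousAt (fun u => z + w - u) 0 by
          fun_prop).eventually_mem (hopen.mem_nhds (by simpa using hs)))] with u a b
      have := hzero ((hmem (u - z)).mpr ⟨by rwa [add_sub_cancel],
        by rwa [show w - (u - z) = z + w - u by ring]⟩)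
      simp only [hf, Pi.zero_apply, add_sub_cancel, sub_eq_zero] at this
      rw [this, show w - (u - z) = z + w - u by ring]
    have := tendsto_nhds_unique (h1.congr' hev) (hcont.tendsto.mono_left nhdsWithin_le_nhds)
    simp at this
  have h1 : ∀ᶠ t in 𝓝[≠] (0 : ℂ), z + t ∉ L.lattice ∧ w - t ∉ L.lattice := by
    refine mem_nhdsWithin_of_mem_nhds ?_
    exact (((continuous_const_add z).continuousAt (x := (0 : ℂ))).eventually_mem
      (hopen.mem_nhds (by simpa using hz))).and
      ((show ContinuousAt (fun t => w - t) (0 : ℂ) by fun_prop).eventually_mem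
        (hopen.mem_nhds (by simpa using hw)))
  obtain ⟨t, ht, ⟨a, b⟩, c, d, e⟩ :=
    ((eventually_notMem_lattice L 0).and (h1.and ((hpole (℘[L] z)).and
      ((hpole (℘[L] w)).and hne)))).exists
  exact ⟨t, ht, a, b, c.symm, by rw [L.weierstrassP_neg]; exact d.symm, sub_ne_zero.mp e⟩

variable [(curveOf L).IsElliptic]

open Classical in
/-- The point with parameter `z`. -/
def pointP (z : ℂ) : (curveOf L).toAffine.Point :=
  if h : z ∈ L.lattice then 0
  else .some _ _ (Affine.equation_iff_nonsingular.mp (equation_curveOf L h))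

variable {L}

theorem pointP_of_mem {z : ℂ} (h : z ∈ L.lattice) : pointP L z = 0 := dif_pos h

theorem pointP_of_notMem {z : ℂ} (h : z ∉ L.lattice) :
    pointP L z =
      .some _ _ (Affine.equation_iff_nonsingular.mp (equation_curveOf L h)) := dif_neg h

theorem pointP_eq_zero_iff {z : ℂ} : pointP L z = 0 ↔ z ∈ L.lattice := by
  refine ⟨fun h => ?_, pointP_of_mem⟩
  by_contra hz
  rw [pointP_of_notMem hz] at h
  exact Affine.Point.some_ne_zero _ h

theorem pointP_add_mem (z : ℂ) {l : ℂ} (hl : l ∈ L.lattice) :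
    pointP L (z + l) = pointP L z := by
  by_cases hz : z ∈ L.lattice
  · rw [pointP_of_mem hz, pointP_of_mem (add_mem hz hl)]
  · have hzl : z + l ∉ L.lattice := fun h => hz (by simpa using sub_mem h hl)
    rw [pointP_of_notMem hz, pointP_of_notMem hzl]
    simp only [L.weierstrassP_add_coe z ⟨l, hl⟩, L.derivWeierstrassP_add_coe z ⟨l, hl⟩]

theorem pointP_neg (z : ℂ) : pointP L (-z) = -pointP L z := by
  by_cases hz : z ∈ L.lattice
  · rw [pointP_of_mem hz, pointP_of_mem (neg_mem hz), neg_zero]
  · have hn : -z ∉ L.lattice := fun h => hz (by simpa using neg_mem h)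
    rw [pointP_of_notMem hz, pointP_of_notMem hn, Affine.Point.neg_some]
    simp only [L.weierstrassP_neg, L.derivWeierstrassP_neg, Affine.Point.some.injEq, true_and]
    simp [Affine.negY, curveOf, neg_div]

theorem pointP_add_generic {z w : ℂ} (hz : z ∉ L.lattice) (hw : w ∉ L.lattice)
    (hs : z + w ∉ L.lattice) (hne : ℘[L] z ≠ ℘[L] w) :
    pointP L (z + w) = pointP L z + pointP L w := by
  rw [pointP_of_notMem hz, pointP_of_notMem hw, pointP_of_notMem hs,
    Affine.Point.add_of_X_ne hne]
  have hd : ℘[L] z - ℘[L] w ≠ 0 := sub_ne_zero.mpr hne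
  simp only [Affine.slope_of_X_ne hne, Affine.addX, Affine.addY, Affine.negAddY, Affine.negY,
    curveOf]
  congr 1
  · rw [addition L hz hw hs hne]; field_simp; ring
  · rw [addition_deriv L hz hw hs hne, addition L hz hw hs hne]; field_simp; ring

theorem pointP_add (z w : ℂ) : pointP L (z + w) = pointP L z + pointP L w := by
  by_cases hz : z ∈ L.lattice
  · rw [pointP_of_mem hz, zero_add, add_comm, pointP_add_mem _ hz]
  by_cases hw : w ∈ L.lattice
  · rw [pointP_of_mem hw, add_zero, pointP_add_mem _ hw]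
  by_cases hs : z + w ∈ L.lattice
  · rw [pointP_of_mem hs, show w = -z + (z + w) by ring, pointP_add_mem _ hs, pointP_neg,
      add_neg_cancel]
  obtain ⟨t, ht, hzt, hwt, h1, h2, h3⟩ := exists_shift L hz hw hs
  calc pointP L (z + w) = pointP L ((z + t) + (w - t)) := by congr 1; ring
    _ = pointP L (z + t) + pointP L (w + -t) := by
        rw [sub_eq_add_neg] at h3 hwt ⊢
        exact pointP_add_generic hzt hwt (by simpa [add_add_add_comm] using hs) h3
    _ = pointP L z + pointP L w := by
        rw [pointP_add_generic hz ht hzt h1,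
          pointP_add_generic hw (fun h => ht (by simpa using neg_mem h))
            (by rwa [← sub_eq_add_neg]) h2, pointP_neg]
        abel

variable (L) in
/-- The parametrisation. -/
def pointHom : ℂ →+ (curveOf L).toAffine.Point := AddMonoidHom.mk' (pointP L) pointP_add

theorem pointHom_apply (z : ℂ) : pointHom L z = pointP L z := rfl

theorem derivP_ne_zero {z : ℂ} (hz : z ∉ L.lattice) (h2 : z + z ∉ L.lattice) :
    ℘'[L] z ≠ 0 := fun h => h2 <| pointP_eq_zero_iff.mp <| by
  rw [pointP_add, add_eq_zero_iff_eq_neg, ← pointP_neg]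
  have hn : -z ∉ L.lattice := fun h => hz (by simpa using neg_mem h)
  rw [pointP_of_notMem hz, pointP_of_notMem hn]
  simp only [L.weierstrassP_neg, L.derivWeierstrassP_neg, h, neg_zero]

end Fermat.Agent.Mazur.Moduli
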