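import Mathlib.Analysis.Complex.LocallyUniformLimit
import Mathlib.Analysis.Normed.Group.FunctionSeries
import Mathlib.Analysis.Normed.Group.Tannery
import Mathlib.NumberTheory.Modular
import Mathlib.NumberTheory.ModularForms.EisensteinSeries.IsBoundedAtImInfty
import Mathlib.NumberTheory.ModularForms.EisensteinSeries.MDifferentiable

/-!
# Lattice sums with congruence conditions

`sumS p r v τ = ∑ (c τ + d) ^ (-r)` over all integral `(c, d) ≡ v mod p`, for `r ≥ 3`: behaviour
under `SL(2, ℤ)`, holomorphy, boundedness at `i∞`, and the limit there when `v = (0, d)`.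
-/

noncomputable section

open UpperHalfPlane Filter Topology EisensteinSeries Matrix Matrix.SpecialLinearGroup
open scoped MatrixGroups Manifold

namespace Fermat.Agent.Mazur.Moduli

variable (p : ℕ) (r : ℕ)

/-- The `w`-th index congruent to `v`. -/
def shiftIdx (v w : Fin 2 → ℤ) : Fin 2 → ℤ := (p : ℤ) • w + v

/-- `∑ (c τ + d) ^ (-r)` over `(c, d) ≡ v mod p`. -/
def sumS (v : Fin 2 → ℤ) (τ : ℍ) : ℂ := ∑' w : Fin 2 → ℤ, eisSummand r (shiftIdx p v w) τ

variable [NeZero p] {p r}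

theorem shiftIdx_injective (v : Fin 2 → ℤ) : Function.Injective (shiftIdx p v) := fun a b h => by
  funext i
  have := congrFun h i
  simp only [shiftIdx, Pi.add_apply, Pi.smul_apply, smul_eq_mul, add_left_inj] at this
  exact mul_left_cancel₀ (Nat.cast_ne_zero.mpr (NeZero.ne p)) this

theorem summable_sumS (hr : 3 ≤ r) (v : Fin 2 → ℤ) (τ : ℍ) :
    Summable fun w : Fin 2 → ℤ => ‖eisSummand r (shiftIdx p v w) τ‖ :=
  (summable_norm_eisSummand (k := r) (by exact_mod_cast hr) τ).comp_injective (shiftIdx_injective v)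

omit [NeZero p] in
theorem sumS_add_mul (v u : Fin 2 → ℤ) : sumS p r (v + (p : ℤ) • u) = sumS p r v := by
  funext τ
  rw [sumS, sumS, ← (Equiv.addRight u).tsum_eq (fun w => eisSummand r (shiftIdx p v w) τ)]
  refine tsum_congr fun w => ?_
  rw [Equiv.coe_addRight, shiftIdx, shiftIdx, smul_add]
  congr 1
  abel

omit [NeZero p] in
theorem sumS_congr {v v' : Fin 2 → ℤ} (h : ∀ i, (v i : ZMod p) = (v' i : ZMod p)) :
    sumS p r v = sumS p r v' := by
  have hd : ∀ i, ∃ u : ℤ, v i = v' i + (p : ℤ) * u := fun i => by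
    obtain ⟨u, hu⟩ := (ZMod.intCast_eq_intCast_iff_dvd_sub _ _ _).mp (h i).symm
    exact ⟨u, by linarith⟩
  choose u hu using hd
  rw [show v = v' + (p : ℤ) • u from funext fun i => by simpa using hu i, sumS_add_mul]

/-- Right multiplication by `γ` on indices. -/
def vecMulEquiv (γ : SL(2, ℤ)) : (Fin 2 → ℤ) ≃ (Fin 2 → ℤ) where
  toFun w := w ᵥ* γ
  invFun w := w ᵥ* (γ⁻¹ : SL(2, ℤ))
  left_inv w := by
    simp only [vecMul_vecMul, ← Matrix.SpecialLinearGroup.coe_mul, mul_inv_cancel,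
      Matrix.SpecialLinearGroup.coe_one, vecMul_one]
  right_inv w := by
    simp only [vecMul_vecMul, ← Matrix.SpecialLinearGroup.coe_mul, inv_mul_cancel,
      Matrix.SpecialLinearGroup.coe_one, vecMul_one]

omit [NeZero p] in
theorem sumS_smul (v : Fin 2 → ℤ) (γ : SL(2, ℤ)) (τ : ℍ) :
    sumS p r v (γ • τ) = denom γ τ ^ r * sumS p r (v ᵥ* γ) τ := by
  rw [sumS, sumS, ← (vecMulEquiv γ).tsum_eq (fun w => eisSummand r (shiftIdx p (v ᵥ* γ) w) τ),
    ← tsum_mul_left]
  refine tsum_congr fun w => ?_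
  rw [eisSummand_SL2_apply, zpow_natCast]
  congr 2
  rw [shiftIdx, shiftIdx, vecMulEquiv, add_vecMul, smul_vecMul]
  rfl

omit [NeZero p] in
theorem summable_norm_zpow (hr : 3 ≤ r) :
    Summable fun u : Fin 2 → ℤ => ‖u‖ ^ (-r : ℤ) := by
  have h := summable_one_div_norm_rpow (k := (r : ℝ)) (by exact_mod_cast (show 2 < r by omega))
  simpa only [← Real.rpow_intCast, Int.cast_neg, Int.cast_natCast] using h

theorem norm_sumS_le (hr : 3 ≤ r) (v : Fin 2 → ℤ) {A B : ℝ} (hB : 0 < B) {τ : ℍ}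
    (hτ : τ ∈ verticalStrip A B) :
    ‖sumS p r v τ‖ ≤ ∑' u : Fin 2 → ℤ, EisensteinSeries.r ⟨⟨A, B⟩, hB⟩ ^ (-r : ℤ) *
        ‖u‖ ^ (-r : ℤ) := by
  have hsum := (summable_norm_zpow hr).mul_left (EisensteinSeries.r ⟨⟨A, B⟩, hB⟩ ^ (-r : ℤ))
  refine (norm_tsum_le_tsum_norm (summable_sumS hr v τ)).trans ?_
  refine (Summable.tsum_le_tsum (fun w => ?_) (summable_sumS hr v τ)
    (hsum.comp_injective (shiftIdx_injective (p := p) v))).trans ?_
  · simp only [eisSummand, norm_zpow, Function.comp_apply, ← Real.rpow_intCast, Int.cast_neg,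
      Int.cast_natCast]
    exact summand_bound_of_mem_verticalStrip (k := (r : ℝ)) (by positivity) _ hB hτ
  · exact tsum_comp_le_tsum_of_inj hsum
      (fun u => mul_nonneg (zpow_nonneg (EisensteinSeries.r_pos _).le _)
        (zpow_nonneg (norm_nonneg _) _)) (shiftIdx_injective (p := p) v)

omit [NeZero p] in
theorem sumS_periodic (v : Fin 2 → ℤ) (n : ℤ) (τ : ℍ) :
    sumS p r v (ModularGroup.T ^ ((p : ℤ) * n) • τ) = sumS p r v τ := by
  rw [sumS_smul]
  have hden : denom (ModularGroup.T ^ ((p : ℤ) * n) : SL(2, ℤ)) τ = 1 := by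
    rw [ModularGroup.denom_apply, ModularGroup.coe_T_zpow]; simp
  rw [hden, one_pow, one_mul]
  refine congrFun (sumS_congr fun i => ?_) τ
  fin_cases i <;> simp [ModularGroup.coe_T_zpow, vecMul, dotProduct, Fin.sum_univ_two]

theorem isBoundedAtImInfty_sumS (hr : 3 ≤ r) (v : Fin 2 → ℤ) :
    IsBoundedAtImInfty (sumS p r v) := by
  rw [isBoundedAtImInfty_iff]
  refine ⟨∑' u : Fin 2 → ℤ, EisensteinSeries.r ⟨⟨(p : ℝ), 2⟩, (Nat.ofNat_pos : (0 : ℝ) < 2)⟩ ^
    (-r : ℤ) * ‖u‖ ^ (-r : ℤ), 2, fun z hz => ?_⟩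
  obtain ⟨n, hn⟩ := ModularGroup_T_zpow_mem_verticalStrip z (NeZero.pos p)
  rw [← sumS_periodic v n z]
  exact norm_sumS_le hr v two_pos (verticalStrip_anti_right p hz hn)

theorem mdiff_sumS (hr : 3 ≤ r) (v : Fin 2 → ℤ) : MDiff (sumS p r v) := by
  rw [UpperHalfPlane.mdifferentiable_iff]
  intro z hz
  simp only [Set.mem_ofPred_eq] at hz
  set U : Set ℂ := {w | |w.re| < |z.re| + 1 ∧ z.im / 2 < w.im} with hU
  have hUo : IsOpen U := by
    refine IsOpen.inter (?_ : IsOpen {w : ℂ | |w.re| < |z.re| + 1})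
      (?_ : IsOpen {w : ℂ | z.im / 2 < w.im})
    · exact isOpen_lt Complex.continuous_re.abs continuous_const
    · exact isOpen_lt continuous_const Complex.continuous_im
  have hzU : z ∈ U := ⟨lt_add_one _, by linarith⟩
  have hB : 0 < z.im / 2 := by linarith
  set u : (Fin 2 → ℤ) → ℝ := fun w => EisensteinSeries.r ⟨⟨|z.re| + 1, z.im / 2⟩, hB⟩ ^ (-r : ℤ) *
    ‖shiftIdx p v w‖ ^ (-r : ℤ)
  have hu : Summable u :=
    ((summable_norm_zpow hr).comp_injective (shiftIdx_injective v)).mul_left _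
  have hd : DifferentiableOn ℂ (fun w : ℂ => ∑' i : Fin 2 → ℤ,
      ((shiftIdx p v i 0 : ℂ) * w + shiftIdx p v i 1) ^ (-(r : ℤ))) U := by
    refine Complex.differentiableOn_tsum_of_summable_norm hu (fun i => ?_) hUo (fun i w hw => ?_)
    · exact (div_linear_zpow_differentiableOn (r : ℤ) (shiftIdx p v i)).mono fun w hw => by
        simp only [Set.mem_ofPred_eq]; linarith [hw.2]
    · have hw' : 0 < w.im := by linarith [hw.2]
      have h := summand_bound_of_mem_verticalStrip (k := (r : ℝ)) (z := ⟨w, hw'⟩) (by positivity)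
        (shiftIdx p v i) hB ⟨hw.1.le, hw.2.le⟩
      simp only [u, norm_zpow, ← Real.rpow_intCast, Int.cast_neg, Int.cast_natCast]
      exact h
  refine ((hd.differentiableAt (hUo.mem_nhds hzU)).congr_of_eventuallyEq ?_).differentiableWithinAt
  filter_upwards [hUo.mem_nhds hzU] with w hw
  have hw' : 0 < w.im := by linarith [hw.2]
  simp only [Function.comp_apply, ofComplex_apply_of_im_pos hw', sumS, eisSummand]

omit [NeZero p] in
theorem sumS_vadd (d : ℤ) (n : ℤ) (τ : ℍ) :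
    sumS p r ![0, d] (ModularGroup.T ^ n • τ) = sumS p r ![0, d] τ := by
  rw [sumS_smul]
  have hden : denom (ModularGroup.T ^ n : SL(2, ℤ)) τ = 1 := by
    rw [ModularGroup.denom_apply, ModularGroup.coe_T_zpow]; simp
  rw [hden, one_pow, one_mul]
  congr 1
  funext i
  fin_cases i <;> simp [ModularGroup.coe_T_zpow, vecMul, dotProduct, Fin.sum_univ_two]

/-- The value at `i∞`. -/
theorem tendsto_sumS (hr : 3 ≤ r) (d : ℤ) :
    Tendsto (sumS p r ![0, d]) atImInfty
      (𝓝 (∑' n : ℤ, ((((p : ℤ) * n + d : ℤ) : ℂ) ^ r)⁻¹)) := by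
  set l : Filter ℍ := atImInfty ⊓ 𝓟 {τ | |τ.re| ≤ 1} with hl
  suffices h : Tendsto (sumS p r ![0, d]) l
      (𝓝 (∑' n : ℤ, ((((p : ℤ) * n + d : ℤ) : ℂ) ^ r)⁻¹)) by
    have hφ : Tendsto (fun τ : ℍ => ModularGroup.T ^ (-⌊τ.re⌋) • τ) atImInfty l := by
      refine tendsto_inf.mpr ⟨?_, tendsto_principal.mpr (Eventually.of_forall fun τ => ?_)⟩
      · refine tendsto_comap_iff.mpr ?_
        simp only [Function.comp_def, ModularGroup.im_T_zpow_smul]
        exact tendsto_comap
      · have hre : (ModularGroup.T ^ (-⌊τ.re⌋) • τ).re = τ.re - ⌊τ.re⌋ := by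
          rw [ModularGroup.re_T_zpow_smul]; push_cast; ring
        show |(ModularGroup.T ^ (-⌊τ.re⌋) • τ).re| ≤ 1
        rw [hre, abs_le]
        exact ⟨by linarith [Int.floor_le τ.re], by linarith [Int.lt_floor_add_one τ.re]⟩
    refine (h.comp hφ).congr fun τ => ?_
    exact sumS_vadd d _ τ
  have hB : (0 : ℝ) < 1 := one_pos
  set g : (Fin 2 → ℤ) → ℂ := fun w =>
    if w 0 = 0 then ((((p : ℤ) * w 1 + d : ℤ) : ℂ) ^ r)⁻¹ else 0 with hg
  have hgsum : ∑' w, g w = ∑' n : ℤ, ((((p : ℤ) * n + d : ℤ) : ℂ) ^ r)⁻¹ := by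
    have hinj : Function.Injective (fun n : ℤ => ![0, n]) := fun a b h => by
      simpa using congrFun h 1
    rw [← hinj.tsum_eq (f := g) fun w hw => ?_]
    · simp [hg]
    · refine ⟨w 1, funext fun i => ?_⟩
      fin_cases i
      · by_contra h0
        exact hw (if_neg fun e => h0 (by simpa using e.symm))
      · simp
  rw [← hgsum]
  refine tendsto_tsum_of_dominated_convergence
    (bound := fun w => EisensteinSeries.r ⟨⟨1, 1⟩, hB⟩ ^ (-r : ℤ) *
        ‖shiftIdx p ![0, d] w‖ ^ (-r : ℤ))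
    (((summable_norm_zpow hr).comp_injective (shiftIdx_injective _)).mul_left _) (fun w => ?_) ?_
  · by_cases h0 : w 0 = 0
    · refine tendsto_const_nhds.congr fun τ => ?_
      simp [hg, h0, eisSummand, shiftIdx, zpow_neg]
    · rw [show g w = 0 from if_neg h0, tendsto_zero_iff_norm_tendsto_zero]
      have hc : (shiftIdx p ![0, d] w 0 : ℝ) ≠ 0 := by
        simp [shiftIdx, h0, NeZero.ne p]
      have hlim : Tendsto (fun τ : ℍ => |(shiftIdx p ![0, d] w 0 : ℝ)| * τ.im) l atTop :=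
        (tendsto_comap.const_mul_atTop (abs_pos.mpr hc)).mono_left inf_le_left
      refine squeeze_zero' (Eventually.of_forall fun τ => norm_nonneg _)
        (Eventually.of_forall fun τ => ?_)
        ((tendsto_inv_atTop_zero.comp ((tendsto_pow_atTop (n := r) (by omega)).comp hlim)))
      simp only [eisSummand, zpow_neg, zpow_natCast, norm_inv, norm_pow, Function.comp_apply]
      refine inv_anti₀ (pow_pos (mul_pos (abs_pos.mpr hc) τ.im_pos) r)
        (pow_le_pow_left₀ (mul_pos (abs_pos.mpr hc) τ.im_pos).le ?_ r)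
      have := Complex.abs_im_le_norm
        ((shiftIdx p ![0, d] w 0 : ℂ) * τ + shiftIdx p ![0, d] w 1)
      simpa [abs_mul, abs_of_pos τ.im_pos] using this
  · have h1 : ∀ᶠ τ : ℍ in l, τ ∈ verticalStrip 1 1 := by
      filter_upwards [(tendsto_comap.mono_left (inf_le_left : l ≤ atImInfty)).eventually_ge_atTop 1,
        mem_inf_of_right (mem_principal_self _)] with τ h1 h2
      exact ⟨h2, h1⟩
    filter_upwards [h1] with τ hτ w
    have h := summand_bound_of_mem_verticalStrip (k := (r : ℝ)) (by positivity)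
      (shiftIdx p ![0, d] w) hB hτ
    simp only [eisSummand, norm_zpow, ← Real.rpow_intCast, Int.cast_neg, Int.cast_natCast]
    exact h

end Fermat.Agent.Mazur.Moduli
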