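import Mathlib.NumberTheory.LSeries.HurwitzZetaValues
import Mathlib.NumberTheory.ModularForms.EisensteinSeries.QExpansion
import Mathlib.NumberTheory.ModularForms.LevelOne.GradedRing
import Fermat.Agent.Mazur.Moduli.Points
import Fermat.Agent.Mazur.Moduli.Sums
import Fermat.Agent.X0.LevelOne

/-!
# The lattice `ℤ τ + ℤ`

Its invariants in terms of `E₄`, `E₆` and `Δ`, and the lattice sums at the `p`-division points in
terms of `sumS`.
-/

noncomputable section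

open UpperHalfPlane EisensteinSeries ModularForm WeierstrassCurve
open scoped Real PeriodPair

namespace Fermat.Agent.Mazur.Moduli

/-- The lattice `ℤ τ + ℤ`. -/
def lat (τ : ℍ) : PeriodPair where
  ω₁ := (τ : ℂ)
  ω₂ := 1
  indep := by
    rw [LinearIndependent.pair_iff]
    intro s t h
    have him := congrArg Complex.im h
    simp only [Complex.add_im, Complex.smul_im, Complex.one_im, smul_eq_mul, mul_zero, add_zero,
      Complex.zero_im] at him
    have hs : s = 0 := (mul_eq_zero.mp him).resolve_right τ.im_pos.ne'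
    refine ⟨hs, ?_⟩
    simpa [hs] using congrArg Complex.re h

/-- Coordinates on the lattice. -/
def latEquiv (τ : ℍ) : (Fin 2 → ℤ) ≃ (lat τ).lattice :=
  (finTwoArrowEquiv ℤ).trans (lat τ).latticeEquivProd.symm.toEquiv

theorem coe_latEquiv (τ : ℍ) (w : Fin 2 → ℤ) :
    ((latEquiv τ w : (lat τ).lattice) : ℂ) = w 0 * (τ : ℂ) + w 1 := by
  refine ((lat τ).latticeEquiv_symm_apply (w 0, w 1)).trans ?_
  show (w 0 : ℂ) * τ + (w 1 : ℂ) * 1 = _
  ring

/-- The point `(c τ + d) / p`, with the sign reversed. -/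
def divPt (p : ℕ) (τ : ℍ) (v : Fin 2 → ℤ) : ℂ := -(((v 0 : ℂ) * τ + v 1) / p)

theorem sumInvPow_divPt (p : ℕ) [NeZero p] (r : ℕ) (τ : ℍ) (v : Fin 2 → ℤ) :
    (lat τ).sumInvPow (divPt p τ v) r = (p : ℂ) ^ r * sumS p r v τ := by
  have hp : (p : ℂ) ≠ 0 := Nat.cast_ne_zero.mpr (NeZero.ne p)
  rw [PeriodPair.sumInvPow, sumS, ← (latEquiv τ).tsum_eq, ← tsum_mul_left]
  refine tsum_congr fun w => ?_
  rw [eisSummand, coe_latEquiv, zpow_neg, zpow_natCast, divPt,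
    show (w 0 : ℂ) * τ + w 1 - -(((v 0 : ℂ) * τ + v 1) / p) =
      ((shiftIdx p v w 0 : ℂ) * τ + shiftIdx p v w 1) / p by
      simp [shiftIdx]; field_simp; ring,
    div_pow, inv_div, div_eq_mul_inv]

theorem lat_G (τ : ℍ) (r : ℕ) : (lat τ).G r = ∑' v : Fin 2 → ℤ, eisSummand r v τ := by
  rw [PeriodPair.G, ← (latEquiv τ).tsum_eq]
  exact tsum_congr fun w => by rw [eisSummand, coe_latEquiv, zpow_neg, zpow_natCast]

theorem eisensteinSeries_eq_two_mul {k : ℕ} (hk : 3 ≤ k) (τ : ℍ) :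
    eisensteinSeries (N := 1) 0 k τ = 2 * E hk τ := by
  have : E hk τ = (1 / 2 : ℂ) * eisensteinSeries (N := 1) 0 k τ := rfl
  rw [this]
  ring

theorem tsum_eisSummand_four (τ : ℍ) :
    ∑' v : Fin 2 → ℤ, eisSummand (4 : ℕ) v τ = (π : ℂ) ^ 4 / 45 * E₄ τ := by
  rw [tsum_eisSummand_eq_riemannZeta_mul_eisensteinSeries (by norm_num),
    eisensteinSeries_eq_two_mul (by norm_num : 3 ≤ 4)]
  push_cast
  rw [riemannZeta_four]
  show _ * (2 * E₄ τ) = _
  ring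

theorem riemannZeta_six : riemannZeta 6 = (π : ℂ) ^ 6 / 945 := by
  have h := riemannZeta_two_mul_nat (k := 3) (by norm_num)
  rw [show (2 * ((3 : ℕ) : ℂ)) = 6 by norm_num] at h
  rw [h, show bernoulli (2 * 3) = 1 / 42 by decide +kernel]
  norm_num [Nat.factorial]
  ring

theorem tsum_eisSummand_six (τ : ℍ) :
    ∑' v : Fin 2 → ℤ, eisSummand (6 : ℕ) v τ = 2 * (π : ℂ) ^ 6 / 945 * E₆ τ := by
  rw [tsum_eisSummand_eq_riemannZeta_mul_eisensteinSeries (by norm_num),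
    eisensteinSeries_eq_two_mul (by norm_num : 3 ≤ 6)]
  push_cast
  rw [riemannZeta_six]
  show _ * (2 * E₆ τ) = _
  ring

theorem lat_g₂ (τ : ℍ) : (lat τ).g₂ = 4 * (π : ℂ) ^ 4 / 3 * E₄ τ := by
  rw [PeriodPair.g₂, lat_G, tsum_eisSummand_four]; ring

theorem lat_g₃ (τ : ℍ) : (lat τ).g₃ = 8 * (π : ℂ) ^ 6 / 27 * E₆ τ := by
  rw [PeriodPair.g₃, lat_G, tsum_eisSummand_six]; ring

theorem c₄_curveOf (L : PeriodPair) : (curveOf L).c₄ = 12 * L.g₂ := by
  simp [curveOf, WeierstrassCurve.c₄, WeierstrassCurve.b₂, WeierstrassCurve.b₄]; ring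

theorem Δ_curveOf (L : PeriodPair) : (curveOf L).Δ = L.g₂ ^ 3 - 27 * L.g₃ ^ 2 := by
  simp [curveOf, WeierstrassCurve.Δ, WeierstrassCurve.b₂, WeierstrassCurve.b₄,
    WeierstrassCurve.b₆, WeierstrassCurve.b₈]
  ring

theorem Δ_lat (τ : ℍ) : (curveOf (lat τ)).Δ = (2 * (π : ℂ)) ^ 12 * discriminant τ := by
  rw [Δ_curveOf, lat_g₂, lat_g₃, discriminant_eq_E₄_cube_sub_E₆_sq]
  ring

instance isElliptic_lat (τ : ℍ) : (curveOf (lat τ)).IsElliptic :=
  ⟨isUnit_iff_ne_zero.mpr (by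
    rw [Δ_lat]
    exact mul_ne_zero (pow_ne_zero _ (mul_ne_zero two_ne_zero
      (Complex.ofReal_ne_zero.mpr Real.pi_ne_zero))) (discriminant_ne_zero τ))⟩

theorem c₄_cube_div_Δ_lat (τ : ℍ) :
    (curveOf (lat τ)).c₄ ^ 3 / (curveOf (lat τ)).Δ = X0.jFun τ := by
  have hπ : (π : ℂ) ≠ 0 := Complex.ofReal_ne_zero.mpr Real.pi_ne_zero
  have hd := discriminant_ne_zero τ
  rw [c₄_curveOf, lat_g₂, Δ_lat, X0.jFun]
  field_simp
  ring

theorem j_lat (τ : ℍ) : (curveOf (lat τ)).j = X0.jFun τ := by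
  rw [← c₄_cube_div_Δ_lat, WeierstrassCurve.j, Units.val_inv_eq_inv_val,
    WeierstrassCurve.coe_Δ', inv_mul_eq_div]

end Fermat.Agent.Mazur.Moduli
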