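import Fermat.Agent.FF.Modular
import Fermat.Agent.Mazur.Moduli.CotCube
import Fermat.Agent.Mazur.Moduli.Lattice
import Fermat.Agent.Mono.PlaceData

/-!
# The product of `℘'` over a cyclic subgroup of order `p`

`∏_{k=1}^{p-1} ℘'(k/p) ^ 4 · p ^ 12 · (2π) ^ 12 · Δ(pτ) = (2π) ^ (12 p) · Δ(τ) ^ p`, and the
resulting expression of `j(pτ)` in the coordinates of the `p`-division points.
-/

noncomputable section

open UpperHalfPlane hiding I
open Filter Topology CongruenceSubgroup Matrix AlgebraicCurve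
open scoped MatrixGroups ModularForm Manifold Real PeriodPair

namespace Fermat.Agent.Mazur.Moduli

variable (p : ℕ) [hp : Fact p.Prime]

/-- One factor of the product. -/
def Pterm (a : ZMod p) (τ : ℍ) : ℂ := (2 * (p : ℂ) ^ 3 * sumS p 3 ![0, (a.val : ℤ)] τ) ^ 4

/-- The product of the fourth powers of `℘'` at the points `k / p`. -/
def Pf : ℍ → ℂ := fun τ => ∏ a ∈ Finset.univ.erase (0 : ZMod p), Pterm p a τ

theorem prod_erase_zero {M : Type*} [CommMonoid M] (f : ZMod p → M) :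
    ∏ a ∈ Finset.univ.erase (0 : ZMod p), f a = ∏ k ∈ Finset.Icc 1 (p - 1), f (k : ZMod p) := by
  refine Finset.prod_nbij' (fun a => a.val) (fun k : ℕ => (k : ZMod p)) (fun a ha => ?_)
    (fun k hk => ?_) (fun a _ => ZMod.natCast_zmod_val a) (fun k hk => ?_) (fun a _ => ?_)
  · have h0 : a ≠ 0 := (Finset.mem_erase.mp ha).1
    have : a.val ≠ 0 := fun h => h0 ((ZMod.val_eq_zero a).mp h)
    exact Finset.mem_Icc.mpr ⟨by omega, by have := a.val_lt; omega⟩
  · rw [Finset.mem_Icc] at hk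
    refine Finset.mem_erase.mpr ⟨fun h => ?_, Finset.mem_univ _⟩
    rw [ZMod.natCast_eq_zero_iff] at h
    have := Nat.le_of_dvd (by omega) h
    omega
  · rw [Finset.mem_Icc] at hk
    exact ZMod.val_natCast_of_lt (by omega)
  · rw [ZMod.natCast_zmod_val]

theorem Pf_smul (γ : SL(2, ℤ)) (τ : ℍ) :
    Pf p (γ • τ) = denom γ τ ^ (12 * (p - 1)) *
      ∏ a ∈ Finset.univ.erase (0 : ZMod p),
        (2 * (p : ℂ) ^ 3 * sumS p 3 (![0, (a.val : ℤ)] ᵥ* γ) τ) ^ 4 := by
  simp only [Pf, Pterm, sumS_smul]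
  rw [show ∀ c : ℂ, c ^ (12 * (p - 1)) =
      ∏ _a ∈ Finset.univ.erase (0 : ZMod p), c ^ 12 from fun c => by
    rw [Finset.prod_const, Finset.card_erase_of_mem (Finset.mem_univ _), Finset.card_univ,
      ZMod.card, ← pow_mul], ← Finset.prod_mul_distrib]
  exact Finset.prod_congr rfl fun a _ => by ring

theorem Pf_slash (γ : SL(2, ℤ)) :
    Pf p ∣[((12 * (p - 1) : ℕ) : ℤ)] γ = fun τ => ∏ a ∈ Finset.univ.erase (0 : ZMod p),
      (2 * (p : ℂ) ^ 3 * sumS p 3 (![0, (a.val : ℤ)] ᵥ* γ) τ) ^ 4 := by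
  funext τ
  rw [ModularForm.SL_slash_apply, Pf_smul, _root_.zpow_neg, zpow_natCast, mul_comm _ (_ : ℂ)⁻¹,
    ← mul_assoc, inv_mul_cancel₀ (pow_ne_zero _ (denom_ne_zero _ τ)), one_mul]

theorem isFormFn_Pf : MF.IsFormFn (Gamma0 p) ((12 * (p - 1) : ℕ) : ℤ) (Pf p) where
  slash_eq γ hγ := by
    rw [Pf_slash]
    funext τ
    have hc : ((γ 1 0 : ℤ) : ZMod p) = 0 := by rwa [Gamma0_mem] at hγ
    have hd : ((γ 1 1 : ℤ) : ZMod p) ≠ 0 := by
      intro hd
      have := congrArg (fun m : ℤ => (m : ZMod p)) (Matrix.SpecialLinearGroup.det_coe γ)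
      simp only [Matrix.det_fin_two, Int.cast_sub, Int.cast_mul, hc, hd, mul_zero, sub_zero,
        Int.cast_one, zero_ne_one] at this
    refine Finset.prod_equiv (Equiv.mulLeft₀ _ hd) (fun a => ?_) (fun a _ => ?_)
    · simp [hd]
    · rw [Pterm]
      congr 2
      refine congrFun (sumS_congr fun i => ?_) τ
      fin_cases i
      · simp [vecMul, dotProduct, Fin.sum_univ_two, hc]
      · simp [vecMul, dotProduct, Fin.sum_univ_two, mul_comm]
  mdiff := by
    have h : Pf p = ∏ a ∈ Finset.univ.erase (0 : ZMod p),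
        (fun τ => (2 * (p : ℂ) ^ 3 * sumS p 3 ![0, (a.val : ℤ)] τ) ^ 4) := by
      funext τ; simp [Pf, Pterm]
    rw [h]
    refine Finset.prod_induction _ (fun f : ℍ → ℂ => MDiff f) (fun f g hf hg => hf.mul hg)
      mdifferentiable_const fun a _ => ?_
    exact (mdifferentiable_const.mul (mdiff_sumS le_rfl _)).pow 4
  bdd γ := by
    rw [Pf_slash]
    have h : (fun τ => ∏ a ∈ Finset.univ.erase (0 : ZMod p),
        (2 * (p : ℂ) ^ 3 * sumS p 3 (![0, (a.val : ℤ)] ᵥ* γ) τ) ^ 4) =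
        ∏ a ∈ Finset.univ.erase (0 : ZMod p),
          ((2 * (p : ℂ) ^ 3) • sumS p 3 (![0, (a.val : ℤ)] ᵥ* γ)) ^ 4 := by
      funext τ; simp
    rw [h]
    have hone : IsBoundedAtImInfty (1 : ℍ → ℂ) := Filter.const_boundedAtFilter _ _
    refine Finset.prod_induction _ IsBoundedAtImInfty (fun _ _ hf hg => hf.mul hg) hone
        fun a _ => ?_
    have hS : IsBoundedAtImInfty ((2 * (p : ℂ) ^ 3) • sumS p 3 (![0, (a.val : ℤ)] ᵥ* γ)) :=
      (isBoundedAtImInfty_sumS le_rfl _).smul _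
    rw [show ∀ f : ℍ → ℂ, f ^ 4 = f * f * f * f from fun f => by ring]
    exact ((hS.mul hS).mul hS).mul hS

/-- The points `k / p` are not in the lattice. -/
theorem divPt_notMem {k : ℤ} (hk : ¬ (p : ℤ) ∣ k) (τ : ℍ) :
    divPt p τ ![0, k] ∉ (lat τ).lattice := by
  rw [PeriodPair.mem_lattice]
  rintro ⟨m, n, h⟩
  have hp0 : (p : ℂ) ≠ 0 := Nat.cast_ne_zero.mpr hp.out.ne_zero
  have h' : (m : ℂ) * τ + n = -((k : ℂ) / p) := by simpa [lat, divPt] using h
  have hm : m = 0 := by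
    have := congrArg Complex.im h'
    simp [Complex.div_im, τ.im_pos.ne'] at this
    exact this
  rw [hm, Int.cast_zero, zero_mul, zero_add, eq_neg_iff_add_eq_zero] at h'
  field_simp at h'
  refine hk ⟨-n, ?_⟩
  have h'' : (k : ℂ) = ((p * -n : ℤ) : ℂ) := by push_cast; linear_combination h'
  exact_mod_cast h''

theorem derivP_divPt (v : Fin 2 → ℤ) (τ : ℍ) :
    ℘'[lat τ] (divPt p τ v) = 2 * (p : ℂ) ^ 3 * sumS p 3 v τ := by
  rw [derivP_eq_sumInvPow, sumInvPow_divPt, mul_assoc]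

theorem Pf_ne_zero (hodd : Odd p) (τ : ℍ) : Pf p τ ≠ 0 := by
  rw [Pf, prod_erase_zero, Finset.prod_ne_zero_iff]
  intro k hk
  rw [Finset.mem_Icc] at hk
  rw [Pterm, ZMod.val_natCast_of_lt (by omega : k < p)]
  refine pow_ne_zero 4 ?_
  rw [← derivP_divPt]
  have hnd : ∀ m : ℕ, 0 < m → m < p → ¬ (p : ℤ) ∣ (m : ℤ) := fun m h1 h2 h => by
    rw [Int.natCast_dvd_natCast] at h
    have := Nat.le_of_dvd h1 h; omega
  refine derivP_ne_zero (divPt_notMem p (hnd k (by omega) (by omega)) τ) ?_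
  rw [show divPt p τ ![0, (k : ℤ)] + divPt p τ ![0, (k : ℤ)] = divPt p τ ![0, 2 * (k : ℤ)] by
    simp [divPt]; ring]
  refine divPt_notMem p (fun h => ?_) τ
  rcases (Nat.prime_iff_prime_int.mp hp.out).dvd_or_dvd h with h2 | h2
  · have : p ∣ 2 := by exact_mod_cast h2
    have := (Nat.prime_dvd_prime_iff_eq hp.out Nat.prime_two).mp this
    subst this
    exact absurd hodd (by decide)
  · exact hnd k (by omega) (by omega) h2

theorem tendsto_Pf (hodd : Odd p) :
    Tendsto (Pf p) atImInfty (𝓝 ((2 * (π : ℂ)) ^ (12 * (p - 1)) / (p : ℂ) ^ 12)) := by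
  have h : Tendsto (Pf p) atImInfty (𝓝 (∏ a ∈ Finset.univ.erase (0 : ZMod p),
      (2 * (p : ℂ) ^ 3 * ∑' n : ℤ, ((((p : ℤ) * n + (a.val : ℤ) : ℤ) : ℂ) ^ 3)⁻¹) ^ 4)) :=
    tendsto_finsetProd _ fun a _ => ((tendsto_sumS le_rfl _).const_mul _).pow 4
  rw [prod_erase_zero] at h
  convert h using 2
  have hterm : ∀ k ∈ Finset.Icc 1 (p - 1),
      (2 * (p : ℂ) ^ 3 * ∑' n : ℤ,
          ((((p : ℤ) * n + (((k : ZMod p).val : ℕ) : ℤ) : ℤ) : ℂ) ^ 3)⁻¹) ^ 4 =
        (2 * (p : ℂ) ^ 3) ^ 4 *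
            (∑' n : ℤ, ((((p : ℤ) * n + ((k : ℕ) : ℤ) : ℤ) : ℂ) ^ 3)⁻¹) ^ 4 := by
    intro k hk
    rw [Finset.mem_Icc] at hk
    rw [ZMod.val_natCast_of_lt (by omega : k < p), mul_pow]
  rw [Finset.prod_congr rfl hterm, Finset.prod_mul_distrib, prod_tsum_cube p hodd,
      Finset.prod_const, Nat.card_Icc,
    show p - 1 + 1 - 1 = p - 1 by omega, ← pow_mul]
  have hp0 : (p : ℂ) ≠ 0 := Nat.cast_ne_zero.mpr hp.out.ne_zero
  rw [← mul_div_assoc, ← mul_pow,
    show 2 * (p : ℂ) ^ 3 * (4 * π ^ 3 / (p : ℂ) ^ 3) = (2 * π) ^ 3 by field_simp; ring, ← pow_mul,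
    show 3 * (4 * (p - 1)) = 12 * (p - 1) by ring]

/-- `Δ(pτ) / Δ(τ) ^ p → 1`. -/
theorem tendsto_delta_ratio :
    Tendsto (fun τ => MF.denN p τ / MF.deltaFn τ ^ p) atImInfty (𝓝 1) := by
  set g : ℍ → ℂ := fun τ => ∏' n : ℕ, (1 - ModularForm.eta_q n τ) ^ 24
  have hg := ModularForm.tendsto_atImInfty_tprod_one_sub_eta_q_pow
  have hs : Tendsto (fun τ => g (MF.scale p τ)) atImInfty (𝓝 1) :=
    hg.comp (MF.tendsto_affH p 1 0)
  have h := hs.div (hg.pow p) (by simp)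
  rw [one_pow, div_one] at h
  refine h.congr fun τ => ?_
  have hq : ∀ z : ℍ, MF.deltaFn z = Function.Periodic.qParam 1 z * g z := fun z =>
    ModularForm.discriminant_eq_q_prod z
  rw [MF.denN, Function.comp_apply, hq, hq, MF.qParam_scale, mul_pow,
    mul_div_mul_left _ _ (pow_ne_zero _ (Function.Periodic.qParam_ne_zero _))]
  rfl

/-- The product identity between the values of `℘'` at `k / p` and `Δ`. -/
theorem prod_identity (hodd : Odd p) (τ : ℍ) :
    Pf p τ * MF.denN p τ =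
      (2 * (π : ℂ)) ^ (12 * (p - 1)) / (p : ℂ) ^ 12 * MF.deltaFn τ ^ p := by
  have hpos := hp.out.pos
  set F : ℍ → ℂ := Pf p * MF.denN p with hF
  set B : ℍ → ℂ := MF.deltaFn ^ p with hB
  set k : ℤ := (p : ℤ) * 12 with hk
  have hFf : MF.IsFormFn (Gamma0 p) k F := ((isFormFn_Pf p).mul (MF.isFormFn_denN p)).cast (by
    rw [hk]; push_cast [Nat.cast_sub (show 1 ≤ p by omega)]; ring)
  have hBt : MF.IsFormFn ⊤ k B := MF.isFormFn_delta.pow p
  have hBf : MF.IsFormFn (Gamma0 p) k B := hBt.mono le_top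
  have hB0 : B ≠ 0 := Mono.pow_ne_zero_fun MF.deltaFn_ne_zero' p
  have hFne : ∀ z, F z ≠ 0 := fun z => mul_ne_zero (Pf_ne_zero p hodd z) (MF.denN_ne_zero p z)
  have hBne : ∀ z, B z ≠ 0 := fun z => pow_ne_zero p (MF.deltaFn_ne_zero z)
  have hF0 : F ≠ 0 := fun h => hFne UpperHalfPlane.I (congrFun h _)
  have hlq : MF.lq B ≠ 0 := fun h => hB0 ((MF.lq_eq_zero_iff hBf.isQFn0).mp h)
  let x : Mono.FC p := ⟨MF.lq F / MF.lq B,
    (Mono.mem_FC_iff p).mpr ⟨k, F, B, hFf, hBf, hB0, div_mul_cancel₀ _ hlq⟩⟩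
  have hr : Mono.IsRep p x k F B := ⟨hFf, hBf, hB0, div_mul_cancel₀ _ hlq⟩
  have hx : x ≠ 0 := fun h => by
    have := hr.eq
    rw [h, IntermediateField.coe_zero, zero_mul] at this
    exact hF0 ((MF.lq_eq_zero_iff hFf.isQFn0).mp this.symm)
  have hL : (2 * (π : ℂ)) ^ (12 * (p - 1)) / (p : ℂ) ^ 12 ≠ 0 :=
    div_ne_zero (pow_ne_zero _ (mul_ne_zero two_ne_zero
      (Complex.ofReal_ne_zero.mpr Real.pi_ne_zero)))
      (pow_ne_zero _ (Nat.cast_ne_zero.mpr hp.out.ne_zero))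
  have hlim : Tendsto (fun z => F z / B z) atImInfty
      (𝓝 ((2 * (π : ℂ)) ^ (12 * (p - 1)) / (p : ℂ) ^ 12)) := by
    have h := (tendsto_Pf p hodd).mul (tendsto_delta_ratio p)
    rw [mul_one] at h
    exact h.congr fun z => (mul_div_assoc _ _ _).symm
  have hSe : ∀ δ : SL(2, ℤ), B ∣[k] δ = B := fun δ => hBt.slash_eq δ trivial
  have hpt : ∀ (v : Place ℂ (Mono.FC p)) (z : ℍ) (c : ℕ), 0 < c → Mono.IsPtPlace p v z c →
      v.ord x = 0 := by
    intro v z c hc hv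
    have hz : ∀ {f : ℍ → ℂ}, MDiff f → f z ≠ 0 → Mono.HasPtOrd f z 0 := fun hf h0 => by
      show analyticOrderAt _ _ = ((0 : ℕ) : ℕ∞)
      rw [Nat.cast_zero, (Mono.analyticAt_coe hf z).analyticOrderAt_eq_zero]
      simpa using h0
    have := hv x k F B 0 0 hr hx (hz hFf.mdiff (hFne z)) (hz hBf.mdiff (hBne z))
    simpa [hc.ne'] using this
  obtain ⟨s, hs⟩ := Mono.exists_hasExpOrd_slash hBf hB0 1
  rw [SlashAction.slash_one] at hs
  have hF1 : Mono.HasExpOrd F s := by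
    obtain ⟨M, hM, h⟩ := hs
    exact ⟨_, mul_ne_zero hL hM, (hlim.mul h).congr fun z => by
      rw [div_mul_div_cancel₀ (hBne z)]⟩
  obtain ⟨r, hr'⟩ := Mono.exists_hasExpOrd_slash hFf hF0 ModularGroup.S
  have hcls : ∀ δ : SL(2, ℤ), Mono.HasExpOrd (F ∣[k] δ) s ∨ Mono.HasExpOrd (F ∣[k] δ) r := by
    intro δ
    by_cases hδ : δ ∈ Gamma0 p
    · exact Or.inl (by rw [hFf.slash_eq δ hδ]; exact hF1)
    · refine Or.inr ?_
      rw [Gamma0_mem] at hδ
      set t : ℤ := ((((δ 1 1 : ℤ) : ZMod p) * ((δ 1 0 : ℤ) : ZMod p)⁻¹).val : ℤ) with ht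
      have hmem : δ * (ModularGroup.T ^ t)⁻¹ * ModularGroup.S⁻¹ ∈ Gamma0 p := by
        rw [Gamma0_mem, ← _root_.zpow_neg]
        have hS : (ModularGroup.S⁻¹ : SL(2, ℤ)).1 = !![0, 1; -1, 0] := by
          rw [Matrix.SpecialLinearGroup.coe_inv, ModularGroup.coe_S, Matrix.adjugate_fin_two]
          simp
        simp only [Matrix.SpecialLinearGroup.coe_mul, ModularGroup.coe_T_zpow, hS,
          Matrix.mul_apply, Fin.sum_univ_two]
        simp [ht]
        field_simp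
        ring
      obtain ⟨M, hM, h⟩ := hr'
      have e : F ∣[k] δ = (F ∣[k] ModularGroup.S) ∣[k] (ModularGroup.T ^ t) := by
        conv_lhs => rw [show δ = δ * (ModularGroup.T ^ t)⁻¹ * ModularGroup.S⁻¹ *
          (ModularGroup.S * ModularGroup.T ^ t) by group, SlashAction.slash_mul,
          hFf.slash_eq _ hmem, SlashAction.slash_mul]
      have htr : Tendsto (fun τ : ℍ => (t : ℝ) +ᵥ τ) atImInfty atImInfty := by
        rw [atImInfty, tendsto_comap_iff]
        exact tendsto_comap.congr fun τ => (vadd_im _ τ).symm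
      refine ⟨M * Complex.exp (2 * π * Complex.I * (r : ℂ) * t),
        mul_ne_zero hM (Complex.exp_ne_zero _), ?_⟩
      refine ((h.comp htr).mul_const _).congr fun z => ?_
      rw [e, Mono.slash_apply_T_zpow, Function.comp_apply, div_mul_eq_mul_div,
        div_eq_div_iff (Mono.expRate_ne_zero _ _) (Mono.expRate_ne_zero _ _), mul_assoc]
      congr 1
      rw [Mono.expRate, Mono.expRate, ← Complex.exp_add, coe_vadd]
      congr 1
      push_cast
      ring
  have hord : ∀ v : Place ℂ (Mono.FC p), v.ord x = 0 ∨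
      ∃ w : ℕ, (v.ord x : ℚ) = w * (r - s) := by
    intro v
    rcases (Mono.placeData p).covered v with ⟨z, c, hc, hv, -⟩ | ⟨δ, w, -, hv, -⟩
    · exact Or.inl (hpt v z c hc hv)
    · have hs' : Mono.HasExpOrd (B ∣[k] δ) s := by rwa [hSe]
      rcases hcls δ with h | h
      · left
        have := hv x k F B s s hr hx h hs'
        rw [sub_self, mul_zero] at this
        exact_mod_cast this
      · exact Or.inr ⟨w, hv x k F B r s hr hx h hs'⟩
  have hconst : x ∈ Set.range (algebraMap ℂ (Mono.FC p)) := by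
    rcases le_total s r with h | h
    · refine FF.mem_range_of_ord_nonneg fun v => ?_
      rcases hord v with h0 | ⟨w, hw⟩
      · rw [h0]
      · have : (0 : ℚ) ≤ v.ord x := hw ▸ mul_nonneg (Nat.cast_nonneg w) (sub_nonneg.mpr h)
        exact_mod_cast this
    · obtain ⟨c, hc⟩ := FF.mem_range_of_ord_nonneg (f := x⁻¹) (K := ℂ) fun v => by
        rw [Place.ord_inv]
        rcases hord v with h0 | ⟨w, hw⟩
        · rw [h0, neg_zero]
        · have : (v.ord x : ℚ) ≤ 0 :=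
            hw ▸ mul_nonpos_of_nonneg_of_nonpos (Nat.cast_nonneg w) (sub_nonpos.mpr h)
          have : v.ord x ≤ 0 := by exact_mod_cast this
          omega
      exact ⟨c⁻¹, by rw [map_inv₀, hc, inv_inv]⟩
  obtain ⟨c, hc⟩ := hconst
  have hFB : F = c • B := by
    refine (MF.lq_inj hFf.isQFn0 (hBf.smul c).isQFn0).mp ?_
    rw [MF.lq_smul hBf.isQFn0, ← hr.eq, ← hc, ← MF.algebraMap_eq_C]
    rfl
  have hcL : c = (2 * (π : ℂ)) ^ (12 * (p - 1)) / (p : ℂ) ^ 12 := by
    have := Mono.atImInfty_neBot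
    refine tendsto_nhds_unique (tendsto_const_nhds.congr fun z => ?_) hlim
    rw [hFB, Pi.smul_apply, smul_eq_mul, mul_div_assoc, div_self (hBne z), mul_one]
  have := congrFun hFB τ
  rw [hcL] at this
  exact this

/-- The sum of `1 / u ^ 4` over the lattice refined by `1 / p`. -/
theorem sum_sumS_four (τ : ℍ) :
    ∑ k ∈ Finset.range p, sumS p 4 ![0, (k : ℤ)] τ =
      ∑' v : Fin 2 → ℤ, EisensteinSeries.eisSummand (4 : ℕ) v (MF.scale p τ) := by
  have hp0 : (p : ℤ) ≠ 0 := Int.natCast_ne_zero.mpr hp.out.ne_zero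
  set e : (Fin 2 → ℤ) × Fin p → (Fin 2 → ℤ) := fun x => ![x.1 0, (p : ℤ) * x.1 1 + (x.2 : ℕ)]
  have he : Function.Bijective e := by
    refine ⟨fun a b h => ?_, fun v => ?_⟩
    · have h0 := congrFun h 0
      have h1 := congrFun h 1
      simp only [e, Matrix.cons_val_zero, Matrix.cons_val_one] at h0 h1
      have hk : ((a.2 : ℕ) : ℤ) = (b.2 : ℕ) := by
        have ha : ((a.2 : ℕ) : ℤ) < p := by exact_mod_cast a.2.2
        have hb : ((b.2 : ℕ) : ℤ) < p := by exact_mod_cast b.2.2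
        have h2 := congrArg (· % (p : ℤ)) h1
        simpa [Int.add_emod, Int.emod_eq_of_lt (Int.natCast_nonneg _) ha,
          Int.emod_eq_of_lt (Int.natCast_nonneg _) hb] using h2
      refine Prod.ext (funext fun i => ?_) (Fin.ext (by exact_mod_cast hk))
      fin_cases i
      · exact h0
      · rw [hk] at h1
        exact mul_left_cancel₀ hp0 (add_right_cancel h1)
    · refine ⟨(![v 0, v 1 / (p : ℤ)], ⟨(v 1 % (p : ℤ)).toNat, ?_⟩), funext fun i => ?_⟩
      · have := Int.emod_lt_of_pos (v 1) (by exact_mod_cast hp.out.pos : (0 : ℤ) < p)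
        have := Int.emod_nonneg (v 1) hp0
        omega
      · fin_cases i
        · rfl
        · simp [e, Int.toNat_of_nonneg (Int.emod_nonneg (v 1) hp0), Int.mul_ediv_add_emod]
  have hterm : ∀ (w : Fin 2 → ℤ) (k : ℕ), EisensteinSeries.eisSummand (4 : ℕ)
      (shiftIdx p ![0, (k : ℤ)] w) τ =
      EisensteinSeries.eisSummand (4 : ℕ) ![w 0, (p : ℤ) * w 1 + k] (MF.scale p τ) := fun w k => by
    simp only [EisensteinSeries.eisSummand, shiftIdx, MF.coe_scale]
    congr 1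
    simp
    ring
  rw [← (Equiv.ofBijective e he).tsum_eq, Finset.sum_range]
  simp only [Equiv.ofBijective_apply, e]
  have hsum : Summable fun x : (Fin 2 → ℤ) × Fin p =>
      EisensteinSeries.eisSummand (4 : ℕ) ![x.1 0, (p : ℤ) * x.1 1 + (x.2 : ℕ)] (MF.scale p τ) :=
    ((EisensteinSeries.summable_norm_eisSummand (k := 4) (by norm_num) (MF.scale p τ)).of_norm
      ).comp_injective he.injective
  rw [hsum.tsum_prod]
  simp only [tsum_fintype]
  rw [Summable.tsum_finsetSum (fun k _ => ?_)]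
  · exact Finset.sum_congr rfl fun k _ => tsum_congr fun w => hterm w k
  · exact ((summable_sumS (p := p) (r := 4) (by norm_num) ![0, (k.val : ℤ)] τ).of_norm).congr
      fun w => hterm w k

end Fermat.Agent.Mazur.Moduli
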