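import Fermat.Agent.EC.TorsionCard
import Fermat.Agent.SmallExponents.VC

/-!
# The invariant of a quotient by a cyclic subgroup of order `p`

For a point `Q` of order `p` on `E`, `isoJ E p Q` is
`(c₄ + 120 ∑ (6x² + b₂x + b₄))³ ∏ (2y + a₁x + a₃)⁴ / Δ ^ p`, sum and product over the nonzero
multiples of `Q`. It commutes with field maps, is unchanged by changes of variables and depends only
on the subgroup.
-/

noncomputable section

open WeierstrassCurve WeierstrassCurve.Affine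
open scoped WeierstrassCurve.Affine

namespace Fermat.Agent.Mazur.Moduli

section Field

variable {K : Type*} [Field K] (E : WeierstrassCurve K)

/-- The summand of the `c₄` of the quotient. -/
def c4Term : E.toAffine.Point → K
  | .zero => 0
  | .some x _ _ => 6 * x ^ 2 + E.b₂ * x + E.b₄

/-- The factor of the discriminant of the quotient. -/
def dTerm : E.toAffine.Point → K
  | .zero => 1
  | .some x y _ => (2 * y + E.a₁ * x + E.a₃) ^ 4

theorem c4Term_some {x y : K} (h : E.toAffine.Nonsingular x y) :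
    c4Term E (.some x y h) = 6 * x ^ 2 + E.b₂ * x + E.b₄ := rfl

theorem dTerm_some {x y : K} (h : E.toAffine.Nonsingular x y) :
    dTerm E (.some x y h) = (2 * y + E.a₁ * x + E.a₃) ^ 4 := rfl

variable [DecidableEq K] (p : ℕ) [hp : Fact p.Prime]

/-- The `c₄` of the quotient. -/
def isoC4 (Q : E.toAffine.Point) : K :=
  E.c₄ + 120 * ∑ a ∈ Finset.univ.erase (0 : ZMod p), c4Term E (a.val • Q)

/-- The product of the `(2y + a₁x + a₃)⁴`. -/
def isoD (Q : E.toAffine.Point) : K :=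
  ∏ a ∈ Finset.univ.erase (0 : ZMod p), dTerm E (a.val • Q)

/-- The invariant of the quotient. -/
def isoJ (Q : E.toAffine.Point) : K := isoC4 E p Q ^ 3 * isoD E p Q / E.Δ ^ p

end Field

theorem zmod_val_nsmul {G : Type*} [AddCommGroup G] {p : ℕ} {Q : G} (hQ : p • Q = 0)
    (n : ℕ) : (n : ZMod p).val • Q = n • Q := by
  conv_rhs => rw [← Nat.mod_add_div n p, add_nsmul, mul_nsmul, hQ, nsmul_zero, add_zero]
  rw [ZMod.val_natCast]

theorem exists_some_of_ne_zero {K : Type*} [Field K] {E : WeierstrassCurve.Affine K}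
    {P : E.Point} (hP : P ≠ 0) : ∃ x y, ∃ h : E.Nonsingular x y, P = .some x y h := by
  rcases P with _ | ⟨x, y, h⟩
  · exact absurd rfl hP
  · exact ⟨x, y, h, rfl⟩

variable {K : Type*} [Field K] [DecidableEq K] {E : WeierstrassCurve K} {p : ℕ}
  [hp : Fact p.Prime] {Q : E.toAffine.Point}

theorem nsmul_ne_zero_of_mem (hQ : addOrderOf Q = p) {a : ZMod p}
    (ha : a ∈ Finset.univ.erase (0 : ZMod p)) : a.val • Q ≠ 0 := fun h => by
  have hd : addOrderOf Q ∣ a.val := addOrderOf_dvd_of_nsmul_eq_zero h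
  rw [hQ] at hd
  have hlt := a.val_lt
  exact (Finset.mem_erase.mp ha).1 ((ZMod.val_eq_zero a).mp (Nat.eq_zero_of_dvd_of_lt hd hlt))

theorem isoJ_nsmul (hQ : p • Q = 0) {m : ℕ} (hm : ¬ p ∣ m) :
    isoJ E p (m • Q) = isoJ E p Q := by
  have hm' : (m : ZMod p) ≠ 0 := by rwa [ne_eq, ZMod.natCast_eq_zero_iff]
  have hmem : ∀ a : ZMod p, a ∈ Finset.univ.erase (0 : ZMod p) ↔
      Equiv.mulRight₀ _ hm' a ∈ Finset.univ.erase (0 : ZMod p) := fun a => by simp [hm']
  have key : ∀ a : ZMod p, a.val • m • Q = (Equiv.mulRight₀ _ hm' a).val • Q := fun a => by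
    show _ = ((a * (m : ZMod p)).val) • Q
    rw [← mul_nsmul', ← zmod_val_nsmul hQ (a.val * m), Nat.cast_mul, ZMod.natCast_zmod_val]
  rw [isoJ, isoJ, isoC4, isoC4, isoD, isoD,
    Finset.sum_equiv (Equiv.mulRight₀ _ hm') hmem
      (g := fun b => c4Term E (b.val • Q)) (fun a _ => congrArg (c4Term E) (key a)),
    Finset.prod_equiv (Equiv.mulRight₀ _ hm') hmem
      (g := fun b => dTerm E (b.val • Q)) (fun a _ => congrArg (dTerm E) (key a))]

/-! ### Changes of variables -/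

theorem c4Term_vcHom (C : VariableChange K) {P : (C • E).toAffine.Point} (hP : P ≠ 0) :
    c4Term E (SmallExponents.vcHom E C P) = (C.u : K) ^ 4 * c4Term (C • E) P := by
  obtain ⟨x, y, h, rfl⟩ := exists_some_of_ne_zero hP
  rw [SmallExponents.vcHom_some, c4Term_some, c4Term_some, variableChange_b₂, variableChange_b₄,
    SmallExponents.vcX,
    Units.val_inv_eq_inv_val]
  have hu : (C.u : K) ≠ 0 := C.u.ne_zero
  field_simp
  ring

theorem dTerm_vcHom (C : VariableChange K) {P : (C • E).toAffine.Point} (hP : P ≠ 0) :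
    dTerm E (SmallExponents.vcHom E C P) = (C.u : K) ^ 12 * dTerm (C • E) P := by
  obtain ⟨x, y, h, rfl⟩ := exists_some_of_ne_zero hP
  rw [SmallExponents.vcHom_some, dTerm_some, dTerm_some, variableChange_a₁, variableChange_a₃,
    SmallExponents.vcX,
    SmallExponents.vcY, Units.val_inv_eq_inv_val]
  have hu : (C.u : K) ≠ 0 := C.u.ne_zero
  field_simp
  ring

theorem isoJ_vcHom (C : VariableChange K) {P : (C • E).toAffine.Point} (hP : addOrderOf P = p) :
    isoJ E p (SmallExponents.vcHom E C P) = isoJ (C • E) p P := by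
  have hu : (C.u : K) ≠ 0 := C.u.ne_zero
  obtain ⟨m, hm⟩ : ∃ m, p = m + 1 := ⟨p - 1, by have := hp.out.pos; omega⟩
  have hc : isoC4 E p (SmallExponents.vcHom E C P) = (C.u : K) ^ 4 * isoC4 (C • E) p P := by
    rw [isoC4, isoC4, variableChange_c₄, Finset.sum_congr rfl fun a ha => by
      rw [← map_nsmul, c4Term_vcHom C (nsmul_ne_zero_of_mem hP ha)], ← Finset.mul_sum,
      Units.val_inv_eq_inv_val]
    field_simp
  have hd : isoD E p (SmallExponents.vcHom E C P) = (C.u : K) ^ (12 * m) * isoD (C • E) p P := by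
    rw [isoD, isoD, Finset.prod_congr rfl fun a ha => by
      rw [← map_nsmul, dTerm_vcHom C (nsmul_ne_zero_of_mem hP ha)], Finset.prod_mul_distrib,
      Finset.prod_const, Finset.card_erase_of_mem (Finset.mem_univ _), Finset.card_univ,
      ZMod.card, ← pow_mul]
    congr 2
    omega
  rw [isoJ, isoJ, hc, hd, variableChange_Δ, Units.val_inv_eq_inv_val,
    mul_pow ((C.u : K)⁻¹ ^ 12), ← pow_mul ((C.u : K)⁻¹), inv_pow, show 12 * p = 12 * m +
        12 by omega,
    pow_add, mul_pow]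
  field_simp

end Fermat.Agent.Mazur.Moduli

namespace Fermat.Agent.Mazur.Moduli

/-! ### Maps of fields -/

variable {R F K : Type*} [CommRing R] [Field F] [Field K] [Algebra R F] [Algebra R K]
  [DecidableEq F] [DecidableEq K] (W : WeierstrassCurve R) {p : ℕ} [hp : Fact p.Prime]

omit [DecidableEq F] [DecidableEq K] in
theorem coeff_map (f : F →ₐ[R] K) :
    (W⁄K).a₁ = f (W⁄F).a₁ ∧ (W⁄K).a₃ = f (W⁄F).a₃ ∧ (W⁄K).b₂ = f (W⁄F).b₂ ∧
      (W⁄K).b₄ = f (W⁄F).b₄ ∧ (W⁄K).c₄ = f (W⁄F).c₄ ∧ (W⁄K).Δ = f (W⁄F).Δ := by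
  refine ⟨?_, ?_, ?_, ?_, ?_, ?_⟩ <;> simp [WeierstrassCurve.baseChange]

theorem c4Term_map (f : F →ₐ[R] K) (P : (W⁄F).Point) :
    c4Term (W⁄K) (Point.map f P) = f (c4Term (W⁄F) P) := by
  rcases P with _ | ⟨x, y, h⟩
  · exact (map_zero f).symm
  · rw [Point.map_some]
    show 6 * f x ^ 2 + (W⁄K).b₂ * f x + (W⁄K).b₄ = f (6 * x ^ 2 + (W⁄F).b₂ * x + (W⁄F).b₄)
    simp [map_ofNat, coeff_map W f]

theorem dTerm_map (f : F →ₐ[R] K) (P : (W⁄F).Point) :
    dTerm (W⁄K) (Point.map f P) = f (dTerm (W⁄F) P) := by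
  rcases P with _ | ⟨x, y, h⟩
  · exact (map_one f).symm
  · rw [Point.map_some]
    show (2 * f y + (W⁄K).a₁ * f x + (W⁄K).a₃) ^ 4 =
      f ((2 * y + (W⁄F).a₁ * x + (W⁄F).a₃) ^ 4)
    simp [map_ofNat]

theorem isoJ_map (f : F →ₐ[R] K) (Q : (W⁄F).Point) :
    isoJ (W⁄K) p (Point.map f Q) = f (isoJ (W⁄F) p Q) := by
  simp only [isoJ, isoC4, isoD, ← map_nsmul, c4Term_map W f, dTerm_map W f, map_div₀, map_mul,
    map_pow, map_add, map_sum, map_prod, map_ofNat, coeff_map W f]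

end Fermat.Agent.Mazur.Moduli
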