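import Mathlib.AlgebraicGeometry.EllipticCurve.IsomOfJ
import Fermat.Agent.Mazur.Moduli.Identity
import Fermat.Agent.Mazur.Moduli.Invariant

/-!
# The invariant of the quotient over `ℂ`

For a point `Q` of order `p` on a complex elliptic curve `E` there is a `τ` with `j(τ) = j(E)` and
`j(pτ) = isoJ E p Q`.
-/

noncomputable section

open UpperHalfPlane hiding I
open Matrix WeierstrassCurve CongruenceSubgroup
open scoped MatrixGroups Real PeriodPair

namespace Fermat.Agent.Mazur.Moduli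

variable (p : ℕ)

theorem divPt_add (τ : ℍ) (v w : Fin 2 → ℤ) :
    divPt p τ (v + w) = divPt p τ v + divPt p τ w := by
  simp [divPt]; ring

theorem divPt_nsmul (τ : ℍ) (n : ℕ) (v : Fin 2 → ℤ) :
    divPt p τ (n • v) = n • divPt p τ v := by
  simp [divPt]; ring

variable {p} [hp : Fact p.Prime]

theorem divPt_mem_iff {τ : ℍ} {v : Fin 2 → ℤ} :
    divPt p τ v ∈ (lat τ).lattice ↔ ∀ i, (p : ℤ) ∣ v i := by
  have hp0 : (p : ℂ) ≠ 0 := Nat.cast_ne_zero.mpr hp.out.ne_zero
  rw [PeriodPair.mem_lattice]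
  constructor
  · rintro ⟨m, n, h⟩
    have h' : ((m * p + v 0 : ℤ) : ℂ) * τ + ((n * p + v 1 : ℤ) : ℂ) = 0 := by
      simp only [lat, divPt] at h
      push_cast
      field_simp at h
      linear_combination h
    have h0 : m * p + v 0 = 0 := by
      have := congrArg Complex.im h'
      simp [τ.im_pos.ne'] at this
      exact_mod_cast this
    rw [h0, Int.cast_zero, zero_mul, zero_add, Int.cast_eq_zero] at h'
    intro i
    fin_cases i
    · exact ⟨-m, by simp only [Fin.zero_eta]; linarith⟩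
    · exact ⟨-n, by simp only [Fin.mk_one]; linarith⟩
  · intro h
    obtain ⟨a, ha⟩ := h 0
    obtain ⟨b, hb⟩ := h 1
    refine ⟨-a, -b, ?_⟩
    simp only [lat, divPt, ha, hb]
    push_cast
    field_simp
    ring

variable (p) in
/-- The point of `v / p`. -/
def torsPt (τ : ℍ) (v : Fin 2 → ℤ) : (curveOf (lat τ)).toAffine.Point :=
  pointP (lat τ) (divPt p τ v)

omit hp in
theorem torsPt_nsmul (τ : ℍ) (n : ℕ) (v : Fin 2 → ℤ) :
    torsPt p τ (n • v) = n • torsPt p τ v := by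
  rw [torsPt, torsPt, divPt_nsmul, ← pointHom_apply, map_nsmul, pointHom_apply]

theorem torsPt_eq_zero_iff {τ : ℍ} {v : Fin 2 → ℤ} :
    torsPt p τ v = 0 ↔ ∀ i, (v i : ZMod p) = 0 := by
  simp only [torsPt, pointP_eq_zero_iff, divPt_mem_iff, ZMod.intCast_zmod_eq_zero_iff_dvd]

theorem torsPt_congr {τ : ℍ} {v w : Fin 2 → ℤ} (h : ∀ i, (v i : ZMod p) = (w i : ZMod p)) :
    torsPt p τ v = torsPt p τ w := by
  have h0 : torsPt p τ (v - w) = 0 := torsPt_eq_zero_iff.mpr fun i => by simp [h i]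
  rw [show v = (v - w) + w by abel]
  simp only [torsPt, divPt_add, pointP_add] at h0 ⊢
  rw [h0, zero_add]

theorem p_nsmul_torsPt (τ : ℍ) (v : Fin 2 → ℤ) : p • torsPt p τ v = 0 := by
  rw [← torsPt_nsmul, torsPt_eq_zero_iff]
  intro i
  simp

/-- Every point killed by `p` is some `v / p`. -/
theorem exists_torsPt (τ : ℍ) {P : (curveOf (lat τ)).toAffine.Point} (hP : p • P = 0) :
    ∃ v : Fin 2 → ℤ, P = torsPt p τ v := by
  classical
  let g : (Fin 2 → ZMod p) → {P : (curveOf (lat τ)).toAffine.Point // p • P = 0} := fun v =>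
    ⟨torsPt p τ fun i => ((v i).val : ℤ), p_nsmul_torsPt τ _⟩
  have hinj : Function.Injective g := fun v w h => by
    have h' : torsPt p τ (fun i => ((v i).val : ℤ) - ((w i).val : ℤ)) = 0 := by
      have e := congrArg Subtype.val h
      rw [← sub_eq_zero.mpr e]
      simp only [g, torsPt]
      rw [eq_sub_iff_add_eq, ← pointP_add, ← divPt_add]
      congr 2
      funext i
      simp
    funext i
    have := torsPt_eq_zero_iff.mp h' i
    simp only [Int.cast_sub, Int.cast_natCast, ZMod.natCast_zmod_val, sub_eq_zero] at this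
    exact this
  have hcard : Nat.card {P : (curveOf (lat τ)).toAffine.Point // p • P = 0} = p ^ 2 :=
    EC.card_nsmul_eq_zero _ (Nat.cast_ne_zero.mpr hp.out.ne_zero)
  have : Finite {P : (curveOf (lat τ)).toAffine.Point // p • P = 0} :=
    Nat.finite_of_card_ne_zero (by rw [hcard]; exact pow_ne_zero _ hp.out.ne_zero)
  have hbij : Function.Bijective g :=
    (Nat.bijective_iff_injective_and_card g).mpr ⟨hinj, by
      rw [hcard, Nat.card_eq_fintype_card, Fintype.card_fun, ZMod.card, Fintype.card_fin]⟩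
  obtain ⟨v, hv⟩ := hbij.2 ⟨P, hP⟩
  exact ⟨_, (congrArg Subtype.val hv).symm⟩

theorem c4Term_pointP {τ : ℍ} {z : ℂ} (hz : z ∉ (lat τ).lattice) :
    c4Term (curveOf (lat τ)) (pointP (lat τ) z) = 6 * (lat τ).sumInvPow z 4 := by
  rw [pointP_of_notMem hz, c4Term_some, sumInvPow_four (lat τ) hz]
  simp [curveOf, WeierstrassCurve.b₂, WeierstrassCurve.b₄]
  ring

theorem dTerm_pointP {τ : ℍ} {z : ℂ} (hz : z ∉ (lat τ).lattice) :
    dTerm (curveOf (lat τ)) (pointP (lat τ) z) = (℘'[lat τ] z) ^ 4 := by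
  rw [pointP_of_notMem hz, dTerm_some]
  simp [curveOf]
  ring

theorem sum_zmod_val {M : Type*} [AddCommMonoid M] (f : ℕ → M) :
    ∑ a : ZMod p, f a.val = ∑ k ∈ Finset.range p, f k := by
  refine Finset.sum_nbij' (fun a => a.val) (fun k : ℕ => (k : ZMod p))
    (fun a _ => Finset.mem_range.mpr a.val_lt) (fun k _ => Finset.mem_univ _)
    (fun a _ => ZMod.natCast_zmod_val a)
    (fun k hk => ZMod.val_natCast_of_lt (Finset.mem_range.mp hk)) (fun a _ => rfl)

/-- The invariant of the quotient of `ℂ / (ℤ τ + ℤ)` by a point of order `p` is `j(p γτ)`. -/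
theorem isoJ_torsPt (hodd : Odd p) (τ : ℍ) (γ : SL(2, ℤ)) :
    isoJ (curveOf (lat τ)) p (torsPt p τ (![0, 1] ᵥ* γ)) = X0.jFun (MF.scale p (γ • τ)) := by
  set v : Fin 2 → ℤ := ![0, 1] ᵥ* γ with hv
  have hne : ∀ a ∈ Finset.univ.erase (0 : ZMod p), divPt p τ (a.val • v) ∉ (lat τ).lattice := by
    intro a ha hmem
    rw [divPt_mem_iff] at hmem
    simp only [← ZMod.intCast_zmod_eq_zero_iff_dvd] at hmem
    have h0 := hmem 0
    have h1 := hmem 1
    have ha0 : a ≠ 0 := (Finset.mem_erase.mp ha).1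
    simp [hv, vecMul, dotProduct, Fin.sum_univ_two, ha0] at h0 h1
    have := congrArg (fun m : ℤ => (m : ZMod p)) (Matrix.SpecialLinearGroup.det_coe γ)
    simp only [Matrix.det_fin_two, Int.cast_sub, Int.cast_mul, h0, h1, mul_zero, sub_zero,
      Int.cast_one, zero_ne_one] at this
  have hsub : ∀ (r : ℕ) (n : ℕ), sumS p r ![0, (n : ℤ)] (γ • τ) =
      denom γ τ ^ r * sumS p r (n • v) τ := fun r n => by
    rw [sumS_smul, hv]
    congr 3
    rw [← smul_vecMul]
    congr 1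
    funext i
    fin_cases i <;> simp
  set d : ℂ := denom γ τ with hd
  have hd0 : d ≠ 0 := denom_ne_zero _ _
  have hpsum : isoC4 (curveOf (lat τ)) p (torsPt p τ v) * d ^ 4 =
      720 * (p : ℂ) ^ 4 * ∑ k ∈ Finset.range p, sumS p 4 ![0, (k : ℤ)] (γ • τ) := by
    have hz : (lat τ).g₂ = 60 * ((p : ℂ) ^ 4 * sumS p 4 (0 • v) τ) := by
      rw [← sumInvPow_divPt, divPt_nsmul, zero_smul, PeriodPair.sumInvPow_zero, PeriodPair.g₂]
    have hc : ∀ a ∈ Finset.univ.erase (0 : ZMod p),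
        c4Term (curveOf (lat τ)) (a.val • torsPt p τ v) =
          6 * ((p : ℂ) ^ 4 * sumS p 4 (a.val • v) τ) := fun a ha => by
      rw [← torsPt_nsmul, torsPt, c4Term_pointP (hne a ha), sumInvPow_divPt]
    rw [Finset.sum_congr rfl (fun k (_ : k ∈ Finset.range p) => hsub 4 k), isoC4, c₄_curveOf, hz,
      Finset.sum_congr rfl hc, Finset.sum_erase_eq_sub (Finset.mem_univ _), ZMod.val_zero,
      sum_zmod_val (fun k => 6 * ((p : ℂ) ^ 4 * sumS p 4 (k • v) τ))]
    simp only [← Finset.mul_sum]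
    ring
  have hprod : isoD (curveOf (lat τ)) p (torsPt p τ v) * d ^ (12 * (p - 1)) = Pf p (γ • τ) := by
    have hterm : ∀ a ∈ Finset.univ.erase (0 : ZMod p),
        dTerm (curveOf (lat τ)) (a.val • torsPt p τ v) * d ^ 12 = Pterm p a (γ • τ) := by
      intro a ha
      rw [← torsPt_nsmul, torsPt, dTerm_pointP (hne a ha), derivP_divPt, Pterm, hsub]
      ring
    rw [Pf, ← Finset.prod_congr rfl hterm, Finset.prod_mul_distrib, Finset.prod_const, isoD,
      Finset.card_erase_of_mem (Finset.mem_univ _), Finset.card_univ, ZMod.card, ← pow_mul]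
  have hΔ : MF.deltaFn (γ • τ) = d ^ 12 * ModularForm.discriminant τ := by
    have h := congrFun (MF.isFormFn_delta.slash_eq γ trivial) τ
    rw [ModularForm.SL_slash_apply, _root_.zpow_neg, ← div_eq_mul_inv,
      div_eq_iff (zpow_ne_zero _ hd0)] at h
    rw [h, mul_comm]
    rfl
  obtain ⟨m, hm⟩ : ∃ m, p = m + 1 := ⟨p - 1, by have := hp.out.pos; omega⟩
  have hmain := prod_identity p hodd (γ • τ)
  rw [← hprod, hΔ, mul_pow (d ^ 12), ← pow_mul, show p - 1 = m by omega,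
    show 12 * p = 12 * m + 12 by omega] at hmain
  have hS := sum_sumS_four p (γ • τ)
  rw [tsum_eisSummand_four] at hS
  rw [hS, ← eq_div_iff (pow_ne_zero _ hd0)] at hpsum
  have hπ : (π : ℂ) ≠ 0 := Complex.ofReal_ne_zero.mpr Real.pi_ne_zero
  have hp0 : (p : ℂ) ≠ 0 := Nat.cast_ne_zero.mpr hp.out.ne_zero
  have hdp : MF.denN p (γ • τ) ≠ 0 := MF.denN_ne_zero p _
  have hΔτ : ModularForm.discriminant τ ≠ 0 := ModularForm.discriminant_ne_zero τ
  rw [show X0.jFun (MF.scale p (γ • τ)) =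
    ModularForm.E₄ (MF.scale p (γ • τ)) ^ 3 / MF.denN p (γ • τ) from rfl,
    isoJ, Δ_lat, hpsum, mul_pow ((2 * (π : ℂ)) ^ 12), ← pow_mul,
    show 12 * p = 12 * m + 12 by omega]
  replace hΔτ := pow_ne_zero p hΔτ
  generalize ModularForm.discriminant τ ^ p = Δp at hmain hΔτ ⊢
  have hpp : (p : ℂ) ^ 12 * ((p : ℂ) ^ 12)⁻¹ = 1 := mul_inv_cancel₀ (pow_ne_zero _ hp0)
  rw [show isoD (curveOf (lat τ)) p (torsPt p τ v) =
      (2 * (π : ℂ)) ^ (12 * m) / (p : ℂ) ^ 12 * d ^ 12 * Δp / MF.denN p (γ • τ) from by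
    rw [eq_div_iff hdp]
    refine mul_right_cancel₀ (pow_ne_zero (12 * m) hd0) ?_
    linear_combination hmain]
  have h0 : Δp ≠ 0 := hΔτ
  field_simp
  ring

/-- Uniformisation of a point of order `p`. -/
theorem exists_tau (hodd : Odd p) (E : WeierstrassCurve ℂ) [E.IsElliptic]
    (Q : E.toAffine.Point) (hQ : addOrderOf Q = p) :
    ∃ τ : ℍ, X0.jFun τ = E.j ∧ X0.jFun (MF.scale p τ) = isoJ E p Q := by
  obtain ⟨τ₀, hτ₀⟩ := X0.jFun_surjective E.j
  obtain ⟨C, hC⟩ := WeierstrassCurve.exists_variableChange_of_j_eq (curveOf (lat τ₀)) E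
    (by rw [j_lat, hτ₀])
  suffices h : ∀ γ : SL(2, ℤ), ∀ m : ℕ, ¬ p ∣ m → ∀ P : (curveOf (lat τ₀)).toAffine.Point,
      P = m • torsPt p τ₀ (![0, 1] ᵥ* γ) →
        X0.jFun (MF.scale p (γ • τ₀)) = isoJ (curveOf (lat τ₀)) p P by
    subst hC
    set P := SmallExponents.vcHom (curveOf (lat τ₀)) C Q with hP
    have hPord : addOrderOf P = p := by
      rw [hP, addOrderOf_injective _ (SmallExponents.vcHom_injective _ _), hQ]
    rw [← isoJ_vcHom C hQ, ← hP]
    obtain ⟨v, hv⟩ := exists_torsPt τ₀ (P := P) (by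
      have := addOrderOf_nsmul_eq_zero P
      rwa [hPord] at this)
    have hv0 : ¬ ∀ i, (v i : ZMod p) = 0 := fun h0 => by
      rw [hv, torsPt_eq_zero_iff.mpr h0, addOrderOf_zero] at hPord
      exact hp.out.ne_one hPord.symm
    by_cases h0 : (v 0 : ZMod p) = 0
    · have h1 : (v 1 : ZMod p) ≠ 0 := fun h1 => hv0 fun i => by fin_cases i <;> assumption
      refine ⟨τ₀, hτ₀, ?_⟩
      have hm : ¬ p ∣ (v 1 : ZMod p).val := fun hd => h1
        ((ZMod.val_eq_zero _).mp (Nat.eq_zero_of_dvd_of_lt hd (ZMod.val_lt _)))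
      have := h 1 _ hm P (by
        rw [hv, ← torsPt_nsmul]
        refine torsPt_congr fun i => ?_
        fin_cases i <;> simp [h0])
      rwa [one_smul] at this
    · set t : ℤ := ((((v 1 : ℤ) : ZMod p) * ((v 0 : ℤ) : ZMod p)⁻¹).val : ℤ) with ht
      refine ⟨(ModularGroup.S * ModularGroup.T ^ t) • τ₀, by rw [X0.jFun_smul, hτ₀], ?_⟩
      have hm : ¬ p ∣ (v 0 : ZMod p).val := fun hd => h0
        ((ZMod.val_eq_zero _).mp (Nat.eq_zero_of_dvd_of_lt hd (ZMod.val_lt _)))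
      refine h _ _ hm P ?_
      rw [hv, ← torsPt_nsmul]
      refine torsPt_congr fun i => ?_
      fin_cases i
      · simp [ModularGroup.coe_S, ModularGroup.coe_T_zpow]
      · simp [ht, ModularGroup.coe_S, ModularGroup.coe_T_zpow]
        field_simp
  intro γ m hm P hP
  rw [hP, isoJ_nsmul (p_nsmul_torsPt _ _) hm, isoJ_torsPt hodd]

end Fermat.Agent.Mazur.Moduli
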