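import Fermat.Agent.Igusa.PrimeLevel
import Fermat.Agent.Mazur.Interface
import Fermat.Agent.Mazur.Local
import Fermat.Agent.Mazur.Moduli.Fibre
import Fermat.Agent.Mazur.Moduli.Uniformise

/-!
# The moduli point of a stable line

`ModuliPoint p W` for every `W`: the place of `X₀(p)` with values `(j(E), j(E/C))` when the line is
toric, `(j(E/C), j(E))` when it is etale, is rational and lies in the disc of `∞` at `2` and at `3`.
-/

noncomputable section

open WeierstrassCurve WeierstrassCurve.Affine Polynomial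
open scoped WeierstrassCurve.Affine

namespace Fermat.Agent.Mazur.Moduli

open Fermat.Agent.Frey

local notation "Qbar" => AlgebraicClosure ℚ

variable {p : ℕ} [hp : Fact p.Prime] {W : WeierstrassCurve ℤ}

theorem c₄_barCurve : (barCurve W).c₄ = (W.c₄ : Qbar) := by
  rw [barCurve_eq]; exact map_c₄ _ _

theorem Δ_barCurve : (barCurve W).Δ = (W.Δ : Qbar) := by
  rw [barCurve_eq]; exact map_Δ _ _

/-- `j` of the curve. -/
def jVal (W : WeierstrassCurve ℤ) : Qbar := (W.c₄ : Qbar) ^ 3 / (W.Δ : Qbar)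

/-- `j` of the quotient by the line. -/
def jQuot (p : ℕ) [Fact p.Prime] (W : WeierstrassCurve ℤ) (Q : (barCurve W).Point) : Qbar :=
  isoJ (barCurve W) p Q

section Local

variable {A : ValuationSubring Qbar} {ℓ : ℕ}

theorem terms_mem (hℓ : ℓ.Prime) (hA : A.LiesOverPrime ℓ) (hp2 : p ≠ 2) (hℓp : ℓ ≠ p)
    {P : (barCurve W).Point} (hP : p • P = 0) :
    c4Term (barCurve W) P ∈ A ∧ dTerm (barCurve W) P ∈ A := by
  have hW := barCurve_intCoeff (W := W) (A := A)
  rcases P with _ | ⟨x, y, h⟩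
  · exact ⟨zero_mem A, one_mem A⟩
  · have hx := x_mem_of_torsion hℓ hA hp.out hp2 hℓp hP
    have hy := y_mem hW h.1 hx
    rw [c4Term_some, dTerm_some]
    refine ⟨?_, pow_mem (add_mem (add_mem (mul_mem (Frey.ofNat_mem A 2) hy) (mul_mem hW.h1 hx))
      hW.h3) 4⟩
    refine add_mem (add_mem (mul_mem (Frey.ofNat_mem A 6) (pow_mem hx 2)) (mul_mem ?_ hx)) ?_
    · rw [WeierstrassCurve.b₂]
      exact add_mem (pow_mem hW.h1 2) (mul_mem (Frey.ofNat_mem A 4) hW.h2)
    · rw [WeierstrassCurve.b₄]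
      exact add_mem (mul_mem (Frey.ofNat_mem A 2) hW.h4) (mul_mem hW.h1 hW.h3)

/-- In the zero component the factor is a unit. -/
theorem dTerm_unit (hℓ : ℓ.Prime) (hA : A.LiesOverPrime ℓ) (hp2 : p ≠ 2) (hℓp : ℓ ≠ p)
    {P : (barCurve W).Point} (hP : p • P = 0) (hP0 : P ≠ 0) (hns : W.InZeroComponentAt A P) :
    A.valuation (dTerm (barCurve W) P) = 1 := by
  have hW := barCurve_intCoeff (W := W) (A := A)
  obtain ⟨x, y, h, rfl⟩ := exists_some_of_ne_zero hP0
  have hx := x_mem_of_torsion hℓ hA hp.out hp2 hℓp hP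
  refine le_antisymm (mem_iff_val.1 (terms_mem hℓ hA hp2 hℓp hP).2) (le_of_not_gt fun hlt => ?_)
  rw [dTerm_some, map_pow] at hlt
  have hψ : 2 * y + (barCurve W).a₁ * x + (barCurve W).a₃ ∈ A.nonunits := by
    rw [m_iff_val]
    by_contra hge
    exact hlt.not_ge (one_le_pow₀ (not_lt.1 hge))
  have hdy : (barCurve W).negY x y - y ∈ A.nonunits := by
    rw [Affine.negY, show -y - (barCurve W).a₁ * x - (barCurve W).a₃ - y =
      -(2 * y + (barCurve W).a₁ * x + (barCurve W).a₃) by ring]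
    exact m_neg hψ
  have hneg : -(.some x y h : (barCurve W).Point) - .some x y h = 0 :=
    eq_zero_of_far_ne hℓ hA hp.out hp2 hℓp
        (by rw [nsmul_sub, neg_nsmul, hP, neg_zero, sub_zero]) (by
      rw [Point.neg_some]
      exact far_sub_of_congr hW hx (by rw [sub_self]; exact m_zero) hdy
        fun e => inZero_iff_not_sing.1 hns ⟨hx, e⟩)
  have h2 : 2 • (.some x y h : (barCurve W).Point) = 0 := by
    rw [two_nsmul, ← neg_eq_zero, neg_add, ← sub_eq_add_neg, hneg]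
  have := Nat.le_of_dvd two_pos ((addOrderOf_eq_prime hP hP0) ▸ addOrderOf_dvd_of_nsmul_eq_zero h2)
  have := hp.out.two_le
  omega

/-- Outside the zero component the factor is not a unit. -/
theorem dTerm_lt {P : (barCurve W).Point} (hns : ¬ W.InZeroComponentAt A P) :
    A.valuation (dTerm (barCurve W) P) < 1 := by
  rw [inZero_iff_not_sing, not_not] at hns
  rcases P with _ | ⟨x, y, h⟩
  · exact absurd hns not_sing_zero
  · rw [dTerm_some]
    exact m_iff_val.1 (m_pow (sing_some.1 hns).2.2 (by norm_num))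

variable {Q : (barCurve W).Point}

/-- Valuations of `j` and of `j` of the quotient. -/
theorem valuations (hℓ : ℓ.Prime) (hA : A.LiesOverPrime ℓ) (hp2 : p ≠ 2) (hℓp : ℓ ≠ p)
    (h120 : (ℓ : ℤ) ∣ 120) (hΔ0 : W.Δ ≠ 0) (hΔ : (ℓ : ℤ) ∣ W.Δ) (hc : ¬ (ℓ : ℤ) ∣ W.c₄)
    (hQ : addOrderOf Q = p) :
    1 < A.valuation (jVal W) ∧
      (W.InZeroComponentAt A Q → A.valuation (jQuot p W Q) = A.valuation (jVal W) ^ p) ∧
      (¬ W.InZeroComponentAt A Q → A.valuation (jQuot p W Q) < A.valuation (jVal W) ^ p) := by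
  have hc4 : A.valuation (W.c₄ : Qbar) = 1 :=
    le_antisymm (mem_iff_val.1 (_root_.intCast_mem A _)) (le_of_not_gt fun h =>
      hc ((Gal.intCast_mem_nonunits_iff hℓ hA _).1 (m_iff_val.2 h)))
  have hΔv : A.valuation (W.Δ : Qbar) < 1 :=
    m_iff_val.1 ((Gal.intCast_mem_nonunits_iff hℓ hA _).2 hΔ)
  have hΔpos : 0 < A.valuation (W.Δ : Qbar) :=
    zero_lt_iff.2 ((Valuation.ne_zero_iff _).2 (Int.cast_ne_zero.2 hΔ0))
  have hQ0 : p • Q = 0 := hQ ▸ addOrderOf_nsmul_eq_zero Q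
  have htor : ∀ a : ZMod p, p • (a.val • Q) = 0 := fun a => by
    rw [← mul_nsmul', Nat.mul_comm, mul_nsmul', hQ0, nsmul_zero]
  have hC : A.valuation (isoC4 (barCurve W) p Q) = 1 := by
    rw [isoC4, Valuation.map_add_eq_of_lt_left, c₄_barCurve, hc4]
    rw [c₄_barCurve, hc4]
    refine m_iff_val.1 (m_mul_right ?_ (sum_mem fun a _ => (terms_mem hℓ hA hp2 hℓp (htor a)).1))
    exact_mod_cast (Gal.intCast_mem_nonunits_iff hℓ hA 120).2 h120
  have ha : A.valuation (jVal W) = (A.valuation (W.Δ : Qbar))⁻¹ := by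
    rw [jVal, map_div₀, map_pow, hc4, one_pow, one_div]
  have hb : A.valuation (jQuot p W Q) =
      A.valuation (isoD (barCurve W) p Q) * A.valuation (jVal W) ^ p := by
    rw [ha, jQuot, isoJ, Δ_barCurve, map_div₀, map_mul, map_pow, map_pow, hC, one_pow, one_mul,
      inv_pow, div_eq_mul_inv]
  have hgt : 1 < A.valuation (jVal W) := by rw [ha]; exact (one_lt_inv₀ hΔpos).2 hΔv
  refine ⟨hgt, fun hz => ?_, fun hz => ?_⟩
  · rw [hb, isoD, map_prod, Finset.prod_eq_one fun a ha' => dTerm_unit hℓ hA hp2 hℓp (htor a)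
      (nsmul_ne_zero_of_mem hQ ha') (inZero_nsmul hz _), one_mul]
  · rw [hb]
    refine mul_lt_of_lt_one_left (pow_pos (zero_lt_one.trans hgt) p) ?_
    have h1 : (1 : ZMod p) ∈ Finset.univ.erase (0 : ZMod p) := by simp
    rw [isoD, ← Finset.mul_prod_erase _ _ h1, map_mul]
    refine (mul_le_mul' le_rfl ?_).trans_lt (by
      rw [mul_one, ZMod.val_one, one_nsmul]
      exact dTerm_lt hz)
    exact mem_iff_val.1 (prod_mem fun a _ => (terms_mem hℓ hA hp2 hℓp (htor a)).2)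

end Local

/-- The uniformising `τ` of the pair. -/
theorem exists_tau_pair (hodd : Odd p) (hΔ0 : W.Δ ≠ 0) {Q : (barCurve W).Point}
    (hQ : addOrderOf Q = p) : ∃ τ : UpperHalfPlane, X0.jFun τ = complexEmbedding (jVal W) ∧
      X0.jFun (MF.scale p τ) = complexEmbedding (jQuot p W Q) := by
  classical
  have := isElliptic_mapRat hΔ0
  have : ((W.map (Int.castRingHom ℚ))⁄ℂ).IsElliptic :=
    inferInstanceAs ((W.map (Int.castRingHom ℚ)).map (algebraMap ℚ ℂ)).IsElliptic
  obtain ⟨τ, h1, h2⟩ := exists_tau hodd ((W.map (Int.castRingHom ℚ))⁄ℂ)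
    (Point.map complexEmbedding Q)
    (by rw [addOrderOf_injective _ (Point.map_injective complexEmbedding), hQ])
  refine ⟨τ, h1.trans ?_, h2.trans (isoJ_map _ complexEmbedding Q)⟩
  rw [WeierstrassCurve.j, Units.val_inv_eq_inv_val, WeierstrassCurve.coe_Δ', jVal, map_div₀,
    map_pow, map_intCast, map_intCast, inv_mul_eq_div]
  simp [WeierstrassCurve.baseChange]

theorem jQuot_fixed {Q : (barCurve W).Point} (hQ : addOrderOf Q = p)
    (hst : ∀ σ : Qbar ≃ₐ[ℚ] Qbar, ∃ k : ℕ, σ • Q = k • Q) (σ : Qbar ≃ₐ[ℚ] Qbar) :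
    σ (jQuot p W Q) = jQuot p W Q := by
  classical
  obtain ⟨k, hk⟩ := hst σ
  have hk' : ¬ p ∣ k := by
    rintro ⟨m, rfl⟩
    have h0 : σ • Q = 0 := by
      rw [hk, mul_nsmul, ← hQ, addOrderOf_nsmul_eq_zero, nsmul_zero]
    replace h0 : Q = 0 := Point.map_injective σ.toAlgHom (h0.trans (map_zero _).symm)
    rw [h0, addOrderOf_zero] at hQ
    exact hp.out.ne_one hQ.symm
  have h := isoJ_map (p := p) (W.map (Int.castRingHom ℚ)) σ.toAlgHom Q
  rw [show Point.map σ.toAlgHom Q = k • Q from hk,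
    isoJ_nsmul (hQ ▸ addOrderOf_nsmul_eq_zero Q) hk'] at h
  exact h.symm

theorem jVal_fixed (σ : Qbar ≃ₐ[ℚ] Qbar) : σ (jVal W) = jVal W := by simp [jVal]

/-- A modular polynomial over `ℚ̄` with the shape, integral at `A`. -/
theorem exists_modPoly_at (A : ValuationSubring Qbar) :
    ∃ (ζ : Qbarˣ) (ΦA : Polynomial (Polynomial A)), ModShape p ΦA ∧
      (ΦA.map (mapRingHom A.subtype)).map (Igusa.evalAt (Igusa.jv (1 : Qbarˣ) p)) =
        Igusa.phiSer p ζ := by
  obtain ⟨ζ, hζ⟩ := Igusa.exists_primitive (K := Qbar) (p := p) (Nat.cast_ne_zero.2 hp.out.ne_zero)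
  have hmem : (ζ : Qbar) ∈ A := by
    rw [mem_iff_val]
    by_contra hgt
    have := one_lt_pow₀ (not_le.1 hgt) hp.out.ne_zero
    rw [← map_pow, hζ.pow_eq_one, map_one] at this
    exact lt_irrefl _ this
  set ζA : A := ⟨(ζ : Qbar), hmem⟩
  have hζA : IsPrimitiveRoot ζA p := hζ.of_map_of_injective (f := A.subtype) Subtype.val_injective
  set u : Aˣ := Units.ofPowEqOne ζA p hζA.pow_eq_one hp.out.ne_zero
  have hu : IsPrimitiveRoot (u : A) p := hζA
  obtain ⟨ΦA, hΦ⟩ := Igusa.exists_modPoly hu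
  refine ⟨ζ, ΦA, modShape_of_map_eq hu hΦ, ?_⟩
  have h := congrArg (Polynomial.map (ModularCurve.coeffMap A.subtype)) hΦ
  rw [Igusa.map_phiSer, show Units.map (A.subtype : A →* Qbar) u = ζ from Units.ext rfl,
    Polynomial.map_map] at h
  rw [← h, Polynomial.map_map]
  congr 1
  refine RingHom.ext fun P => ?_
  rw [RingHom.comp_apply, RingHom.comp_apply, coe_mapRingHom, Igusa.coeffMap_evalAt,
    Igusa.coeffMap_jv _ _ hp.out.ne_zero, map_one]

/-- Dichotomy and simplicity at a root with `|a| > 1`. -/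
theorem place_dichotomy {A : ValuationSubring Qbar} {ζ : Qbarˣ} {ΦA : Polynomial (Polynomial A)}
    (hs : ModShape p ΦA)
    (hΦ : (ΦA.map (mapRingHom A.subtype)).map (Igusa.evalAt (Igusa.jv (1 : Qbarˣ) p)) =
      Igusa.phiSer p ζ) {x : XPlace p} {a b : Qbar} (hxa : HasVal x (jBar p) a)
    (hxb : HasVal x (jNBar p) b) (ha : 1 < A.valuation a) :
    (A.valuation b = A.valuation a ^ p ∨ A.valuation a = A.valuation b ^ p) ∧
      (A.valuation b = A.valuation a ^ p →
        (derivative ((ΦA.map (mapRingHom A.subtype)).map (evalRingHom a))).eval b ≠ 0) := by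
  have e : (ΦA.map (mapRingHom A.subtype)).map (evalRingHom a) =
      ΦA.map (eval₂RingHom A.subtype a) := by
    rw [Polynomial.map_map]
    congr 1
    refine RingHom.ext fun P => ?_
    rw [RingHom.comp_apply, coe_mapRingHom, coe_evalRingHom, coe_eval₂RingHom, eval_map]
  have h0 : ((ΦA.map (mapRingHom A.subtype)).map (evalRingHom a)).eval b = 0 := by
    rw [map_evalRingHom_eval]
    exact (ev2_modPoly p hΦ ▸ hasVal_ev2 hxa hxb _).eq_of_zero
  rw [e] at h0 ⊢
  exact dichotomy_of_modShape (v := A.valuation) hp.out.two_le (fun r => mem_iff_val.1 r.2) hs ha h0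

/-- Values with `|b| = |a| ^ p > 1` put the place in the disc of `∞`. -/
theorem nearInfty_of_val {x : XPlace p} {A : ValuationSubring Qbar} {a b : Qbar}
    (hxa : HasVal x (jBar p) a) (hxb : HasVal x (jNBar p) b) (ha : 1 < A.valuation a)
    (h : A.valuation b = A.valuation a ^ p) : NearInfty p A x := by
  have h0 : A.valuation a ^ p ≠ 0 := pow_ne_zero _ (zero_lt_one.trans ha).ne'
  refine ⟨a, b, (hasValue_iff_hasVal p x _ a).2 hxa, (hasValue_iff_hasVal p x _ b).2 hxb,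
    not_mem_iff_val.2 ha, ?_, ?_⟩ <;>
  · rw [mem_iff_val, map_mul, map_inv₀, map_pow, h]
    simp [h0]

/-- Such a place with rational values is rational. -/
theorem rational_of_val {x : XPlace p} {A : ValuationSubring Qbar} {a b : Qbar}
    (hxa : HasVal x (jBar p) a) (hxb : HasVal x (jNBar p) b) (ha : 1 < A.valuation a)
    (h : A.valuation b = A.valuation a ^ p) (hσa : ∀ σ : Qbar ≃ₐ[ℚ] Qbar, σ a = a)
    (hσb : ∀ σ : Qbar ≃ₐ[ℚ] Qbar, σ b = b) : IsRationalPlace p x := by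
  intro σ
  obtain ⟨ζ, ΦA, hs, hΦ⟩ := exists_modPoly_at (p := p) A
  have h1 := hasVal_smul p σ hxa
  have h2 := hasVal_smul p σ hxb
  rw [smul_jBar, hσa] at h1
  rw [smul_jNBar, hσb] at h2
  exact place_unique p hΦ ((place_dichotomy hs hΦ hxa hxb ha).2 h) h1 h2 hxa hxb

/-- The place with the values `(j(pτ), j(τ))`. -/
theorem exists_place_swap (τ : UpperHalfPlane) {a b : Qbar}
    (ha : X0.jFun τ = complexEmbedding a) (hb : X0.jFun (MF.scale p τ) = complexEmbedding b) :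
    ∃ x : XPlace p, HasVal x (jBar p) b ∧ HasVal x (jNBar p) a := by
  refine exists_place p (ModularGroup.S • MF.scale p τ) (by rw [X0.jFun_smul, hb]) ?_
  have : MF.scale p (ModularGroup.S • MF.scale p τ) = ModularGroup.S • τ := by
    refine UpperHalfPlane.ext ?_
    rw [MF.coe_scale, UpperHalfPlane.modular_S_smul, UpperHalfPlane.modular_S_smul]
    have hp0 : (p : ℂ) ≠ 0 := Nat.cast_ne_zero.2 hp.out.ne_zero
    have hτ := τ.ne_zero
    simp only [MF.coe_scale]
    field_simp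
  rw [this, X0.jFun_smul, ha]

end Fermat.Agent.Mazur.Moduli

namespace Fermat.Agent.Mazur

open Moduli Frey

/-- The moduli point of a stable line: `ModuliPoint p W`. -/
theorem moduliPoint (p : ℕ) [NeZero p] (W : WeierstrassCurve ℤ) : ModuliPoint p W := by
  intro hp h11 hΔ0 h2Δ h2c h3Δ h3c Q hQ hcase
  have : Fact p.Prime := ⟨hp⟩
  have hp2 : p ≠ 2 := by omega
  have hodd : Odd p := hp.odd_of_ne_two hp2
  obtain ⟨τ, hτa, hτb⟩ := exists_tau_pair hodd hΔ0 hQ.1
  have v2 : ∀ A : ValuationSubring (AlgebraicClosure ℚ), A.LiesOverPrime 2 → _ := fun A hA =>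
    valuations (Q := Q) Nat.prime_two hA hp2 (by omega) (by norm_num) hΔ0 h2Δ h2c hQ.1
  have v3 : ∀ A : ValuationSubring (AlgebraicClosure ℚ), A.LiesOverPrime 3 → _ := fun A hA =>
    valuations (Q := Q) Nat.prime_three hA hp2 (by omega) (by norm_num) hΔ0 h3Δ h3c hQ.1
  obtain ⟨A₀, hA₀⟩ := Gal.exists_liesOverPrime Nat.prime_two
  obtain ⟨x, hxa, hxb⟩ := exists_place p τ hτa hτb
  rcases hcase with ⟨ht2, ht3⟩ | ⟨he2, he3⟩
  · refine ⟨x, rational_of_val hxa hxb (v2 A₀ hA₀).1 ((v2 A₀ hA₀).2.1 (ht2 A₀ hA₀)) jVal_fixed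
      (jQuot_fixed hQ.1 hQ.2), fun A hA => ?_, fun A hA => ?_⟩
    · exact nearInfty_of_val hxa hxb (v2 A hA).1 ((v2 A hA).2.1 (ht2 A hA))
    · exact nearInfty_of_val hxa hxb (v3 A hA).1 ((v3 A hA).2.1 (ht3 A hA))
  · obtain ⟨x', hxb', hxa'⟩ := exists_place_swap τ hτa hτb
    have key : ∀ A : ValuationSubring (AlgebraicClosure ℚ), 1 < A.valuation (jVal W) →
        A.valuation (jQuot p W Q) < A.valuation (jVal W) ^ p →
          1 < A.valuation (jQuot p W Q) ∧
            A.valuation (jVal W) = A.valuation (jQuot p W Q) ^ p := by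
      intro A ha hlt
      obtain ⟨ζ, ΦA, hs, hΦ⟩ := exists_modPoly_at (p := p) A
      have h := ((place_dichotomy hs hΦ hxa hxb ha).1).resolve_left hlt.ne
      refine ⟨?_, h⟩
      by_contra hle
      exact ha.not_ge (h ▸ pow_le_one₀ zero_le (not_lt.1 hle))
    have k2 := fun A hA => key A (v2 A hA).1 ((v2 A hA).2.2 (he2 A hA))
    have k3 := fun A hA => key A (v3 A hA).1 ((v3 A hA).2.2 (he3 A hA))
    exact ⟨x', rational_of_val hxb' hxa' (k2 A₀ hA₀).1 (k2 A₀ hA₀).2 (jQuot_fixed hQ.1 hQ.2)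
      jVal_fixed, fun A hA => nearInfty_of_val hxb' hxa' (k2 A hA).1 (k2 A hA).2,
      fun A hA => nearInfty_of_val hxb' hxa' (k3 A hA).1 (k3 A hA).2⟩

end Fermat.Agent.Mazur
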