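import Mathlib.AlgebraicGeometry.EllipticCurve.Affine.Point
import Mathlib.Analysis.Normed.Module.Connected
import Mathlib.Analysis.SpecialFunctions.Elliptic.Weierstrass
import Mathlib.LinearAlgebra.Complex.FiniteDimensional

/-!
# The addition theorem of the Weierstrass `℘`-function

For `z + w = s` fixed, `(℘'(z) - ℘'(w))² / (4 (℘(z) - ℘(w))²) - ℘(z) - ℘(w)` has derivative zero
and tends to `℘(s)` at `z = 0`, hence is `℘(s)`.  This is what makes `z ↦ (℘ z, ℘' z / 2)` a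
homomorphism from `ℂ` to the points of `y² = x³ - g₂/4 x - g₃/4` (see `Points`).
-/

noncomputable section

open Filter Topology Set
open scoped PeriodPair

namespace Fermat.Agent.Mazur.Moduli

variable (L : PeriodPair)

theorem deriv_derivP {x : ℂ} (hx : x ∉ L.lattice) : deriv ℘'[L] x = 6 * L.sumInvPow x 4 := by
  rw [← L.deriv_derivWeierstrassPExcept_self x, L.derivWeierstrassPExcept_of_notMem x hx]

theorem derivP_eq_sumInvPow (x : ℂ) : ℘'[L] x = 2 * L.sumInvPow x 3 := by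
  rw [PeriodPair.derivWeierstrassP, PeriodPair.sumInvPow, ← tsum_mul_left, ← tsum_neg]
  refine tsum_congr fun l => ?_
  rw [show (x - (l : ℂ)) ^ 3 = -((l : ℂ) - x) ^ 3 by ring, div_neg, neg_neg, div_eq_mul_inv]

theorem hasDerivAt_P {x : ℂ} (hx : x ∉ L.lattice) : HasDerivAt ℘[L] (℘'[L] x) x := by
  have := (L.analyticOnNhd_weierstrassP x hx).differentiableAt.hasDerivAt
  rwa [L.deriv_weierstrassP] at this

theorem hasDerivAt_derivP {x : ℂ} (hx : x ∉ L.lattice) :
    HasDerivAt ℘'[L] (deriv ℘'[L] x) x :=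
  (L.analyticOnNhd_derivWeierstrassP x hx).differentiableAt.hasDerivAt

theorem countable_lattice : (L.lattice : Set ℂ).Countable := by
  have : Countable L.lattice := L.latticeEquivProd.toEquiv.countable_iff.mpr inferInstance
  exact Set.countable_coe_iff.mp this

theorem one_lt_rank_complex : 1 < Module.rank ℝ ℂ := by
  rw [Complex.rank_real_complex]; norm_num

theorem isPreconnected_compl_lattice : IsPreconnected (L.lattice : Set ℂ)ᶜ :=
  ((countable_lattice L).isPathConnected_compl_of_one_lt_rank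
    one_lt_rank_complex).isConnected.isPreconnected

theorem eventually_notMem_lattice (x : ℂ) : ∀ᶠ z in 𝓝[≠] x, z ∉ L.lattice := by
  filter_upwards [self_mem_nhdsWithin,
    mem_nhdsWithin_of_mem_nhds (L.compl_lattice_sdiff_singleton_mem_nhds x)] with z hz hz'
  exact fun h => hz' ⟨h, hz⟩

theorem tendsto_sq_mul_P : Tendsto (fun z => z ^ 2 * ℘[L] z) (𝓝[≠] 0) (𝓝 1) := by
  have h0 : (0 : ℂ) ∈ L.lattice := zero_mem _
  have hc : ContinuousAt (fun z : ℂ => z ^ 2 * ℘[L - (0 : ℂ)] z + 1) 0 := by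
    have := (L.analyticAt_weierstrassPExcept 0).continuousAt
    fun_prop
  refine Tendsto.congr' ?_ ((hc.tendsto.mono_left nhdsWithin_le_nhds).trans (by simp))
  filter_upwards [self_mem_nhdsWithin] with z (hz : z ≠ 0)
  have := L.ite_eq_one_sub_sq_mul_weierstrassP 0 h0 z
  rw [if_neg hz] at this
  simpa using this.symm

theorem exists_derivP_ne_zero : ∃ x ∉ L.lattice, ℘'[L] x ≠ 0 := by
  by_contra! h
  obtain ⟨c, hc⟩ := L.isClosed_lattice.isOpen_compl.exists_is_const_of_deriv_eq_zero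
    (isPreconnected_compl_lattice L) L.differentiableOn_weierstrassP
    (fun x hx => by rw [L.deriv_weierstrassP, h x hx]; rfl)
  have : (1 : ℂ) = 0 := by
    refine tendsto_nhds_unique (tendsto_sq_mul_P L) (Tendsto.congr' ?_
      ((show ContinuousAt (fun z : ℂ => z ^ 2 * c) 0 by fun_prop).tendsto.mono_left
        nhdsWithin_le_nhds |>.trans (by simp)))
    filter_upwards [eventually_notMem_lattice L 0] with z hz
    rw [hc z hz]
  exact one_ne_zero this

theorem deriv_derivP_eq {x : ℂ} (hx : x ∉ L.lattice) :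
    deriv ℘'[L] x = 6 * ℘[L] x ^ 2 - L.g₂ / 2 := by
  set h : ℂ → ℂ := fun z => deriv ℘'[L] z - (6 * ℘[L] z ^ 2 - L.g₂ / 2) with hh
  have hP := L.analyticOnNhd_weierstrassP
  have hP' := L.analyticOnNhd_derivWeierstrassP
  have hmul : EqOn (h * ℘'[L]) 0 (L.lattice : Set ℂ)ᶜ := by
    intro z hz
    have h1 := ((hasDerivAt_derivP L hz).pow 2)
    have h2 := ((((hasDerivAt_P L hz).pow 3).const_mul 4).sub
      ((hasDerivAt_P L hz).const_mul L.g₂)).sub_const L.g₃
    have he : (℘'[L] ^ 2) =ᶠ[𝓝 z] fun y => 4 * ℘[L] y ^ 3 - L.g₂ * ℘[L] y - L.g₃ := by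
      filter_upwards [L.isClosed_lattice.isOpen_compl.mem_nhds hz] with y hy
      exact L.derivWeierstrassP_sq y hy
    have := (h1.congr_of_eventuallyEq he.symm).unique h2
    simp only [Pi.mul_apply, Pi.zero_apply, hh]
    simp only [Nat.cast_ofNat, Nat.add_one_sub_one] at this
    linear_combination this / 2
  have hanh : AnalyticOnNhd ℂ h (L.lattice : Set ℂ)ᶜ := fun z hz => by
    have := hP'.deriv z hz
    have := hP z hz
    fun_prop
  rcases AnalyticOnNhd.eq_zero_or_eq_zero_of_smul_eq_zero hanh hP'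
    (fun z hz => by simpa [smul_eq_mul] using hmul hz) (isPreconnected_compl_lattice L) with h0 | h0
  · exact sub_eq_zero.mp (h0 x hx)
  · obtain ⟨y, hy, hy'⟩ := exists_derivP_ne_zero L
    exact absurd (h0 y hy) hy'

/-- The second derivative as a lattice sum. -/
theorem sumInvPow_four {x : ℂ} (hx : x ∉ L.lattice) :
    6 * L.sumInvPow x 4 = 6 * ℘[L] x ^ 2 - L.g₂ / 2 := by
  rw [← deriv_derivP L hx, deriv_derivP_eq L hx]

/-! ### The addition theorem -/

/-- The addition theorem, with denominators cleared. -/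
theorem addition_cleared {z w : ℂ} (hz : z ∉ L.lattice) (hw : w ∉ L.lattice)
    (hs : z + w ∉ L.lattice) :
    4 * (℘[L] (z + w) + ℘[L] z + ℘[L] w) * (℘[L] z - ℘[L] w) ^ 2 =
      (℘'[L] z - ℘'[L] w) ^ 2 := by
  set s := z + w with hsdef
  set Ω : Set ℂ := ((L.lattice : Set ℂ) ∪ (fun l => s - l) '' L.lattice)ᶜ with hΩ
  have hcnt := (countable_lattice L).union ((countable_lattice L).image fun l => s - l)
  have hΩconn : IsPreconnected Ω :=
    (hcnt.isPathConnected_compl_of_one_lt_rank one_lt_rank_complex).isConnected.isPreconnected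
  have hmem : ∀ u, u ∈ Ω ↔ u ∉ L.lattice ∧ s - u ∉ L.lattice := fun u => by
    simp only [hΩ, Set.mem_compl_iff, Set.mem_union, SetLike.mem_coe, Set.mem_image, not_or,
      not_exists, not_and]
    exact and_congr_right fun _ =>
      ⟨fun h hu => h _ hu (sub_sub_cancel s u), fun h l hl e => h (e ▸ by rwa [sub_sub_cancel])⟩
  have hP : ∀ u ∉ L.lattice, AnalyticAt ℂ ℘[L] u := fun u hu => L.analyticOnNhd_weierstrassP u hu
  have hP' : ∀ u ∉ L.lattice, AnalyticAt ℂ ℘'[L] u :=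
    fun u hu => L.analyticOnNhd_derivWeierstrassP u hu
  set G : ℂ → ℂ := fun u => 4 * (℘[L] s + ℘[L] u + ℘[L] (s - u)) * (℘[L] u - ℘[L] (s - u)) ^ 2 -
    (℘'[L] u - ℘'[L] (s - u)) ^ 2 with hG
  have hGan : AnalyticOnNhd ℂ G Ω := fun u hu => by
    obtain ⟨h1, h2⟩ := (hmem u).mp hu
    have e1 : AnalyticAt ℂ (fun v => ℘[L] (s - v)) u := (hP _ h2).comp (by fun_prop)
    have e2 : AnalyticAt ℂ (fun v => ℘'[L] (s - v)) u := (hP' _ h2).comp (by fun_prop)
    have := hP u h1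
    have := hP' u h1
    fun_prop
  suffices h : EqOn G 0 Ω by
    have := h ((hmem z).mpr ⟨hz, by rwa [hsdef, add_sub_cancel_left]⟩)
    simp only [hG, hsdef, add_sub_cancel_left, Pi.zero_apply, sub_eq_zero] at this
    exact this
  -- study near the origin
  set e₁ := ℘[L - (0 : ℂ)]
  set e₂ := ℘'[L - (0 : ℂ)]
  set A : ℂ → ℂ := fun u => ℘[L] (s - u)
  set B : ℂ → ℂ := fun u => ℘'[L] (s - u)
  have hA : AnalyticAt ℂ A 0 := (hP _ (by simpa using hs)).comp (by fun_prop)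
  have hB : AnalyticAt ℂ B 0 := (hP' _ (by simpa using hs)).comp (by fun_prop)
  have he₁ : AnalyticAt ℂ e₁ 0 := L.analyticAt_weierstrassPExcept 0
  have he₂ : AnalyticAt ℂ e₂ 0 := L.analyticAt_derivWeierstrassPExcept 0
  set Num : ℂ → ℂ := fun u => -4 * u * (e₂ u - B u) + u ^ 4 * (e₂ u - B u) ^ 2 -
    4 * (3 * e₁ u - A u) - 4 * u ^ 2 * ((e₁ u - A u) ^ 2 + 2 * (e₁ u + A u) * (e₁ u - A u)) -
    4 * u ^ 4 * (e₁ u + A u) * (e₁ u - A u) ^ 2 with hNum
  set Den : ℂ → ℂ := fun u => 4 * (1 + u ^ 2 * (e₁ u - A u)) ^ 2 with hDen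
  set Xt : ℂ → ℂ := fun u => Num u / Den u with hXt
  have hDen0 : Den 0 ≠ 0 := by simp [hDen]
  have hXan : AnalyticAt ℂ Xt 0 := by
    simp only [hXt, hNum, hDen]
    exact AnalyticAt.div (by fun_prop) (by fun_prop) (by simp)
  have hX0 : Xt 0 = ℘[L] s := by
    simp [hXt, hNum, hDen, e₁, A, L.weierstrassPExcept_zero]
  have hev : ∀ᶠ u in 𝓝[≠] (0 : ℂ), u ∈ Ω ∧ Den u ≠ 0 ∧ u ≠ 0 := by
    have h1 := eventually_notMem_lattice L 0
    have h2 : ∀ᶠ u in 𝓝 (0 : ℂ), s - u ∉ L.lattice :=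
      (show ContinuousAt (fun u => s - u) 0 by fun_prop).eventually_mem
        (L.isClosed_lattice.isOpen_compl.mem_nhds (by simpa using hs))
    have h3 : ∀ᶠ u in 𝓝 (0 : ℂ), Den u ≠ 0 :=
      (show ContinuousAt Den 0 by fun_prop).eventually_ne hDen0
    filter_upwards [h1, mem_nhdsWithin_of_mem_nhds h2, mem_nhdsWithin_of_mem_nhds h3,
      self_mem_nhdsWithin] with u a b c d
    exact ⟨(hmem u).mpr ⟨a, b⟩, c, d⟩
  have hexp : ∀ u, u ∈ Ω → u ≠ 0 →
      ℘[L] u = 1 / u ^ 2 + e₁ u ∧ ℘'[L] u = -2 / u ^ 3 + e₂ u := by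
    intro u _ hu
    have a := L.weierstrassPExcept_def ⟨0, zero_mem _⟩ u
    have b := L.derivWeierstrassPExcept_def ⟨0, zero_mem _⟩ u
    simp only [sub_zero] at a b
    constructor
    · simp only [e₁, a]; simp
    · simp only [e₂, b]; ring
  -- on the punctured neighbourhood `Xt` is the chord expression, whose derivative is zero
  have hXeq : ∀ᶠ u in 𝓝[≠] (0 : ℂ), ℘[L] u - A u ≠ 0 ∧
      Xt u = ((℘'[L] u - B u) / (℘[L] u - A u)) ^ 2 / 4 - ℘[L] u - A u := by
    filter_upwards [hev] with u ⟨huΩ, huD, hu0⟩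
    obtain ⟨a, b⟩ := hexp u huΩ hu0
    have hd : ℘[L] u - A u = (1 + u ^ 2 * (e₁ u - A u)) / u ^ 2 := by rw [a]; field_simp; ring
    have h1 : 1 + u ^ 2 * (e₁ u - A u) ≠ 0 := fun h => huD (by simp [hDen, h])
    refine ⟨by rw [hd]; exact div_ne_zero h1 (pow_ne_zero 2 hu0), ?_⟩
    rw [hd, a, b, hXt]
    simp only [hNum, hDen]
    field_simp
    ring
  have hderiv : ∀ᶠ u in 𝓝[≠] (0 : ℂ), deriv Xt u = 0 := by
    filter_upwards [eventually_eventually_nhdsWithin.mpr hXeq, hXeq, hev] with u hu hu' ⟨huΩ, _,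
        hu0⟩
    have hu2 : Xt =ᶠ[𝓝 u]
        fun v => ((℘'[L] v - B v) / (℘[L] v - A v)) ^ 2 / 4 - ℘[L] v - A v := by
      rw [isOpen_compl_singleton.nhdsWithin_eq hu0] at hu
      exact hu.mono fun v hv => hv.2
    obtain ⟨h1, h2⟩ := (hmem u).mp huΩ
    have dA : HasDerivAt A (-℘'[L] (s - u)) u := by
      simpa [A, Function.comp_def] using
        (hasDerivAt_P L h2).comp u ((hasDerivAt_id u).const_sub s)
    have dB : HasDerivAt B (-deriv ℘'[L] (s - u)) u := by
      simpa [B, Function.comp_def] using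
        (hasDerivAt_derivP L h2).comp u ((hasDerivAt_id u).const_sub s)
    have hfinal := ((((hasDerivAt_derivP L h1).sub dB).div ((hasDerivAt_P L h1).sub dA) hu'.1).pow
      2 |>.div_const 4).sub (hasDerivAt_P L h1) |>.sub dA
    rw [hu2.deriv_eq]
    refine hfinal.deriv.trans ?_
    simp only [Pi.sub_apply, Pi.div_apply, deriv_derivP_eq L h1, deriv_derivP_eq L h2,
      Nat.cast_ofNat, Nat.add_one_sub_one, pow_one, A, B]
    have r1 := L.derivWeierstrassP_sq u h1
    have r2 := L.derivWeierstrassP_sq (s - u) h2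
    have hne : ℘[L] u - ℘[L] (s - u) ≠ 0 := hu'.1
    field_simp
    grind
  have hconst : ∀ᶠ u in 𝓝 (0 : ℂ), Xt u = ℘[L] s := by
    have hd0 : ∀ᶠ u in 𝓝 (0 : ℂ), deriv Xt u = 0 :=
      hXan.deriv.frequently_zero_iff_eventually_zero.mp hderiv.frequently
    obtain ⟨r, hr, hball⟩ := Metric.eventually_nhds_iff_ball.mp
      (hd0.and hXan.eventually_analyticAt)
    filter_upwards [Metric.ball_mem_nhds 0 hr] with u hu
    rw [← hX0]
    exact Metric.isOpen_ball.is_const_of_deriv_eq_zero (convex_ball 0 r).isPreconnected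
      (fun v hv => (hball v hv).2.differentiableAt.differentiableWithinAt)
      (fun v hv => (hball v hv).1) hu (Metric.mem_ball_self hr)
  have hG0 : ∀ᶠ u in 𝓝[≠] (0 : ℂ), G u = 0 := by
    filter_upwards [hXeq, mem_nhdsWithin_of_mem_nhds hconst] with u ⟨hne, h1⟩ h2
    have h2' : Xt u = ℘[L] s := h2
    rw [h2'] at h1
    simp only [A, B] at h1 hne
    simp only [hG]
    rw [h1]
    field_simp
    ring
  obtain ⟨u₀, ⟨hu₀, -, -⟩, hG₀⟩ := (hev.and (eventually_eventually_nhdsWithin.mpr hG0)).exists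
  refine hGan.eqOn_zero_of_preconnected_of_eventuallyEq_zero hΩconn hu₀ ?_
  have hne0 : u₀ ≠ 0 := fun h => ((hmem u₀).mp hu₀).1 (h ▸ zero_mem _)
  rwa [isOpen_compl_singleton.nhdsWithin_eq hne0] at hG₀

/-- The addition theorem of `℘`. -/
theorem addition {z w : ℂ} (hz : z ∉ L.lattice) (hw : w ∉ L.lattice) (hs : z + w ∉ L.lattice)
    (hne : ℘[L] z ≠ ℘[L] w) :
    ℘[L] (z + w) = ((℘'[L] z - ℘'[L] w) / (℘[L] z - ℘[L] w)) ^ 2 / 4 - ℘[L] z - ℘[L] w := by
  have h := addition_cleared L hz hw hs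
  have hd : ℘[L] z - ℘[L] w ≠ 0 := sub_ne_zero.mpr hne
  field_simp
  linear_combination h

/-- The addition theorem for `℘'`. -/
theorem addition_deriv {z w : ℂ} (hz : z ∉ L.lattice) (hw : w ∉ L.lattice)
    (hs : z + w ∉ L.lattice) (hne : ℘[L] z ≠ ℘[L] w) :
    ℘'[L] (z + w) = -(℘'[L] z +
      (℘'[L] z - ℘'[L] w) / (℘[L] z - ℘[L] w) * (℘[L] (z + w) - ℘[L] z)) := by
  have hd : ℘[L] z - ℘[L] w ≠ 0 := sub_ne_zero.mpr hne
  have he : (fun v => ℘[L] (z + v)) =ᶠ[𝓝 w]
      fun v => ((℘'[L] z - ℘'[L] v) / (℘[L] z - ℘[L] v)) ^ 2 / 4 - ℘[L] z - ℘[L] v := by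
    have h1 : ∀ᶠ v in 𝓝 w, v ∉ L.lattice := L.isClosed_lattice.isOpen_compl.mem_nhds hw
    have h2 : ∀ᶠ v in 𝓝 w, z + v ∉ L.lattice :=
      (continuous_const_add z).continuousAt.eventually_mem
        (L.isClosed_lattice.isOpen_compl.mem_nhds hs)
    have h3 : ∀ᶠ v in 𝓝 w, ℘[L] z ≠ ℘[L] v :=
      ((hasDerivAt_P L hw).continuousAt.eventually_ne hne.symm).mono fun v h => h.symm
    filter_upwards [h1, h2, h3] with v a b c
    exact addition L hz a b c
  have d1 : HasDerivAt (fun v => ℘[L] (z + v)) (℘'[L] (z + w)) w := by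
    simpa [Function.comp_def] using (hasDerivAt_P L hs).comp w ((hasDerivAt_id w).const_add z)
  have d2 := (((((hasDerivAt_derivP L hw).const_sub (℘'[L] z)).div
    ((hasDerivAt_P L hw).const_sub (℘[L] z)) hd).pow 2).div_const 4).sub_const (℘[L] z)
      |>.sub (hasDerivAt_P L hw)
  rw [(d1.congr_of_eventuallyEq he.symm).unique d2, addition L hz hw hs hne]
  simp only [Pi.div_apply, deriv_derivP_eq L hw, Nat.cast_ofNat, Nat.add_one_sub_one, pow_one]
  have r1 := L.derivWeierstrassP_sq z hz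
  have r2 := L.derivWeierstrassP_sq w hw
  field_simp
  grind

end Fermat.Agent.Mazur.Moduli
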